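import Mathlib
import Fermat.Agent.S22.Inputs
import Fermat.Agent.S22.Cocycle
import Fermat.Prelude.Def_ModularCurve_PeriodHomPair

/-!
# S20/S21, module M: the period map of level `N`

* `periodPrim f`: the canonical primitive of a weight-2 cusp form (1-periodic, tends to `0` at
  `i∞`);
* `period_hasEquivariantPrimitive`, `period_unique`, `period_periodMap_apply`;
* `existsPeriodMapLinear`: the period map is linear;
* `periodMap_mem_parabolicHoms`: periods along parabolic elements vanish.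
-/

set_option autoImplicit false

open UpperHalfPlane ModularForm CongruenceSubgroup Filter Topology ModularCurve ModularCurve.Period
open scoped MatrixGroups

namespace Fermat.Agent.S20

open Fermat.Agent.S22

variable {N : ℕ}

/-- The canonical primitive of a weight-2 cusp form: `1`-periodic, tending to `0` at `i∞`. -/
noncomputable def periodPrim (f : CuspForm (Gamma0 N) 2) : ℍ → ℂ :=
  fun τ => PP.pprim 1 (gf f) (τ : ℂ)

theorem period_cuspLike_gf (f : CuspForm (Gamma0 N) 2) : PP.CuspLike 1 (gf f) :=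
  PP.cuspLike_cuspForm f

theorem period_cuspLike_gfs [NeZero N] (f : CuspForm (Gamma0 N) 2) (δ : SL(2, ℤ)) :
    PP.CuspLike N (gfs f δ) :=
  PP.cuspLike_slash f δ

theorem periodPrim_apply (f : CuspForm (Gamma0 N) 2) (τ : ℍ) :
    periodPrim f τ = PP.pprim 1 (gf f) (τ : ℂ) := rfl

theorem period_hasDerivAt (f : CuspForm (Gamma0 N) 2) (τ : ℍ) :
    HasDerivAt (periodPrim f ∘ ofComplex) (f τ) ↑τ := by
  have h1 : HasDerivAt (PP.pprim 1 (gf f)) (gf f τ) (τ : ℂ) :=
    PP.hasDerivAt_pprim one_pos (period_cuspLike_gf f) τ.im_pos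
  have h2 : gf f (τ : ℂ) = f τ := by
    simp [gf]
  rw [h2] at h1
  refine h1.congr_of_eventuallyEq ?_
  filter_upwards [(isOpen_lt continuous_const Complex.continuous_im).mem_nhds τ.im_pos] with z hz
  simp only [Function.comp_apply, periodPrim]
  rw [ofComplex_apply_of_im_pos hz]

theorem period_tendsto_zero (f : CuspForm (Gamma0 N) 2) :
    Tendsto (periodPrim f) atImInfty (𝓝 0) :=
  ((period_cuspLike_gf f).pprim one_pos).zero.comp tendsto_coe_atImInfty

/-- Derivative of `z ↦ pprim 1 (gf f) (mob δ z)`: the slash translate. -/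
theorem period_hasDerivAt_comp_mob (f : CuspForm (Gamma0 N) 2) (δ : SL(2, ℤ)) {z : ℂ}
    (hz : 0 < z.im) :
    HasDerivAt (fun z => PP.pprim 1 (gf f) (mob δ z)) (gfs f δ z) z := by
  have h1 : HasDerivAt (PP.pprim 1 (gf f)) (gf f (mob δ z)) (mob δ z) :=
    PP.hasDerivAt_pprim one_pos (period_cuspLike_gf f) (mob_im_pos δ hz)
  have h2 := h1.comp z (hasDerivAt_mob δ hz)
  have e : gf f (mob δ z) * (1 / den δ z ^ 2) = gfs f δ z := by
    rw [gfs_apply f δ hz]
    congr 1
    rw [zpow_neg, one_div]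
    norm_cast
  rw [e] at h2
  exact h2

/-- `F ∘ δ` differs from the canonical primitive of `f ∣ δ` by a constant. -/
theorem period_comp_smul [NeZero N] (f : CuspForm (Gamma0 N) 2) (δ : SL(2, ℤ)) :
    ∃ c : ℂ, ∀ w : ℍ, periodPrim f (δ • w) = PP.pprim N (gfs f δ) (w : ℂ) + c := by
  have hN : (0 : ℝ) < N := Nat.cast_pos.mpr (NeZero.pos N)
  obtain ⟨c, hc⟩ := PP.exists_const_of_hasDerivAt
    (G₁ := fun z => PP.pprim 1 (gf f) (mob δ z)) (G₂ := PP.pprim N (gfs f δ))
    (Φ₁ := gfs f δ) (Φ₂ := gfs f δ)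
    (fun z hz => period_hasDerivAt_comp_mob f δ hz)
    (fun z hz => PP.hasDerivAt_pprim hN (period_cuspLike_gfs f δ) hz)
    (fun _ _ => rfl)
  refine ⟨c, fun w => ?_⟩
  have := hc (w : ℂ) w.im_pos
  rw [periodPrim_apply, ← mob_coe]
  linear_combination this

theorem period_tendsto_smul [NeZero N] (f : CuspForm (Gamma0 N) 2) (δ : SL(2, ℤ)) :
    ∃ L : ℂ, Tendsto (fun w : ℍ => periodPrim f (δ • w)) atImInfty (𝓝 L) := by
  have hN : (0 : ℝ) < N := Nat.cast_pos.mpr (NeZero.pos N)
  obtain ⟨c, hc⟩ := period_comp_smul f δ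
  refine ⟨c, ?_⟩
  have h1 : Tendsto (fun w : ℍ => PP.pprim N (gfs f δ) (w : ℂ)) atImInfty (𝓝 0) :=
    ((period_cuspLike_gfs f δ).pprim hN).zero.comp tendsto_coe_atImInfty
  have h2 := h1.add_const c
  rw [zero_add] at h2
  exact h2.congr fun w => (hc w).symm

theorem period_equivariant (f : CuspForm (Gamma0 N) 2) {γ : SL(2, ℤ)} (hγ : γ ∈ Gamma0 N) :
    ∃ c : ℂ, ∀ z : ℍ, periodPrim f (γ • z) - periodPrim f z = c := by
  obtain ⟨c, hc⟩ := PP.exists_const_of_hasDerivAt
    (G₁ := fun z => PP.pprim 1 (gf f) (mob γ z)) (G₂ := PP.pprim 1 (gf f))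
    (Φ₁ := gfs f γ) (Φ₂ := gf f)
    (fun z hz => period_hasDerivAt_comp_mob f γ hz)
    (fun z hz => PP.hasDerivAt_pprim one_pos (period_cuspLike_gf f) hz)
    (fun z hz => gfs_eq_gf f hγ hz)
  refine ⟨c, fun w => ?_⟩
  have := hc (w : ℂ) w.im_pos
  rw [periodPrim_apply, periodPrim_apply, ← mob_coe]
  exact this

theorem period_hasEquivariantPrimitive [NeZero N] (f : CuspForm (Gamma0 N) 2) :
    HasEquivariantPrimitive N f (periodPrim f) :=
  ⟨period_hasDerivAt f, period_tendsto_zero f, fun γ => period_equivariant f γ.2,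
    period_tendsto_smul f⟩

/-- Uniqueness of the primitive in `HasEquivariantPrimitive`. -/
theorem period_unique (f : CuspForm (Gamma0 N) 2) {F : ℍ → ℂ}
    (hF : HasEquivariantPrimitive N f F) : F = periodPrim f := by
  obtain ⟨c, hc⟩ := PP.exists_const_of_hasDerivAt
    (G₁ := F ∘ ofComplex) (G₂ := periodPrim f ∘ ofComplex)
    (Φ₁ := gf f) (Φ₂ := gf f)
    (fun z hz => by
      have := hF.1 ⟨z, hz⟩
      rw [← gf_apply f hz] at this
      exact this)
    (fun z hz => by
      have := period_hasDerivAt f ⟨z, hz⟩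
      rw [← gf_apply f hz] at this
      exact this)
    (fun _ _ => rfl)
  have hc' : ∀ τ : ℍ, F τ - periodPrim f τ = c := fun τ => by
    have := hc (τ : ℂ) τ.im_pos
    simpa using this
  have h1 : Tendsto (fun τ : ℍ => F τ - periodPrim f τ) atImInfty (𝓝 (0 - 0)) :=
    hF.2.1.sub (period_tendsto_zero f)
  have h2 : Tendsto (fun _ : ℍ => c) atImInfty (𝓝 (0 - 0)) := h1.congr hc'
  have h3 : c = 0 := by
    have := tendsto_nhds_unique h2 tendsto_const_nhds
    rw [sub_zero] at this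
    exact this.symm
  funext τ
  have := hc' τ
  rw [h3] at this
  exact sub_eq_zero.mp this

/-- The period map in terms of the canonical primitive. -/
theorem period_periodMap_apply [NeZero N] (f : CuspForm (Gamma0 N) 2) (γ : Gamma0 N) (z : ℍ) :
    periodMap N f (Additive.ofMul γ)
      = periodPrim f ((γ : SL(2, ℤ)) • z) - periodPrim f z := by
  obtain ⟨F₀, h₀, hpm⟩ := periodMap_def N f (period_hasEquivariantPrimitive f)
  have hF := period_unique f h₀
  subst hF
  rw [hpm, IsEquivariantPrimitive.periodHom_apply]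
  exact (h₀.2.2.1.sub_eq_period γ z).symm

theorem periodPrim_add (f g : CuspForm (Gamma0 N) 2) (τ : ℍ) :
    periodPrim (f + g) τ = periodPrim f τ + periodPrim g τ := by
  rw [periodPrim_apply, periodPrim_apply, periodPrim_apply, gf_add]
  exact PP.wprim_add one_pos 0 (period_cuspLike_gf f) (period_cuspLike_gf g) (τ : ℂ) τ.im_pos

theorem periodPrim_smul (c : ℂ) (f : CuspForm (Gamma0 N) 2) (τ : ℍ) :
    periodPrim (c • f) τ = c * periodPrim f τ := by
  rw [periodPrim_apply, periodPrim_apply, gf_smul]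
  exact PP.wprim_const_mul one_pos 0 (period_cuspLike_gf f) c (τ : ℂ) τ.im_pos

theorem period_periodMap_add [NeZero N] (f g : CuspForm (Gamma0 N) 2) :
    periodMap N (f + g) = periodMap N f + periodMap N g := by
  refine AddMonoidHom.ext fun γ => ?_
  have e : γ = Additive.ofMul (Additive.toMul γ) := rfl
  rw [AddMonoidHom.add_apply, e, period_periodMap_apply (f + g) _ UpperHalfPlane.I,
    period_periodMap_apply f _ UpperHalfPlane.I, period_periodMap_apply g _ UpperHalfPlane.I,
    periodPrim_add, periodPrim_add]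
  ring

theorem period_periodMap_smul [NeZero N] (c : ℂ) (f : CuspForm (Gamma0 N) 2) :
    periodMap N (c • f) = c • periodMap N f := by
  refine AddMonoidHom.ext fun γ => ?_
  have e : γ = Additive.ofMul (Additive.toMul γ) := rfl
  rw [AddMonoidHom.smul_apply, e, period_periodMap_apply (c • f) _ UpperHalfPlane.I,
    period_periodMap_apply f _ UpperHalfPlane.I, periodPrim_smul, periodPrim_smul, smul_eq_mul]
  ring

/-- **Module M, part 1.** The period map is linear. -/
theorem existsPeriodMapLinear (N : ℕ) [NeZero N] : ExistsPeriodMapLinear N :=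
  ⟨{ toFun := periodMap N
     map_add' := period_periodMap_add
     map_smul' := fun c f => period_periodMap_smul c f }, fun _ => rfl⟩

/-! ### Parabolic elements -/

/-- Integer arithmetic behind "a parabolic element of `SL(2, ℤ)` fixes a cusp". -/
theorem period_int_aux (a b c d : ℤ) (hdet : a * d - b * c = 1) (htr : (a + d) ^ 2 = 4) :
    ∃ x y u v : ℤ, u * x + v * y = 1 ∧ c * x ^ 2 + (d - a) * x * y - b * y ^ 2 = 0 := by
  by_cases hc : c = 0
  · exact ⟨1, 0, 1, 0, by ring, by rw [hc]; ring⟩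
  have hε : a + d = 2 ∨ a + d = -2 := by
    have h : (a + d - 2) * (a + d + 2) = 0 := by linear_combination htr
    rcases mul_eq_zero.mp h with h | h
    · left; linarith
    · right; linarith
  obtain ⟨ε, hε1, hε2⟩ : ∃ ε : ℤ, ε ^ 2 = 1 ∧ a + d = 2 * ε := by
    rcases hε with h | h
    · exact ⟨1, by ring, by linarith⟩
    · exact ⟨-1, by ring, by linarith⟩
  have hpos : 0 < Int.gcd (a - ε) c := Int.gcd_pos_of_ne_zero_right _ hc
  obtain ⟨x, y, hxy, hx, hy⟩ := Int.exists_gcd_one hpos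
  set g : ℤ := (Int.gcd (a - ε) c : ℤ) with hg
  have hg0 : g ≠ 0 := by
    rw [hg]; exact_mod_cast hpos.ne'
  obtain ⟨u, v, huv⟩ := Int.isCoprime_iff_gcd_eq_one.mpr hxy
  refine ⟨x, y, u, v, huv, ?_⟩
  have hd : d = ε - x * g := by linarith
  have ha : a = x * g + ε := by linarith
  have key : g * (x ^ 2 * g + b * y) = 0 := by
    rw [ha, hd, hy] at hdet
    linear_combination -hdet + hε1
  have key' : x ^ 2 * g + b * y = 0 := by
    rcases mul_eq_zero.mp key with h | h
    · exact absurd h hg0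
    · exact h
  rw [hy, hd, ha]
  linear_combination (-y) * key'

theorem period_conj_lower_left (γ δ : SL(2, ℤ)) :
    (δ⁻¹ * γ * δ) 1 0
      = γ 1 0 * (δ 0 0) ^ 2 + (γ 1 1 - γ 0 0) * δ 0 0 * δ 1 0 - γ 0 1 * (δ 1 0) ^ 2 := by
  simp only [Matrix.SpecialLinearGroup.coe_mul, Matrix.SpecialLinearGroup.coe_inv,
    Matrix.adjugate_fin_two, Matrix.mul_apply, Fin.sum_univ_two, Matrix.of_apply,
    Matrix.cons_val', Matrix.cons_val_zero, Matrix.cons_val_one, Matrix.empty_val',
    Matrix.cons_val_fin_one]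
  ring

theorem period_exists_conj (γ : SL(2, ℤ))
    (h : (γ : Matrix (Fin 2) (Fin 2) ℤ).trace ^ 2 = 4) :
    ∃ δ : SL(2, ℤ), (δ⁻¹ * γ * δ) 1 0 = 0 := by
  have hdet : γ 0 0 * γ 1 1 - γ 0 1 * γ 1 0 = 1 := det_eq_one γ
  rw [Matrix.trace_fin_two] at h
  obtain ⟨x, y, u, v, huv, hq⟩ := period_int_aux (γ 0 0) (γ 0 1) (γ 1 0) (γ 1 1) hdet h
  have hdetδ : (!![x, -v; y, u] : Matrix (Fin 2) (Fin 2) ℤ).det = 1 := by
    rw [Matrix.det_fin_two_of]; linarith
  obtain ⟨δ, e00, e10⟩ : ∃ δ : SL(2, ℤ), δ 0 0 = x ∧ δ 1 0 = y :=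
    ⟨⟨!![x, -v; y, u], hdetδ⟩, rfl, rfl⟩
  refine ⟨δ, ?_⟩
  rw [period_conj_lower_left, e00, e10]
  linear_combination hq

theorem period_im_smul_of_lower_left (M : SL(2, ℤ)) (hM : M 1 0 = 0) (w : ℍ) :
    (M • w).im = w.im := by
  have hdet := det_eq_one M
  rw [hM, mul_zero, sub_zero] at hdet
  have h11 : (M 1 1) ^ 2 = 1 := by
    rcases Int.eq_one_or_neg_one_of_mul_eq_one' hdet with ⟨-, h⟩ | ⟨-, h⟩ <;> rw [h] <;> ring
  rw [ModularGroup.im_smul_eq_div_normSq, ModularGroup.denom_apply, hM]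
  have : Complex.normSq (((0 : ℤ) : ℂ) * (w : ℂ) + ((M 1 1 : ℤ) : ℂ)) = 1 := by
    rw [Int.cast_zero, zero_mul, zero_add, Complex.normSq_intCast]
    have : ((M 1 1 : ℤ) : ℝ) ^ 2 = 1 := by exact_mod_cast h11
    rw [← this]; ring
  rw [this, div_one]

theorem period_tendsto_smul_of_lower_left (M : SL(2, ℤ)) (hM : M 1 0 = 0) :
    Tendsto (fun w : ℍ => M • w) atImInfty atImInfty := by
  rw [atImInfty, tendsto_comap_iff]
  have : (UpperHalfPlane.im ∘ fun w : ℍ => M • w) = UpperHalfPlane.im := by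
    funext w
    exact period_im_smul_of_lower_left M hM w
  rw [this]
  exact tendsto_comap

/-- **Module M, part 2.** Periods along parabolic elements vanish. -/
theorem periodMap_mem_parabolicHoms (N : ℕ) [NeZero N] (f : CuspForm (Gamma0 N) 2) :
    periodMap N f ∈ parabolicHoms ℂ (Gamma0 N) ℂ := by
  rw [mem_parabolicHoms_iff]
  intro γ hγ
  obtain ⟨δ, hδ⟩ := period_exists_conj (γ : SL(2, ℤ)) hγ
  obtain ⟨L, hL⟩ := period_tendsto_smul f δ
  have h1 : ∀ w : ℍ, periodMap N f (Additive.ofMul γ)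
      = periodPrim f (δ • ((δ⁻¹ * (γ : SL(2, ℤ)) * δ) • w)) - periodPrim f (δ • w) := by
    intro w
    rw [period_periodMap_apply f γ (δ • w)]
    congr 2
    rw [← mul_smul, ← mul_smul]
    congr 1
    group
  have h2 := period_tendsto_smul_of_lower_left _ hδ
  have h3 : Tendsto (fun w : ℍ => periodPrim f (δ • ((δ⁻¹ * (γ : SL(2, ℤ)) * δ) • w))
      - periodPrim f (δ • w)) atImInfty (𝓝 (L - L)) := (hL.comp h2).sub hL
  have h4 : Tendsto (fun _ : ℍ => periodMap N f (Additive.ofMul γ)) atImInfty (𝓝 (L - L)) :=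
    h3.congr fun w => (h1 w).symm
  have := tendsto_nhds_unique h4 tendsto_const_nhds
  rw [sub_self] at this
  exact this.symm

end Fermat.Agent.S20
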