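import Mathlib
import Fermat.Agent.S23.Sym
import Fermat.Prelude.Def_ModularCurve_GenusNumerics
import Fermat.Prelude.Def_ModularCurve_PeriodHomPair

/-!
Shared definitions for the S20/S21 project (dimension of `S_2(Gamma0 N)` via the structure of
`⊕ M_k(Gamma0 N)` as a free module over `ℂ[E₄, E₆]`, and Eichler-Shimura).

Everything here is a definition or a trivial lemma; the mathematics lives in the other files of
`Fermat/Agent/S20/`.
-/

set_option autoImplicit false

open UpperHalfPlane ModularForm CongruenceSubgroup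
open scoped MatrixGroups Manifold

namespace Fermat.Agent.S20

/-- The coset space `SL(2, ℤ) ⧸ Gamma0 N` (left cosets `g Γ₀(N)`), with the left translation
action of `SL(2, ℤ)`. -/
abbrev Q (N : ℕ) : Type := SL(2, ℤ) ⧸ Gamma0 N

/-- index of `Gamma0 N` -/
noncomputable def mu (N : ℕ) : ℕ := Nat.card (Q N)

/-- number of cosets fixed by `S` -/
noncomputable def eps2 (N : ℕ) : ℕ := Nat.card {q : Q N // ModularGroup.S • q = q}

/-- number of cosets fixed by `S * T` -/
noncomputable def eps3 (N : ℕ) : ℕ :=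
  Nat.card {q : Q N // (ModularGroup.S * ModularGroup.T) • q = q}

/-- number of orbits of `T` on the cosets -/
noncomputable def epsInf (N : ℕ) : ℕ :=
  Nat.card (MulAction.orbitRel.Quotient (Subgroup.zpowers ModularGroup.T) (Q N))

/-- twelve times the genus: `12 + μ - 3 ε₂ - 4 ε₃ - 6 ε_∞` -/
noncomputable def genusNum (N : ℕ) : ℤ :=
  12 + (mu N : ℤ) - 3 * (eps2 N : ℤ) - 4 * (eps3 N : ℤ) - 6 * (epsInf N : ℤ)

/-- `p` is (the function of) a modular form of level one and weight `k` -/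
def IsLevelOne (k : ℤ) (p : ℍ → ℂ) : Prop := ∃ g : ModularForm 𝒮ℒ k, ⇑g = p

/-- `F` is (the function of) a modular form of weight `k` on `Gamma0 N` -/
def IsForm (N : ℕ) (k : ℤ) (F : ℍ → ℂ) : Prop := ∃ g : ModularForm (Gamma0 N) k, ⇑g = F

/-- `F` is (the function of) a cusp form of weight `k` on `Gamma0 N` -/
def IsCuspF (N : ℕ) (k : ℤ) (F : ℍ → ℂ) : Prop := ∃ g : CuspForm (Gamma0 N) k, ⇑g = F

/-- The vector of values at `z` of all the `SL(2, ℤ)`-translates of `F` (weight `k`), indexed by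
the cosets: `ev N k F z q = (F ∣[k] (q.out)⁻¹) z`. -/
noncomputable def ev (N : ℕ) (k : ℤ) (F : ℍ → ℂ) (z : ℍ) : Q N → ℂ :=
  fun q => Fermat.Agent.S23.SymAux.conjFun (Gamma0 N) F k q z

/-- The level one form of weight 12 vanishing at `z₀`:
`P_{z₀} = Δ(z₀) E₄³ - E₄(z₀)³ Δ`. -/
noncomputable def Pfun (z₀ : ℍ) : ℍ → ℂ :=
  fun z => discriminant z₀ * E₄ z ^ 3 - E₄ z₀ ^ 3 * discriminant z

/-- A homogeneous basis of `⊕_k M_k(Gamma0 N)` over `⊕_k M_k(SL(2, ℤ))`: a family of modular
forms `B a` of weights `w a` such that every modular form is a combination of the `B a` with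
level one coefficients (of the complementary weights), in a unique way. -/
structure HomBasis (N : ℕ) where
  /-- index type -/
  ι : Type
  /-- weights -/
  w : ι → ℤ
  /-- the forms -/
  B : ι → ℍ → ℂ
  isForm : ∀ a, IsForm N (w a) (B a)
  gen : ∀ (k : ℤ) (F : ℍ → ℂ), IsForm N k F →
    ∃ (s : Finset ι) (p : ι → ℍ → ℂ), (∀ a ∈ s, IsLevelOne (k - w a) (p a)) ∧
      F = ∑ a ∈ s, p a * B a
  ind : ∀ (k : ℤ) (s : Finset ι) (p : ι → ℍ → ℂ), (∀ a ∈ s, IsLevelOne (k - w a) (p a)) →
    ∑ a ∈ s, p a * B a = 0 → ∀ a ∈ s, p a = 0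

end Fermat.Agent.S20
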