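import Mathlib

set_option autoImplicit false

namespace Fermat.Agent.S20

/-- trace of the permutation operator in an eigenbasis = number of fixed points -/
theorem perm_sum_eigen_eq_card_fixed {X ι : Type} [Fintype X] [DecidableEq X] [Fintype ι]
    (σ : Equiv.Perm X) (v : ι → X → ℂ) (hv : LinearIndependent ℂ v)
    (hcard : Fintype.card ι = Fintype.card X)
    (c : ι → ℂ) (h : ∀ a x, v a (σ x) = c a * v a x) :
    ∑ a, c a = (Fintype.card {x : X // σ x = x} : ℂ) := by
  classical
  have hfr : Fintype.card ι = Module.finrank ℂ (X → ℂ) := by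
    rw [hcard, Module.finrank_fintype_fun_eq_card]
  have hspan : ⊤ ≤ Submodule.span ℂ (Set.range v) :=
    (hv.span_eq_top_of_card_eq_finrank' hfr).ge
  let b : Module.Basis ι ℂ (X → ℂ) := Module.Basis.mk hv hspan
  have hb : ∀ a, b a = v a := fun a => by simp [b]
  let P : (X → ℂ) →ₗ[ℂ] (X → ℂ) := LinearMap.funLeft ℂ ℂ σ
  have hP : ∀ a, P (b a) = c a • b a := by
    intro a
    funext x
    simp [P, hb, h, LinearMap.funLeft_apply]
  have h1 : LinearMap.trace ℂ (X → ℂ) P = ∑ a, c a := by
    rw [LinearMap.trace_eq_matrix_trace ℂ b, Matrix.trace]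
    refine Finset.sum_congr rfl fun a _ => ?_
    simp [Matrix.diag, LinearMap.toMatrix_apply, hP]
  have h2 : LinearMap.trace ℂ (X → ℂ) P = (Fintype.card {x : X // σ x = x} : ℂ) := by
    rw [LinearMap.trace_eq_matrix_trace ℂ (Pi.basisFun ℂ X), Matrix.trace]
    simp [Matrix.diag, P, LinearMap.funLeft_apply, Pi.single_apply,
      Fintype.card_subtype]
  rw [← h1, h2]

theorem card_eigen_involution {X ι : Type} [Fintype X] [DecidableEq X] [Fintype ι] (σ : Equiv.Perm X)
    (v : ι → X → ℂ) (hv : LinearIndependent ℂ v) (hcard : Fintype.card ι = Fintype.card X)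
    (c : ι → ℂ) (hc : ∀ a, c a = 1 ∨ c a = -1) (h : ∀ a x, v a (σ x) = c a * v a x) :
    2 * (Fintype.card {a : ι // c a = 1} : ℤ) = Fintype.card X + Fintype.card {x : X // σ x = x} := by
  classical
  have key := perm_sum_eigen_eq_card_fixed σ v hv hcard c h
  have hsum : ∑ a, c a = 2 * (Fintype.card {a : ι // c a = 1} : ℂ) - Fintype.card ι := by
    have h1 : ∀ a, c a = 2 * (if c a = 1 then (1 : ℂ) else 0) - 1 := by
      intro a
      rcases hc a with h' | h'
      · rw [h']; norm_num
      · rw [h']; norm_num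
    calc ∑ a, c a = ∑ a, (2 * (if c a = 1 then (1 : ℂ) else 0) - 1) :=
          Finset.sum_congr rfl fun a _ => h1 a
      _ = 2 * (Fintype.card {a : ι // c a = 1} : ℂ) - Fintype.card ι := by
          rw [Finset.sum_sub_distrib, ← Finset.mul_sum, Finset.sum_boole, Fintype.card_subtype]
          simp
  rw [hsum, hcard] at key
  have key' : (2 * (Fintype.card {a : ι // c a = 1} : ℂ)) =
      Fintype.card X + Fintype.card {x : X // σ x = x} := by
    linear_combination key
  exact_mod_cast key'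

theorem card_eigen_order_three {X ι : Type} [Fintype X] [DecidableEq X] [Fintype ι] (σ : Equiv.Perm X)
    (v : ι → X → ℂ) (hv : LinearIndependent ℂ v) (hcard : Fintype.card ι = Fintype.card X)
    (ω : ℂ) (hω : ω ^ 2 + ω + 1 = 0)
    (c : ι → ℂ) (hc : ∀ a, c a = 1 ∨ c a = ω ∨ c a = ω ^ 2) (h : ∀ a x, v a (σ x) = c a * v a x) :
    3 * (Fintype.card {a : ι // c a = 1} : ℤ) = Fintype.card X + 2 * Fintype.card {x : X // σ x = x} ∧
      Fintype.card {a : ι // c a = ω} = Fintype.card {a : ι // c a = ω ^ 2} := by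
  classical
  have hω0 : ω ≠ 0 := by
    rintro rfl
    norm_num at hω
  have hω1 : ω ≠ 1 := by
    rintro rfl
    norm_num at hω
  have hω21 : ω ^ 2 ≠ 1 := by
    intro h2
    have : ω = -2 := by linear_combination hω - h2
    rw [this] at hω
    norm_num at hω
  have hωω2 : ω ≠ ω ^ 2 := by
    intro h2
    have : ω * (ω - 1) = 0 := by linear_combination -h2
    rcases mul_eq_zero.1 this with h3 | h3
    · exact hω0 h3
    · exact hω1 (sub_eq_zero.1 h3)
  have hω3 : ω ^ 3 = 1 := by linear_combination (ω - 1) * hω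
  have hc0 : ∀ a, c a ≠ 0 := by
    intro a
    rcases hc a with h' | h' | h' <;> rw [h']
    · exact one_ne_zero
    · exact hω0
    · exact pow_ne_zero 2 hω0
  -- trace for σ
  have key := perm_sum_eigen_eq_card_fixed σ v hv hcard c h
  -- trace for σ⁻¹
  have hinv : ∀ a x, v a (σ⁻¹ x) = (c a)⁻¹ * v a x := by
    intro a x
    have := h a (σ⁻¹ x)
    rw [show σ (σ⁻¹ x) = x from by simp] at this
    rw [this, ← mul_assoc, inv_mul_cancel₀ (hc0 a), one_mul]
  have key2 := perm_sum_eigen_eq_card_fixed σ⁻¹ v hv hcard (fun a => (c a)⁻¹) hinv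
  have hfix : Fintype.card {x : X // σ⁻¹ x = x} = Fintype.card {x : X // σ x = x} := by
    refine Fintype.card_congr (Equiv.subtypeEquivRight fun x => ?_)
    rw [Equiv.Perm.inv_eq_iff_eq, eq_comm]
  rw [hfix] at key2
  set n1 : ℂ := (Fintype.card {a : ι // c a = 1} : ℂ) with hn1
  set nω : ℂ := (Fintype.card {a : ι // c a = ω} : ℂ) with hnω
  set nω2 : ℂ := (Fintype.card {a : ι // c a = ω ^ 2} : ℂ) with hnω2
  have hdecomp : ∀ (A B C : ℂ), (∑ a, (if c a = 1 then A else 0) + ∑ a, (if c a = ω then B else 0)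
      + ∑ a, (if c a = ω ^ 2 then C else 0)) = n1 * A + nω * B + nω2 * C := by
    intro A B C
    have e : ∀ (t A : ℂ), ∑ a, (if c a = t then A else 0)
        = (Fintype.card {a : ι // c a = t} : ℂ) * A := by
      intro t A
      rw [Fintype.card_subtype, ← Finset.sum_boole, Finset.sum_mul]
      refine Finset.sum_congr rfl fun a _ => ?_
      split_ifs <;> simp
    rw [e, e, e]
  have hsum1 : ∑ a, c a = n1 * 1 + nω * ω + nω2 * ω ^ 2 := by
    rw [← hdecomp, ← Finset.sum_add_distrib, ← Finset.sum_add_distrib]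
    refine Finset.sum_congr rfl fun a _ => ?_
    rcases hc a with h' | h' | h' <;> rw [h']
    · simp [hω1.symm, hω21.symm]
    · simp [hω1, hωω2]
    · simp [hω21, hωω2.symm]
  have hsum2 : ∑ a, (c a)⁻¹ = n1 * 1 + nω * ω ^ 2 + nω2 * ω := by
    rw [← hdecomp, ← Finset.sum_add_distrib, ← Finset.sum_add_distrib]
    refine Finset.sum_congr rfl fun a _ => ?_
    have hωinv : ω⁻¹ = ω ^ 2 := by
      refine inv_eq_of_mul_eq_one_right ?_
      linear_combination hω3
    have hω2inv : (ω ^ 2)⁻¹ = ω := by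
      rw [← hωinv, inv_inv]
    rcases hc a with h' | h' | h' <;> rw [h']
    · simp [hω1.symm, hω21.symm]
    · simp [hω1, hωω2, hωinv]
    · simp [hω21, hωω2.symm, hω2inv]
  have hcardι : (Fintype.card ι : ℂ) = n1 + nω + nω2 := by
    have : ∑ a : ι, (1 : ℂ) = n1 * 1 + nω * 1 + nω2 * 1 := by
      rw [← hdecomp, ← Finset.sum_add_distrib, ← Finset.sum_add_distrib]
      refine Finset.sum_congr rfl fun a _ => ?_
      rcases hc a with h' | h' | h' <;> rw [h']
      · simp [hω1.symm, hω21.symm]
      · simp [hω1, hωω2]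
      · simp [hω21, hωω2.symm]
    simpa using this
  rw [hsum1] at key
  rw [hsum2] at key2
  have heq : nω = nω2 := by
    have h3 : (nω - nω2) * (ω - ω ^ 2) = 0 := by linear_combination key - key2
    rcases mul_eq_zero.1 h3 with h4 | h4
    · exact sub_eq_zero.1 h4
    · exact absurd (sub_eq_zero.1 h4) hωω2
  have heqN : Fintype.card {a : ι // c a = ω} = Fintype.card {a : ι // c a = ω ^ 2} := by
    rw [hnω, hnω2] at heq
    exact_mod_cast heq
  refine ⟨?_, heqN⟩
  have hfin : (3 * n1 : ℂ) = Fintype.card X + 2 * Fintype.card {x : X // σ x = x} := by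
    rw [← hcard, hcardι, ← key, heq]
    linear_combination (-2 * nω2) * hω
  rw [hn1] at hfin
  exact_mod_cast hfin

end Fermat.Agent.S20
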