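import Mathlib
import Fermat.Agent.S20.Defs
import Fermat.Agent.S20.Perm

/-!
Module J (Count) of the S20/S21 project, core part: the arithmetic deduction of
`12 * dim S_2(Gamma0 N) = genusNum N` from the properties of a homogeneous basis
(all taken as hypotheses here; the assembly is in `Count.lean`).
-/

set_option autoImplicit false

open UpperHalfPlane ModularForm CongruenceSubgroup Filter
open scoped MatrixGroups Manifold

namespace Fermat.Agent.S20

/-- the possible weights of the members of a homogeneous basis -/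
def countWeights : Finset ℤ := {0, 2, 4, 6, 8, 10}

theorem count_mem_weights {w : ℤ} (he : Even w) (h0 : 0 ≤ w) (h10 : w ≤ 10) :
    w ∈ countWeights := by
  obtain ⟨m, hm⟩ := he
  simp only [countWeights, Finset.mem_insert, Finset.mem_singleton]
  omega

/-- fibrewise decomposition of a sum of a function of the weights -/
theorem count_sum_comp {ι : Type} [Fintype ι] (w : ι → ℤ) (R : Finset ℤ) (hR : ∀ a, w a ∈ R)
    (g : ℤ → ℤ) :
    ∑ a, g (w a) = ∑ r ∈ R, ((Finset.univ.filter (fun a => w a = r)).card : ℤ) * g r := by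
  classical
  rw [← Finset.sum_fiberwise_of_maps_to (g := w) (t := R) (fun a _ => hR a)]
  refine Finset.sum_congr rfl fun r _ => ?_
  have h1 : ∀ x ∈ Finset.univ.filter (fun a => w a = r), g (w x) = g r := by
    intro x hx
    rw [(Finset.mem_filter.mp hx).2]
  rw [Finset.sum_congr rfl h1, Finset.sum_const, nsmul_eq_mul]

/-- cardinality of a subtype cut out by a condition on the weights -/
theorem count_card_eq {ι : Type} [Fintype ι] (w : ι → ℤ) (R : Finset ℤ) (hR : ∀ a, w a ∈ R)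
    (p : ι → Prop) [DecidablePred p] (S : Finset ℤ) (hp : ∀ a, p a ↔ w a ∈ S) :
    (Fintype.card {a // p a} : ℤ) =
      ∑ r ∈ R, ((Finset.univ.filter (fun a => w a = r)).card : ℤ) * (if r ∈ S then 1 else 0) := by
  classical
  rw [Fintype.card_subtype, Finset.card_filter, ← count_sum_comp w R hR (fun r => if r ∈ S then 1 else 0)]
  push_cast
  refine Finset.sum_congr rfl fun a _ => ?_
  simp only [hp a]

/-- expansion of a sum over the six possible weights -/
theorem count_sum_weights (f : ℤ → ℤ) :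
    ∑ r ∈ countWeights, f r = f 0 + f 2 + f 4 + f 6 + f 8 + f 10 := by
  unfold countWeights
  rw [Finset.sum_insert (by decide), Finset.sum_insert (by decide), Finset.sum_insert (by decide),
    Finset.sum_insert (by decide), Finset.sum_insert (by decide), Finset.sum_singleton]
  ring

theorem count_I_zpow (m : ℕ) : Complex.I ^ (-(2 * (m : ℤ))) = (-1) ^ m := by
  rw [zpow_neg, zpow_mul, zpow_ofNat, Complex.I_sq, zpow_natCast, ← inv_pow]
  norm_num

theorem count_I_cases (w : ℤ) (hw : w ∈ countWeights) :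
    (Complex.I ^ (-w) = 1 ∨ Complex.I ^ (-w) = -1) ∧
      (Complex.I ^ (-w) = 1 ↔ w ∈ ({0, 4, 8} : Finset ℤ)) := by
  have hne : (-1 : ℂ) ≠ 1 := by norm_num
  simp only [countWeights, Finset.mem_insert, Finset.mem_singleton] at hw
  rcases hw with rfl | rfl | rfl | rfl | rfl | rfl
  · rw [show (-(0 : ℤ)) = -(2 * ((0 : ℕ) : ℤ)) from by norm_num, count_I_zpow]
    simp
  · rw [show (-(2 : ℤ)) = -(2 * ((1 : ℕ) : ℤ)) from by norm_num, count_I_zpow]
    simp [hne]
  · rw [show (-(4 : ℤ)) = -(2 * ((2 : ℕ) : ℤ)) from by norm_num, count_I_zpow]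
    simp
  · rw [show (-(6 : ℤ)) = -(2 * ((3 : ℕ) : ℤ)) from by norm_num, count_I_zpow]
    have h : ((-1 : ℂ)) ^ 3 = -1 := by norm_num
    rw [h]
    simp [hne]
  · rw [show (-(8 : ℤ)) = -(2 * ((4 : ℕ) : ℤ)) from by norm_num, count_I_zpow]
    have h : ((-1 : ℂ)) ^ 4 = 1 := by norm_num
    rw [h]
    simp
  · rw [show (-(10 : ℤ)) = -(2 * ((5 : ℕ) : ℤ)) from by norm_num, count_I_zpow]
    have h : ((-1 : ℂ)) ^ 5 = -1 := by norm_num
    rw [h]
    simp [hne]

theorem count_rho_zpow {ω : ℂ} (hω : ω ^ 2 + ω + 1 = 0) (m : ℕ) :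
    (ω + 1) ^ (-(2 * (m : ℤ))) = (ω ^ 2) ^ m := by
  have hω0 : ω ≠ 0 := by
    rintro rfl
    norm_num at hω
  have hω3 : ω ^ 3 = 1 := by linear_combination (ω - 1) * hω
  have h1 : (ω + 1) ^ 2 = ω := by linear_combination hω
  have h2 : ω⁻¹ = ω ^ 2 := by
    rw [inv_eq_iff_eq_inv, eq_comm, inv_eq_iff_eq_inv]
    field_simp
    linear_combination hω3
  rw [zpow_neg, zpow_mul, zpow_ofNat, h1, zpow_natCast, ← inv_pow, h2]

theorem count_rho_cases {ω : ℂ} (hω : ω ^ 2 + ω + 1 = 0) (w : ℤ) (hw : w ∈ countWeights) :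
    ((ω + 1) ^ (-w) = 1 ∨ (ω + 1) ^ (-w) = ω ∨ (ω + 1) ^ (-w) = ω ^ 2) ∧
      ((ω + 1) ^ (-w) = 1 ↔ w ∈ ({0, 6} : Finset ℤ)) ∧
      ((ω + 1) ^ (-w) = ω ↔ w ∈ ({4, 10} : Finset ℤ)) ∧
      ((ω + 1) ^ (-w) = ω ^ 2 ↔ w ∈ ({2, 8} : Finset ℤ)) := by
  have hω0 : ω ≠ 0 := by
    rintro rfl
    norm_num at hω
  have hω1 : ω ≠ 1 := by
    rintro rfl
    norm_num at hω
  have hω21 : ω ^ 2 ≠ 1 := by
    intro h2
    have : ω = -2 := by linear_combination hω - h2
    rw [this] at hω
    norm_num at hω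
  have hωω2 : ω ≠ ω ^ 2 := by
    intro h2
    have : ω * (ω - 1) = 0 := by linear_combination -h2
    rcases mul_eq_zero.1 this with h3 | h3
    · exact hω0 h3
    · exact hω1 (sub_eq_zero.1 h3)
  have hω3 : ω ^ 3 = 1 := by linear_combination (ω - 1) * hω
  simp only [countWeights, Finset.mem_insert, Finset.mem_singleton] at hw
  rcases hw with rfl | rfl | rfl | rfl | rfl | rfl
  · have h : (ω + 1) ^ (-(0 : ℤ)) = 1 := by simp
    rw [h]
    simp [Ne.symm hω1, Ne.symm hω21]
  · rw [show (-(2 : ℤ)) = -(2 * ((1 : ℕ) : ℤ)) from by norm_num, count_rho_zpow hω]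
    have h : (ω ^ 2) ^ 1 = ω ^ 2 := by ring
    rw [h]
    simp [hω21, Ne.symm hωω2]
  · rw [show (-(4 : ℤ)) = -(2 * ((2 : ℕ) : ℤ)) from by norm_num, count_rho_zpow hω]
    have h : (ω ^ 2) ^ 2 = ω := by linear_combination ω * hω3
    rw [h]
    simp [hω1, hωω2]
  · rw [show (-(6 : ℤ)) = -(2 * ((3 : ℕ) : ℤ)) from by norm_num, count_rho_zpow hω]
    have h : (ω ^ 2) ^ 3 = 1 := by linear_combination (ω ^ 3 + 1) * hω3
    rw [h]
    simp [Ne.symm hω1, Ne.symm hω21]
  · rw [show (-(8 : ℤ)) = -(2 * ((4 : ℕ) : ℤ)) from by norm_num, count_rho_zpow hω]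
    have h : (ω ^ 2) ^ 4 = ω ^ 2 := by linear_combination (ω ^ 5 + ω ^ 2) * hω3
    rw [h]
    simp [hω21, Ne.symm hωω2]
  · rw [show (-(10 : ℤ)) = -(2 * ((5 : ℕ) : ℤ)) from by norm_num, count_rho_zpow hω]
    have h : (ω ^ 2) ^ 5 = ω := by linear_combination (ω ^ 7 + ω ^ 4 + ω) * hω3
    rw [h]
    simp [hω1, hωω2]

/-- the point `-1/2 + √3/2 i` is a primitive cube root of unity -/
theorem count_rho_eq {ρ : ℂ} (h : ρ = ⟨-1 / 2, Real.sqrt 3 / 2⟩) : ρ ^ 2 + ρ + 1 = 0 := by
  have h3 : Real.sqrt 3 * Real.sqrt 3 = 3 := Real.mul_self_sqrt (by norm_num)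
  rw [h]
  apply Complex.ext
  · simp only [pow_two, Complex.add_re, Complex.mul_re, Complex.one_re, Complex.zero_re]
    nlinarith
  · simp only [pow_two, Complex.add_im, Complex.mul_im, Complex.one_im, Complex.zero_im]
    ring

/-- The counting argument: `12 * dim S_2 = genusNum`. -/
theorem count_core {N : ℕ} [NeZero N] (H : HomBasis N) [Fintype H.ι]
    (hcard : Nat.card H.ι = mu N)
    (heven : ∀ a, Even (H.w a)) (hnn : ∀ a, 0 ≤ H.w a) (hle : ∀ a, H.w a ≤ 10)
    (h0 : Nat.card {a : H.ι // H.w a = 0} = 1)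
    (hli : ∀ z, LinearIndependent ℂ (fun a : H.ι => ev N (H.w a) (H.B a) z))
    (hI : ∀ a q, ev N (H.w a) (H.B a) UpperHalfPlane.I (ModularGroup.S⁻¹ • q) =
      Complex.I ^ (-(H.w a)) * ev N (H.w a) (H.B a) UpperHalfPlane.I q)
    (ρ : ℍ) (hρ : (ρ : ℂ) ^ 2 + (ρ : ℂ) + 1 = 0)
    (hrho : ∀ a q, ev N (H.w a) (H.B a) ρ ((ModularGroup.S * ModularGroup.T)⁻¹ • q) =
      ((ρ : ℂ) + 1) ^ (-(H.w a)) * ev N (H.w a) (H.B a) ρ q)
    (hsum : ∑ a, H.w a = 6 * ((mu N : ℤ) - epsInf N))
    (hfr : Module.finrank ℂ (CuspForm (Gamma0 N) 2) = Nat.card {a : H.ι // H.w a = 10}) :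
    12 * (Module.finrank ℂ (CuspForm (Gamma0 N) 2) : ℤ) = genusNum N := by
  classical
  have : Finite (Q N) := Subgroup.finite_quotient_of_finiteIndex
  let : Fintype (Q N) := Fintype.ofFinite _
  have hR : ∀ a, H.w a ∈ countWeights := fun a => count_mem_weights (heven a) (hnn a) (hle a)
  set n : ℤ → ℤ := fun r => ((Finset.univ.filter (fun a => H.w a = r)).card : ℤ) with hn
  have hcardX : Fintype.card H.ι = Fintype.card (Q N) := by
    rw [← Nat.card_eq_fintype_card, ← Nat.card_eq_fintype_card, hcard, mu]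
  have hμ : (Fintype.card (Q N) : ℤ) = mu N := by
    rw [mu, Nat.card_eq_fintype_card]
  -- n 0 = 1
  have hn0 : n 0 = 1 := by
    have : (Nat.card {a : H.ι // H.w a = 0} : ℤ) = 1 := by rw [h0]; rfl
    rw [Nat.card_eq_fintype_card, Fintype.card_subtype] at this
    exact this
  -- finrank = n 10
  have hn10 : (Module.finrank ℂ (CuspForm (Gamma0 N) 2) : ℤ) = n 10 := by
    rw [hfr, Nat.card_eq_fintype_card, Fintype.card_subtype]
  -- sum of weights
  have hS : 2 * n 2 + 4 * n 4 + 6 * n 6 + 8 * n 8 + 10 * n 10 = 6 * ((mu N : ℤ) - epsInf N) := by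
    rw [← hsum, count_sum_comp H.w countWeights hR (fun r => r), count_sum_weights]
    simp only [hn]
    ring
  -- the involution S
  have hE2 : 2 * (n 0 + n 4 + n 8) = (mu N : ℤ) + eps2 N := by
    have key := card_eigen_involution (MulAction.toPerm (ModularGroup.S⁻¹ : SL(2, ℤ)))
      (fun a : H.ι => ev N (H.w a) (H.B a) UpperHalfPlane.I) (hli _) hcardX
      (fun a => Complex.I ^ (-(H.w a))) (fun a => (count_I_cases _ (hR a)).1)
      (fun a q => hI a q)
    rw [count_card_eq H.w countWeights hR _ {0, 4, 8} (fun a => (count_I_cases _ (hR a)).2),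
      count_sum_weights, hμ] at key
    have hfix : (Fintype.card {x : Q N // (MulAction.toPerm (ModularGroup.S⁻¹ : SL(2, ℤ))) x = x} : ℤ)
        = eps2 N := by
      rw [eps2, ← Nat.card_eq_fintype_card]
      congr 1
      refine Nat.card_congr (Equiv.subtypeEquivRight fun q => ?_)
      rw [MulAction.toPerm_apply, inv_smul_eq_iff, eq_comm]
    rw [hfix] at key
    simp only [hn]
    simp at key
    linarith
  -- the element S * T of order three
  have hE3 : 3 * (n 0 + n 6) = (mu N : ℤ) + 2 * eps3 N ∧ n 4 + n 10 = n 2 + n 8 := by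
    have key := card_eigen_order_three
      (MulAction.toPerm ((ModularGroup.S * ModularGroup.T)⁻¹ : SL(2, ℤ)))
      (fun a : H.ι => ev N (H.w a) (H.B a) ρ) (hli _) hcardX (ρ : ℂ) hρ
      (fun a => ((ρ : ℂ) + 1) ^ (-(H.w a))) (fun a => (count_rho_cases hρ _ (hR a)).1)
      (fun a q => hrho a q)
    obtain ⟨key1, key2⟩ := key
    have key2' : (Fintype.card {a : H.ι // ((ρ : ℂ) + 1) ^ (-(H.w a)) = (ρ : ℂ)} : ℤ) =
        Fintype.card {a : H.ι // ((ρ : ℂ) + 1) ^ (-(H.w a)) = (ρ : ℂ) ^ 2} := by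
      exact_mod_cast key2
    rw [count_card_eq H.w countWeights hR _ {0, 6} (fun a => (count_rho_cases hρ _ (hR a)).2.1),
      count_sum_weights, hμ] at key1
    rw [count_card_eq H.w countWeights hR _ {4, 10} (fun a => (count_rho_cases hρ _ (hR a)).2.2.1),
      count_card_eq H.w countWeights hR _ {2, 8} (fun a => (count_rho_cases hρ _ (hR a)).2.2.2),
      count_sum_weights, count_sum_weights] at key2'
    have hfix : (Fintype.card {x : Q N //
        (MulAction.toPerm ((ModularGroup.S * ModularGroup.T)⁻¹ : SL(2, ℤ))) x = x} : ℤ)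
        = eps3 N := by
      rw [eps3, ← Nat.card_eq_fintype_card]
      congr 1
      refine Nat.card_congr (Equiv.subtypeEquivRight fun q => ?_)
      rw [MulAction.toPerm_apply, inv_smul_eq_iff, eq_comm]
    rw [hfix] at key1
    simp only [hn]
    simp at key1 key2'
    constructor
    · linarith
    · linarith
  rw [hn10, genusNum]
  obtain ⟨h3a, h3b⟩ := hE3
  linarith

end Fermat.Agent.S20
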