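import Mathlib
import Fermat.Agent.S20.Defs

/-!
Module A of the S20/S21 project: closure properties of the function-level predicates
`IsLevelOne`, `IsForm`, `IsCuspF`, and basic properties of the value vectors `ev`.
-/

set_option autoImplicit false

open UpperHalfPlane ModularForm CongruenceSubgroup Filter
open scoped MatrixGroups Manifold

namespace Fermat.Agent.S20

open Fermat.Agent.S23.SymAux

/-! ### Level one -/

theorem IsLevelOne.mdiff {k : ℤ} {p : ℍ → ℂ} (hp : IsLevelOne k p) : MDiff p := by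
  obtain ⟨g, rfl⟩ := hp
  exact ModularFormClass.holo g

theorem IsLevelOne.slash_eq {k : ℤ} {p : ℍ → ℂ} (hp : IsLevelOne k p) (γ : SL(2, ℤ)) :
    p ∣[k] γ = p := by
  obtain ⟨g, rfl⟩ := hp
  exact SlashInvariantFormClass.slash_action_eq g _ ⟨γ, rfl⟩

theorem IsLevelOne.bdd {k : ℤ} {p : ℍ → ℂ} (hp : IsLevelOne k p) : IsBoundedAtImInfty p := by
  obtain ⟨g, rfl⟩ := hp
  exact ModularFormClass.bdd_at_infty g

theorem isLevelOne_of {k : ℤ} {p : ℍ → ℂ} (hol : MDiff p) (inv : ∀ γ : SL(2, ℤ), p ∣[k] γ = p)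
    (bdd : IsBoundedAtImInfty p) : IsLevelOne k p :=
  ⟨mkLevelOne k p inv hol bdd, rfl⟩

theorem IsLevelOne.cast {k l : ℤ} {p : ℍ → ℂ} (hp : IsLevelOne k p) (h : k = l) :
    IsLevelOne l p := h ▸ hp

theorem isLevelOne_zero (k : ℤ) : IsLevelOne k (0 : ℍ → ℂ) := ⟨0, rfl⟩

theorem IsLevelOne.add {k : ℤ} {p r : ℍ → ℂ} (hp : IsLevelOne k p) (hr : IsLevelOne k r) :
    IsLevelOne k (p + r) := by
  obtain ⟨g, rfl⟩ := hp
  obtain ⟨h, rfl⟩ := hr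
  exact ⟨g + h, rfl⟩

theorem IsLevelOne.smul {k : ℤ} {p : ℍ → ℂ} (c : ℂ) (hp : IsLevelOne k p) :
    IsLevelOne k (c • p) := by
  obtain ⟨g, rfl⟩ := hp
  exact ⟨c • g, rfl⟩

theorem IsLevelOne.neg {k : ℤ} {p : ℍ → ℂ} (hp : IsLevelOne k p) : IsLevelOne k (-p) := by
  obtain ⟨g, rfl⟩ := hp
  exact ⟨-g, rfl⟩

theorem IsLevelOne.sub {k : ℤ} {p r : ℍ → ℂ} (hp : IsLevelOne k p) (hr : IsLevelOne k r) :
    IsLevelOne k (p - r) := by
  rw [sub_eq_add_neg]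
  exact hp.add hr.neg

theorem IsLevelOne.mul {k l : ℤ} {p r : ℍ → ℂ} (hp : IsLevelOne k p) (hr : IsLevelOne l r) :
    IsLevelOne (k + l) (p * r) := by
  obtain ⟨g, rfl⟩ := hp
  obtain ⟨h, rfl⟩ := hr
  exact ⟨g.mul h, rfl⟩

theorem isLevelOne_const (c : ℂ) : IsLevelOne 0 (fun _ : ℍ => c) :=
  ⟨ModularForm.const c, rfl⟩

theorem isLevelOne_one : IsLevelOne 0 (1 : ℍ → ℂ) := isLevelOne_const 1

theorem IsLevelOne.pow {k : ℤ} {p : ℍ → ℂ} (hp : IsLevelOne k p) (n : ℕ) :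
    IsLevelOne (n * k) (p ^ n) := by
  induction n with
  | zero => simpa using isLevelOne_one
  | succ n ih =>
    rw [pow_succ]
    exact (ih.mul hp).cast (by push_cast; ring)

theorem IsLevelOne.sum {ι : Type*} {k : ℤ} (s : Finset ι) {p : ι → ℍ → ℂ}
    (hp : ∀ i ∈ s, IsLevelOne k (p i)) : IsLevelOne k (∑ i ∈ s, p i) := by
  classical
  induction s using Finset.induction_on with
  | empty => simpa using isLevelOne_zero k
  | insert i t hi ih =>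
    rw [Finset.sum_insert hi]
    exact (hp i (Finset.mem_insert_self i t)).add
      (ih fun j hj => hp j (Finset.mem_insert_of_mem hj))

theorem isLevelOne_E₄ : IsLevelOne 4 (⇑E₄) := ⟨E₄, rfl⟩

theorem isLevelOne_E₆ : IsLevelOne 6 (⇑E₆) := ⟨E₆, rfl⟩

theorem isLevelOne_discriminant : IsLevelOne 12 discriminant :=
  ⟨ModularForm.mcast rfl (CuspForm.discriminant : CuspForm 𝒮ℒ 12), rfl⟩

theorem IsLevelOne.eq_zero_of_neg {k : ℤ} {p : ℍ → ℂ} (hp : IsLevelOne k p) (hk : k < 0) :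
    p = 0 := by
  obtain ⟨g, rfl⟩ := hp
  exact ModularFormClass.levelOne_neg_weight_eq_zero hk g

theorem IsLevelOne.const_of_zero {p : ℍ → ℂ} (hp : IsLevelOne 0 p) :
    ∃ c : ℂ, p = fun _ => c := by
  obtain ⟨g, rfl⟩ := hp
  obtain ⟨c, hc⟩ := ModularFormClass.levelOne_weight_zero_const g
  exact ⟨c, hc⟩

theorem IsLevelOne.eq_zero_of_odd {k : ℤ} {p : ℍ → ℂ} (hp : IsLevelOne k p) (hk : Odd k) :
    p = 0 := by
  obtain ⟨g, rfl⟩ := hp
  rw [ModularForm.levelOne_odd_weight_eq_zero hk g]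
  rfl

/-! ### Forms on `Gamma0 N` -/

theorem IsForm.mdiff {N : ℕ} {k : ℤ} {F : ℍ → ℂ} (hF : IsForm N k F) : MDiff F := by
  obtain ⟨g, rfl⟩ := hF
  exact ModularFormClass.holo g

theorem IsForm.slash_eq {N : ℕ} {k : ℤ} {F : ℍ → ℂ} (hF : IsForm N k F) {γ : SL(2, ℤ)}
    (hγ : γ ∈ Gamma0 N) : F ∣[k] γ = F := by
  obtain ⟨g, rfl⟩ := hF
  exact SlashInvariantFormClass.slash_action_eq g _ (Subgroup.mem_map_of_mem _ hγ)

theorem IsForm.bdd_slash {N : ℕ} [NeZero N] {k : ℤ} {F : ℍ → ℂ} (hF : IsForm N k F)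
    (γ : SL(2, ℤ)) : IsBoundedAtImInfty (F ∣[k] γ) := by
  obtain ⟨g, rfl⟩ := hF
  exact ModularFormClass.bdd_at_infty_slash g γ

theorem IsForm.bdd {N : ℕ} [NeZero N] {k : ℤ} {F : ℍ → ℂ} (hF : IsForm N k F) :
    IsBoundedAtImInfty F := by
  have h := hF.bdd_slash 1
  rwa [SlashAction.slash_one] at h

theorem isForm_of {N : ℕ} [NeZero N] {k : ℤ} {F : ℍ → ℂ} (hol : MDiff F)
    (inv : ∀ γ ∈ Gamma0 N, F ∣[k] γ = F) (bdd : ∀ γ : SL(2, ℤ), IsBoundedAtImInfty (F ∣[k] γ)) :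
    IsForm N k F :=
  ⟨{ toFun := F
     slash_action_eq' := by
       intro γ hγ
       obtain ⟨g, hg, rfl⟩ := Subgroup.mem_map.mp hγ
       exact inv g hg
     holo' := hol
     bdd_at_cusps' := by
       intro c hc
       rw [Subgroup.IsArithmetic.isCusp_iff_isCusp_SL2Z] at hc
       rw [OnePoint.isBoundedAt_iff_forall_SL2Z hc]
       intro γ _
       exact bdd γ }, rfl⟩

theorem IsLevelOne.isForm {N : ℕ} [NeZero N] {k : ℤ} {p : ℍ → ℂ} (hp : IsLevelOne k p) :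
    IsForm N k p :=
  isForm_of hp.mdiff (fun γ _ => hp.slash_eq γ) (fun γ => by rw [hp.slash_eq γ]; exact hp.bdd)

theorem IsForm.cast {N : ℕ} {k l : ℤ} {F : ℍ → ℂ} (hF : IsForm N k F) (h : k = l) :
    IsForm N l F := h ▸ hF

theorem isForm_zero (N : ℕ) (k : ℤ) : IsForm N k (0 : ℍ → ℂ) := ⟨0, rfl⟩

theorem IsForm.add {N : ℕ} {k : ℤ} {F G : ℍ → ℂ} (hF : IsForm N k F) (hG : IsForm N k G) :
    IsForm N k (F + G) := by
  obtain ⟨f, rfl⟩ := hF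
  obtain ⟨g, rfl⟩ := hG
  exact ⟨f + g, rfl⟩

theorem IsForm.smul {N : ℕ} [NeZero N] {k : ℤ} {F : ℍ → ℂ} (c : ℂ) (hF : IsForm N k F) :
    IsForm N k (c • F) := by
  obtain ⟨f, rfl⟩ := hF
  exact ⟨c • f, rfl⟩

theorem IsForm.neg {N : ℕ} {k : ℤ} {F : ℍ → ℂ} (hF : IsForm N k F) : IsForm N k (-F) := by
  obtain ⟨f, rfl⟩ := hF
  exact ⟨-f, rfl⟩

theorem IsForm.sub {N : ℕ} {k : ℤ} {F G : ℍ → ℂ} (hF : IsForm N k F) (hG : IsForm N k G) :
    IsForm N k (F - G) := by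
  rw [sub_eq_add_neg]
  exact hF.add hG.neg

theorem IsForm.mul {N : ℕ} [NeZero N] {k l : ℤ} {F G : ℍ → ℂ} (hF : IsForm N k F)
    (hG : IsForm N l G) : IsForm N (k + l) (F * G) := by
  obtain ⟨f, rfl⟩ := hF
  obtain ⟨g, rfl⟩ := hG
  exact ⟨f.mul g, rfl⟩

theorem isForm_const (N : ℕ) [NeZero N] (c : ℂ) : IsForm N 0 (fun _ : ℍ => c) :=
  (isLevelOne_const c).isForm

theorem IsForm.sum {N : ℕ} {ι : Type*} {k : ℤ} (s : Finset ι) {F : ι → ℍ → ℂ}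
    (hF : ∀ i ∈ s, IsForm N k (F i)) : IsForm N k (∑ i ∈ s, F i) := by
  classical
  induction s using Finset.induction_on with
  | empty => simpa using isForm_zero N k
  | insert i t hi ih =>
    rw [Finset.sum_insert hi]
    exact (hF i (Finset.mem_insert_self i t)).add
      (ih fun j hj => hF j (Finset.mem_insert_of_mem hj))

theorem IsForm.eq_zero_of_neg {N : ℕ} [NeZero N] {k : ℤ} {F : ℍ → ℂ} (hF : IsForm N k F)
    (hk : k < 0) : F = 0 := by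
  obtain ⟨f, rfl⟩ := hF
  rw [ModularForm.isZero_of_neg_weight hk f]
  rfl

theorem IsForm.const_of_zero {N : ℕ} [NeZero N] {F : ℍ → ℂ} (hF : IsForm N 0 F) :
    ∃ c : ℂ, F = fun _ => c := by
  obtain ⟨f, rfl⟩ := hF
  obtain ⟨c, hc⟩ := ModularForm.eq_const_of_weight_zero f
  exact ⟨c, hc⟩

theorem neg_one_mem_Gamma0 (N : ℕ) : (-1 : SL(2, ℤ)) ∈ Gamma0 N := by
  rw [Gamma0_mem]
  simp

theorem IsForm.eq_zero_of_odd {N : ℕ} {k : ℤ} {F : ℍ → ℂ} (hF : IsForm N k F) (hk : Odd k) :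
    F = 0 := by
  have h := hF.slash_eq (neg_one_mem_Gamma0 N)
  funext z
  have h1 := congrFun h z
  rw [ModularForm.SL_slash_apply] at h1
  have h2 : (-1 : SL(2, ℤ)) • z = z := by
    ext
    simp
  have h3 : denom (-1 : SL(2, ℤ)) z = -1 := by
    simp [denom]
  have h5 : ((-1 : ℂ)) ^ (-k) = -1 := Odd.neg_one_zpow hk.neg
  rw [h2, h3, h5] at h1
  simp only [mul_neg, mul_one, Pi.zero_apply] at h1 ⊢
  have h4 : (2 : ℂ) * F z = 0 := by linear_combination -h1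
  simpa using h4

theorem IsForm.levelOne_mul {N : ℕ} [NeZero N] {k l : ℤ} {p F : ℍ → ℂ} (hp : IsLevelOne l p)
    (hF : IsForm N k F) : IsForm N (l + k) (p * F) :=
  hp.isForm.mul hF

theorem IsForm.pow {N : ℕ} [NeZero N] {k : ℤ} {F : ℍ → ℂ} (hF : IsForm N k F) (n : ℕ) :
    IsForm N (n * k) (F ^ n) := by
  induction n with
  | zero =>
    have h : (F ^ 0 : ℍ → ℂ) = fun _ => (1 : ℂ) := by
      funext z
      simp
    rw [h]
    simpa using isForm_const N 1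
  | succ n ih =>
    rw [pow_succ]
    exact (ih.mul hF).cast (by push_cast; ring)

/-! ### Cusp forms -/

theorem isCuspF_zero (N : ℕ) (k : ℤ) : IsCuspF N k (0 : ℍ → ℂ) := ⟨0, rfl⟩

theorem IsCuspF.add {N : ℕ} {k : ℤ} {F G : ℍ → ℂ} (hF : IsCuspF N k F) (hG : IsCuspF N k G) :
    IsCuspF N k (F + G) := by
  obtain ⟨f, rfl⟩ := hF
  obtain ⟨g, rfl⟩ := hG
  exact ⟨f + g, rfl⟩

theorem IsCuspF.smul {N : ℕ} [NeZero N] {k : ℤ} {F : ℍ → ℂ} (c : ℂ) (hF : IsCuspF N k F) :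
    IsCuspF N k (c • F) := by
  obtain ⟨f, rfl⟩ := hF
  exact ⟨c • f, rfl⟩

theorem IsCuspF.isForm {N : ℕ} {k : ℤ} {F : ℍ → ℂ} (hF : IsCuspF N k F) : IsForm N k F := by
  obtain ⟨f, rfl⟩ := hF
  exact ⟨ModularForm.mcast rfl f, rfl⟩

theorem IsCuspF.zero_slash {N : ℕ} [NeZero N] {k : ℤ} {F : ℍ → ℂ} (hF : IsCuspF N k F)
    (γ : SL(2, ℤ)) : IsZeroAtImInfty (F ∣[k] γ) := by
  obtain ⟨f, rfl⟩ := hF
  exact CuspFormClass.zero_at_infty_slash f γ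

theorem isCuspF_of {N : ℕ} [NeZero N] {k : ℤ} {F : ℍ → ℂ} (hol : MDiff F)
    (inv : ∀ γ ∈ Gamma0 N, F ∣[k] γ = F) (zero : ∀ γ : SL(2, ℤ), IsZeroAtImInfty (F ∣[k] γ)) :
    IsCuspF N k F :=
  ⟨{ toFun := F
     slash_action_eq' := by
       intro γ hγ
       obtain ⟨g, hg, rfl⟩ := Subgroup.mem_map.mp hγ
       exact inv g hg
     holo' := hol
     zero_at_cusps' := by
       intro c hc
       rw [Subgroup.IsArithmetic.isCusp_iff_isCusp_SL2Z] at hc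
       rw [OnePoint.isZeroAt_iff_forall_SL2Z hc]
       intro γ _
       exact zero γ }, rfl⟩

/-! ### The value vectors `ev` -/

theorem ev_apply (N : ℕ) (k : ℤ) (F : ℍ → ℂ) (z : ℍ) (q : Q N) :
    ev N k F z q = (F ∣[k] (q.out)⁻¹) z := rfl

theorem ev_mk {N : ℕ} {k : ℤ} {F : ℍ → ℂ} (hF : ∀ γ ∈ Gamma0 N, F ∣[k] γ = F) (g : SL(2, ℤ))
    (z : ℍ) : ev N k F z (QuotientGroup.mk g) = (F ∣[k] g⁻¹) z := by
  unfold ev
  rw [conjFun_mk hF]

theorem ev_one {N : ℕ} {k : ℤ} {F : ℍ → ℂ} (hF : ∀ γ ∈ Gamma0 N, F ∣[k] γ = F) (z : ℍ) :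
    ev N k F z (QuotientGroup.mk 1) = F z := by
  rw [ev_mk hF, inv_one, SlashAction.slash_one]

theorem ev_zero (N : ℕ) (k : ℤ) (z : ℍ) : ev N k 0 z = 0 := by
  funext q
  rw [ev_apply, SlashAction.zero_slash]
  rfl

theorem ev_add (N : ℕ) (k : ℤ) (F G : ℍ → ℂ) (z : ℍ) :
    ev N k (F + G) z = ev N k F z + ev N k G z := by
  funext q
  rw [Pi.add_apply, ev_apply, ev_apply, ev_apply, SlashAction.add_slash]
  rfl

theorem ev_const_smul (N : ℕ) (k : ℤ) (c : ℂ) (F : ℍ → ℂ) (z : ℍ) :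
    ev N k (c • F) z = c • ev N k F z := by
  funext q
  rw [Pi.smul_apply, ev_apply, ev_apply, ModularForm.SL_smul_slash]
  rfl

theorem ev_neg (N : ℕ) (k : ℤ) (F : ℍ → ℂ) (z : ℍ) : ev N k (-F) z = -ev N k F z := by
  have h : -F = (-1 : ℂ) • F := by ext; simp
  rw [h, ev_const_smul]
  simp

theorem ev_sub (N : ℕ) (k : ℤ) (F G : ℍ → ℂ) (z : ℍ) :
    ev N k (F - G) z = ev N k F z - ev N k G z := by
  rw [sub_eq_add_neg, ev_add, ev_neg, sub_eq_add_neg]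

theorem ev_sum {ι : Type*} (N : ℕ) (k : ℤ) (s : Finset ι) (F : ι → ℍ → ℂ) (z : ℍ) :
    ev N k (∑ i ∈ s, F i) z = ∑ i ∈ s, ev N k (F i) z := by
  classical
  induction s using Finset.induction_on with
  | empty => simpa using ev_zero N k z
  | insert i t hi ih => rw [Finset.sum_insert hi, Finset.sum_insert hi, ev_add, ih]

theorem ev_mul_levelOne {N : ℕ} {k l : ℤ} {p F : ℍ → ℂ} (hp : IsLevelOne l p)
    (z : ℍ) : ev N (l + k) (p * F) z = p z • ev N k F z := by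
  funext q
  rw [Pi.smul_apply, ev_apply, ev_apply, mul_slash_SL2, hp.slash_eq]
  rfl

theorem ev_smul {N : ℕ} {k : ℤ} {F : ℍ → ℂ} (hF : ∀ γ ∈ Gamma0 N, F ∣[k] γ = F)
    (γ : SL(2, ℤ)) (z : ℍ) (q : Q N) :
    ev N k F (γ • z) q = denom γ z ^ k * ev N k F z (γ⁻¹ • q) := by
  have h1 := congrFun (conjFun_slash hF γ q) z
  rw [ModularForm.SL_slash_apply] at h1
  have hj : denom γ z ≠ 0 := denom_ne_zero _ z
  have h2 : ev N k F z (γ⁻¹ • q) = conjFun (Gamma0 N) F k (MulAction.toPerm γ⁻¹ q) z := rfl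
  rw [h2, ← h1]
  unfold ev
  rw [mul_comm, mul_assoc, ← zpow_add₀ hj]
  simp

theorem ev_eq_zero_iff {N : ℕ} {k : ℤ} {F : ℍ → ℂ} (hF : ∀ γ ∈ Gamma0 N, F ∣[k] γ = F)
    (z : ℍ) : ev N k F z = 0 ↔ ∀ γ : SL(2, ℤ), F (γ • z) = 0 := by
  constructor
  · intro h γ
    have h1 := ev_smul hF γ z (QuotientGroup.mk 1)
    rw [ev_one hF, h] at h1
    simpa using h1
  · intro h
    funext q
    induction q using QuotientGroup.induction_on with
    | H g =>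
      rw [ev_mk hF, ModularForm.SL_slash_apply, h g⁻¹]
      simp

theorem ev_mdiff {N : ℕ} {k : ℤ} {F : ℍ → ℂ} (hF : MDiff F) (q : Q N) :
    MDiff (fun z => ev N k F z q) :=
  hF.slash k _

theorem ev_bdd {N : ℕ} [NeZero N] {k : ℤ} {F : ℍ → ℂ} (hF : IsForm N k F) (q : Q N) :
    IsBoundedAtImInfty (fun z => ev N k F z q) :=
  hF.bdd_slash _

theorem ev_zero_at {N : ℕ} [NeZero N] {k : ℤ} {F : ℍ → ℂ} (hF : IsCuspF N k F) (q : Q N) :
    IsZeroAtImInfty (fun z => ev N k F z q) :=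
  hF.zero_slash _

end Fermat.Agent.S20
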