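import Mathlib
import Fermat.Agent.S20.Defs
import Fermat.Agent.S20.Forms

/-!
Module D (Division) of the S20/S21 project: dividing a modular form on `Gamma0 N` by a level one
form.

* `isForm_div`: if `P` is a level one form of weight `w` with nonzero value at `i∞` and only
  simple zeros, and `F` is a form of weight `k` on `Gamma0 N` vanishing at all zeros of `P`,
  then `F = P * G` for a form `G` of weight `k - w`.
* `isForm_div_discriminant`: if all the `SL(2, ℤ)`-translates of `F` divided by `Δ` are bounded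
  at `i∞`, then `F = Δ * G` for a form `G` of weight `k - 12`.
-/

set_option autoImplicit false

open UpperHalfPlane ModularForm CongruenceSubgroup Filter Topology
open scoped MatrixGroups Manifold

namespace Fermat.Agent.S20

/-- Pure complex analysis: division by a holomorphic function with simple zeros. -/
theorem division_exists_mdiff {P F : ℍ → ℂ} (hP : MDiff P) (hF : MDiff F)
    (hsimple : ∀ z : ℍ, P z = 0 → deriv (P ∘ ofComplex) z ≠ 0)
    (hvan : ∀ z : ℍ, P z = 0 → F z = 0) :
    ∃ G : ℍ → ℂ, MDiff G ∧ F = P * G := by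
  classical
  set U : Set ℂ := {z | 0 < z.im} with hU
  have hUo : IsOpen U := isOpen_upperHalfPlaneSet
  set P' : ℂ → ℂ := P ∘ ofComplex with hP'
  set F' : ℂ → ℂ := F ∘ ofComplex with hF'
  have hP'd : DifferentiableOn ℂ P' U := mdifferentiable_iff.mp hP
  have hF'd : DifferentiableOn ℂ F' U := mdifferentiable_iff.mp hF
  let G : ℍ → ℂ := fun z => if P z = 0 then deriv F' z / deriv P' z else F z / P z
  have hG0 : ∀ z : ℍ, P z = 0 → G z = deriv F' z / deriv P' z := fun z hz => if_pos hz
  have hG1 : ∀ z : ℍ, P z ≠ 0 → G z = F z / P z := fun z hz => if_neg hz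
  refine ⟨G, ?_, ?_⟩
  · intro z0
    rw [mdifferentiableAt_iff]
    have hz0U : (z0 : ℂ) ∈ U := z0.im_pos
    have hUn : U ∈ 𝓝 (z0 : ℂ) := hUo.mem_nhds hz0U
    have hP'z0 : P' (z0 : ℂ) = P z0 := by simp [hP', ofComplex_apply]
    have hF'z0 : F' (z0 : ℂ) = F z0 := by simp [hF', ofComplex_apply]
    have hP'at : DifferentiableAt ℂ P' (z0 : ℂ) := (hP'd _ hz0U).differentiableAt hUn
    have hF'at : DifferentiableAt ℂ F' (z0 : ℂ) := (hF'd _ hz0U).differentiableAt hUn
    by_cases hz : P z0 = 0
    · -- simple zero: use `dslope`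
      have hFz : F z0 = 0 := hvan z0 hz
      have hdP : DifferentiableAt ℂ (dslope P' (z0 : ℂ)) (z0 : ℂ) :=
        (((Complex.differentiableOn_dslope hUn).mpr hP'd) _ hz0U).differentiableAt hUn
      have hdF : DifferentiableAt ℂ (dslope F' (z0 : ℂ)) (z0 : ℂ) :=
        (((Complex.differentiableOn_dslope hUn).mpr hF'd) _ hz0U).differentiableAt hUn
      have hne : dslope P' (z0 : ℂ) (z0 : ℂ) ≠ 0 := by
        rw [dslope_same]
        exact hsimple z0 hz
      have hQ : DifferentiableAt ℂ (fun w => dslope F' (z0 : ℂ) w / dslope P' (z0 : ℂ) w)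
          (z0 : ℂ) := hdF.div hdP hne
      have hev : ∀ᶠ w in 𝓝 (z0 : ℂ), dslope P' (z0 : ℂ) w ≠ 0 :=
        hdP.continuousAt.eventually_ne hne
      have hEq : G ∘ ofComplex =ᶠ[𝓝 (z0 : ℂ)]
          fun w => dslope F' (z0 : ℂ) w / dslope P' (z0 : ℂ) w := by
        filter_upwards [hUn, hev] with w hwU hw
        by_cases hwz : w = (z0 : ℂ)
        · subst hwz
          rw [Function.comp_apply, ofComplex_apply, hG0 z0 hz, dslope_same, dslope_same]
        · have hsub : w - (z0 : ℂ) ≠ 0 := sub_ne_zero.mpr hwz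
          have h1 : (w - (z0 : ℂ)) * dslope P' (z0 : ℂ) w = P' w := by
            have := sub_smul_dslope P' (z0 : ℂ) w
            rw [hP'z0, hz, sub_zero, smul_eq_mul] at this
            exact this
          have h2 : (w - (z0 : ℂ)) * dslope F' (z0 : ℂ) w = F' w := by
            have := sub_smul_dslope F' (z0 : ℂ) w
            rw [hF'z0, hFz, sub_zero, smul_eq_mul] at this
            exact this
          have hPw : P (ofComplex w) ≠ 0 := by
            have : P' w ≠ 0 := by
              rw [← h1]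
              exact mul_ne_zero hsub hw
            exact this
          rw [Function.comp_apply, hG1 _ hPw]
          have h3 : F (ofComplex w) = F' w := rfl
          have h4 : P (ofComplex w) = P' w := rfl
          rw [h3, h4, ← h1, ← h2, mul_div_mul_left _ _ hsub]
      exact hQ.congr_of_eventuallyEq hEq
    · have hne : P' (z0 : ℂ) ≠ 0 := by rw [hP'z0]; exact hz
      have hQ : DifferentiableAt ℂ (fun w => F' w / P' w) (z0 : ℂ) := hF'at.div hP'at hne
      have hev : ∀ᶠ w in 𝓝 (z0 : ℂ), P' w ≠ 0 := hP'at.continuousAt.eventually_ne hne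
      have hEq : G ∘ ofComplex =ᶠ[𝓝 (z0 : ℂ)] fun w => F' w / P' w := by
        filter_upwards [hev] with w hw
        have hPw : P (ofComplex w) ≠ 0 := hw
        rw [Function.comp_apply, hG1 _ hPw]
        rfl
      exact hQ.congr_of_eventuallyEq hEq
  · funext z
    rw [Pi.mul_apply]
    by_cases hz : P z = 0
    · rw [hvan z hz, hz, zero_mul]
    · rw [hG1 z hz, mul_div_cancel₀ _ hz]

/-- slash of a product with a level one factor -/
theorem division_slash_mul {k w : ℤ} {P F G : ℍ → ℂ} (hP : IsLevelOne w P) (hFG : F = P * G)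
    (γ : SL(2, ℤ)) : F ∣[k] γ = P * (G ∣[k - w] γ) := by
  have h := mul_slash_SL2 w (k - w) γ P G
  rw [hP.slash_eq γ] at h
  rw [← h, hFG]
  congr 1
  ring

/-- The common part of the two division theorems. -/
theorem division_isForm_of_mul {N : ℕ} [NeZero N] {k w : ℤ} {P F G : ℍ → ℂ}
    (hP : IsLevelOne w P) (hPev : ∀ᶠ z in atImInfty, P z ≠ 0) (hF : IsForm N k F)
    (hG : MDiff G) (hFG : F = P * G)
    (hbdd : ∀ γ : SL(2, ℤ), IsBoundedAtImInfty (fun z => (F ∣[k] γ) z / P z)) :
    IsForm N (k - w) G := by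
  have hP0 : P ≠ 0 := by
    intro h0
    obtain ⟨z, hz⟩ := hPev.exists
    exact hz (by rw [h0]; rfl)
  refine isForm_of hG ?_ ?_
  · intro γ hγ
    have h1 : P * (G ∣[k - w] γ) = P * G := by
      rw [← division_slash_mul hP hFG γ, hF.slash_eq hγ, hFG]
    have h2 : P * (G ∣[k - w] γ - G) = 0 := by
      rw [mul_sub, h1, sub_self]
    have hd : MDiff (G ∣[k - w] γ - G) := (hG.slash (k - w) γ).sub hG
    rcases (UpperHalfPlane.mul_eq_zero_iff hP.mdiff hd).mp h2 with h3 | h3
    · exact absurd h3 hP0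
    · exact sub_eq_zero.mp h3
  · intro γ
    have h := hbdd γ
    refine h.congr' ?_ EventuallyEq.rfl
    filter_upwards [hPev] with z hz
    have h1 := congrFun (division_slash_mul (k := k) hP hFG γ) z
    rw [Pi.mul_apply] at h1
    rw [h1, mul_div_cancel_left₀ _ hz]

theorem isForm_div {N : ℕ} [NeZero N] {k w : ℤ} {P F : ℍ → ℂ} (hP : IsLevelOne w P) {c : ℂ}
    (hc : c ≠ 0) (hPinf : Tendsto P atImInfty (nhds c))
    (hsimple : ∀ z : ℍ, P z = 0 → deriv (P ∘ ofComplex) z ≠ 0)
    (hF : IsForm N k F) (hvan : ∀ z : ℍ, P z = 0 → F z = 0) :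
    ∃ G : ℍ → ℂ, IsForm N (k - w) G ∧ F = P * G := by
  obtain ⟨G, hG, hFG⟩ := division_exists_mdiff hP.mdiff hF.mdiff hsimple hvan
  have hPev : ∀ᶠ z in atImInfty, P z ≠ 0 := hPinf.eventually_ne hc
  refine ⟨G, division_isForm_of_mul hP hPev hF hG hFG ?_, hFG⟩
  intro γ
  have h1 : IsBoundedAtImInfty (F ∣[k] γ) := hF.bdd_slash γ
  have h2 : Tendsto (fun z => (P z)⁻¹) atImInfty (nhds c⁻¹) := hPinf.inv₀ hc
  have h3 : (fun z => (P z)⁻¹) =O[atImInfty] (1 : ℍ → ℝ) := h2.isBigO_one ℝ
  have h4 := Asymptotics.IsBigO.mul h1 h3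
  refine h4.congr' ?_ ?_
  · exact Eventually.of_forall fun z => by simp [div_eq_mul_inv]
  · exact Eventually.of_forall fun z => by simp

theorem isForm_div_discriminant {N : ℕ} [NeZero N] {k : ℤ} {F : ℍ → ℂ} (hF : IsForm N k F)
    (hvan : ∀ γ : SL(2, ℤ), IsBoundedAtImInfty (fun z => (F ∣[k] γ) z / discriminant z)) :
    ∃ G : ℍ → ℂ, IsForm N (k - 12) G ∧ F = discriminant * G := by
  have hΔ : IsLevelOne 12 discriminant := isLevelOne_discriminant
  obtain ⟨G, hG, hFG⟩ := division_exists_mdiff hΔ.mdiff hF.mdiff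
    (fun z hz => absurd hz (discriminant_ne_zero z)) (fun z hz => absurd hz (discriminant_ne_zero z))
  exact ⟨G, division_isForm_of_mul hΔ (Eventually.of_forall discriminant_ne_zero) hF hG hFG hvan,
    hFG⟩

end Fermat.Agent.S20
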