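import Mathlib

/-!
# Injectivity of `j` on `SL(2, ℤ) \ ℍ`

If `E₄(z₁)³ Δ(z₀) = E₄(z₀)³ Δ(z₁)` then `z₁ = γ • z₀` for some `γ : SL(2, ℤ)`.

Route: the lattices `ℤ z₁ + ℤ` and `λ⁻¹ (ℤ z₀ + ℤ)` have the same invariants `g₂`, `g₃` for a
suitable `λ`; two lattices with the same invariants have the same Weierstrass function near `0`
(a local uniqueness argument for the differential equation), hence the same poles, hence are
equal.
-/

set_option autoImplicit false

open UpperHalfPlane ModularForm Filter Topology PeriodPair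
open scoped MatrixGroups

namespace Fermat.Agent.S20

/-- Local uniqueness: an analytic `D` near `0` with `z D'(z) U(z) = D(z) V(z)`, `U(0) = -4`,
`V(0) = 12` vanishes near `0`. -/
theorem jinj_eventually_zero {D U V : ℂ → ℂ} (hD : AnalyticAt ℂ D 0) (hU : ContinuousAt U 0)
    (hV : ContinuousAt V 0) (hU0 : U 0 = -4) (hV0 : V 0 = 12)
    (h : ∀ᶠ z in 𝓝 (0 : ℂ), z * deriv D z * U z = D z * V z) : ∀ᶠ z in 𝓝 (0 : ℂ), D z = 0 := by
  by_contra hne
  obtain ⟨m, g, hg, hg0, hDg⟩ := hD.exists_eventuallyEq_pow_smul_nonzero_iff.mpr hne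
  have hDg' : D =ᶠ[𝓝 (0 : ℂ)] fun z => z ^ m * g z := by
    filter_upwards [hDg] with z hz
    simpa using hz
  have hderiv : ∀ᶠ z in 𝓝 (0 : ℂ), deriv D z = deriv (fun z => z ^ m * g z) z :=
    hDg'.deriv
  have hgd : ∀ᶠ z in 𝓝 (0 : ℂ), DifferentiableAt ℂ g z :=
    hg.eventually_analyticAt.mono fun z hz => hz.differentiableAt
  -- the relation after dividing by `z ^ m`
  have key : ∀ᶠ z in 𝓝[≠] (0 : ℂ), ((m : ℂ) * g z + z * deriv g z) * U z = g z * V z := by
    have h1 : ∀ᶠ z in 𝓝[≠] (0 : ℂ), z * deriv D z * U z = D z * V z := h.filter_mono nhdsWithin_le_nhds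
    have h2 : ∀ᶠ z in 𝓝[≠] (0 : ℂ), deriv D z = deriv (fun z => z ^ m * g z) z :=
      hderiv.filter_mono nhdsWithin_le_nhds
    have h3 : ∀ᶠ z in 𝓝[≠] (0 : ℂ), DifferentiableAt ℂ g z := hgd.filter_mono nhdsWithin_le_nhds
    have h4 : ∀ᶠ z in 𝓝[≠] (0 : ℂ), D z = z ^ m * g z := hDg'.filter_mono nhdsWithin_le_nhds
    filter_upwards [h1, h2, h3, h4, self_mem_nhdsWithin] with z e1 e2 e3 e4 (hz : z ≠ 0)
    have hd : deriv (fun z => z ^ m * g z) z = (m : ℂ) * z ^ (m - 1) * g z + z ^ m * deriv g z := by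
      have := (hasDerivAt_pow m z).mul e3.hasDerivAt
      exact this.deriv
    rw [e2, hd, e4] at e1
    have hzm : z ^ m ≠ 0 := pow_ne_zero _ hz
    have hzz : z * z ^ (m - 1) = z ^ m ∨ m = 0 := by
      rcases Nat.eq_zero_or_pos m with h0 | h0
      · exact Or.inr h0
      · left
        rw [← pow_succ']
        congr 1
        omega
    have e5 : z ^ m * (((m : ℂ) * g z + z * deriv g z) * U z) = z ^ m * (g z * V z) := by
      rcases hzz with h0 | h0
      · linear_combination e1 - (m : ℂ) * g z * U z * h0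
      · subst h0
        simp only [pow_zero, Nat.cast_zero, zero_mul, zero_add, one_mul] at e1 ⊢
        linear_combination e1
    exact mul_left_cancel₀ hzm e5
  have hc1 : ContinuousAt (fun z => ((m : ℂ) * g z + z * deriv g z) * U z) 0 := by
    have hg' : ContinuousAt g 0 := hg.continuousAt
    have hdg : ContinuousAt (deriv g) 0 := hg.deriv.continuousAt
    exact ((continuousAt_const.mul hg').add (continuousAt_id.mul hdg)).mul hU
  have hc2 : ContinuousAt (fun z => g z * V z) 0 := hg.continuousAt.mul hV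
  have hlim := tendsto_nhds_unique_of_eventuallyEq
    (hc1.tendsto.mono_left (nhdsWithin_le_nhds (s := {0}ᶜ)))
    (hc2.tendsto.mono_left (nhdsWithin_le_nhds (s := {0}ᶜ))) key
  simp only [zero_mul, add_zero, hU0, hV0] at hlim
  have hm : (m : ℂ) = -3 := by
    have : g 0 * ((m : ℂ) * (-4) - 12) = 0 := by linear_combination hlim
    rcases mul_eq_zero.mp this with h | h
    · exact absurd h hg0
    · linear_combination (-1 / 4 : ℂ) * h
  have : ((m + 3 : ℕ) : ℂ) = 0 := by push_cast; rw [hm]; ring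
  exact absurd (Nat.cast_eq_zero.mp this) (by omega)

/-- Two period pairs with the same `g₂`, `g₃` have the same Weierstrass function near `0`
(pole removed). -/
theorem jinj_weierstrassPExcept_eventuallyEq (L L' : PeriodPair) (h2 : L.g₂ = L'.g₂)
    (h3 : L.g₃ = L'.g₃) :
    ∀ᶠ z in 𝓝 (0 : ℂ), ℘[L - (0 : ℂ)] z = ℘[L' - (0 : ℂ)] z := by
  have hA : AnalyticAt ℂ ℘[L - (0 : ℂ)] 0 := L.analyticAt_weierstrassPExcept 0
  have hA' : AnalyticAt ℂ ℘[L' - (0 : ℂ)] 0 := L'.analyticAt_weierstrassPExcept 0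
  have hB : AnalyticAt ℂ ℘'[L - (0 : ℂ)] 0 := L.analyticAt_derivWeierstrassPExcept 0
  have hB' : AnalyticAt ℂ ℘'[L' - (0 : ℂ)] 0 := L'.analyticAt_derivWeierstrassPExcept 0
  set D : ℂ → ℂ := fun z => ℘[L - (0 : ℂ)] z - ℘[L' - (0 : ℂ)] z with hDdef
  set U : ℂ → ℂ := fun z => z ^ 3 * (℘'[L - (0 : ℂ)] z + ℘'[L' - (0 : ℂ)] z) - 4 with hUdef
  set V : ℂ → ℂ := fun z => 4 * ((z ^ 2 * ℘[L - (0 : ℂ)] z + 1) ^ 2 +
      (z ^ 2 * ℘[L - (0 : ℂ)] z + 1) * (z ^ 2 * ℘[L' - (0 : ℂ)] z + 1) +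
      (z ^ 2 * ℘[L' - (0 : ℂ)] z + 1) ^ 2) - L.g₂ * z ^ 4 with hVdef
  have hDan : AnalyticAt ℂ D 0 := hA.sub hA'
  have hUc : ContinuousAt U 0 := by
    have : AnalyticAt ℂ U 0 := by
      simp only [hUdef]; fun_prop
    exact this.continuousAt
  have hVc : ContinuousAt V 0 := by
    have : AnalyticAt ℂ V 0 := by
      simp only [hVdef]; fun_prop
    exact this.continuousAt
  have hU0 : U 0 = -4 := by simp [hUdef]
  have hV0 : V 0 = 12 := by simp [hVdef]; norm_num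
  have hN : (L.lattice \ {0} : Set ℂ)ᶜ ∈ 𝓝 (0 : ℂ) := L.compl_lattice_sdiff_singleton_mem_nhds 0
  have hN' : (L'.lattice \ {0} : Set ℂ)ᶜ ∈ 𝓝 (0 : ℂ) :=
    L'.compl_lattice_sdiff_singleton_mem_nhds 0
  have hderivD : ∀ᶠ z in 𝓝 (0 : ℂ), deriv D z = ℘'[L - (0 : ℂ)] z - ℘'[L' - (0 : ℂ)] z := by
    filter_upwards [hN, hN', hA.eventually_analyticAt, hA'.eventually_analyticAt]
      with z hz hz' ha ha'
    have e1 := L.eqOn_deriv_weierstrassPExcept_derivWeierstrassPExcept 0 hz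
    have e2 := L'.eqOn_deriv_weierstrassPExcept_derivWeierstrassPExcept 0 hz'
    have : deriv D z = deriv ℘[L - (0 : ℂ)] z - deriv ℘[L' - (0 : ℂ)] z := by
      simp only [hDdef]
      exact deriv_fun_sub ha.differentiableAt ha'.differentiableAt
    rw [this, e1, e2]
  have hrel : ∀ᶠ z in 𝓝 (0 : ℂ), z * deriv D z * U z = D z * V z := by
    filter_upwards [hN, hN', hderivD] with z hz hz' hd
    by_cases hz0 : z = 0
    · subst hz0
      simp [hDdef]
    have hzL : z ∉ L.lattice := by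
      intro hmem
      exact hz ⟨hmem, by simpa using hz0⟩
    have hzL' : z ∉ L'.lattice := by
      intro hmem
      exact hz' ⟨hmem, by simpa using hz0⟩
    have o1 := L.derivWeierstrassP_sq z hzL
    have o2 := L'.derivWeierstrassP_sq z hzL'
    have p1 := L.weierstrassPExcept_def 0 z
    have p2 := L'.weierstrassPExcept_def 0 z
    have q1 := L.derivWeierstrassPExcept_def 0 z
    have q2 := L'.derivWeierstrassPExcept_def 0 z
    simp only [ZeroMemClass.coe_zero, sub_zero, ne_eq, OfNat.ofNat_ne_zero, not_false_eq_true,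
      zero_pow, div_zero, zero_sub] at p1 p2 q1 q2
    have r1 : ℘[L] z = ℘[L - (0 : ℂ)] z + 1 / z ^ 2 := by rw [p1]; ring
    have r2 : ℘[L'] z = ℘[L' - (0 : ℂ)] z + 1 / z ^ 2 := by rw [p2]; ring
    have s1 : ℘'[L] z = ℘'[L - (0 : ℂ)] z - 2 / z ^ 3 := by rw [q1]; ring
    have s2 : ℘'[L'] z = ℘'[L' - (0 : ℂ)] z - 2 / z ^ 3 := by rw [q2]; ring
    rw [r1, s1] at o1
    rw [r2, s2, ← h2, ← h3] at o2
    rw [hd]
    simp only [hDdef, hUdef, hVdef]
    generalize ℘[L - (0 : ℂ)] z = a at *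
    generalize ℘[L' - (0 : ℂ)] z = a' at *
    generalize ℘'[L - (0 : ℂ)] z = b at *
    generalize ℘'[L' - (0 : ℂ)] z = b' at *
    have o1' : (z ^ 3 * b - 2) ^ 2 = 4 * (z ^ 2 * a + 1) ^ 3 - L.g₂ * z ^ 4 * (z ^ 2 * a + 1)
        - L.g₃ * z ^ 6 := by
      field_simp at o1
      linear_combination o1
    have o2' : (z ^ 3 * b' - 2) ^ 2 = 4 * (z ^ 2 * a' + 1) ^ 3 - L.g₂ * z ^ 4 * (z ^ 2 * a' + 1)
        - L.g₃ * z ^ 6 := by
      field_simp at o2
      linear_combination o2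
    have hz2 : z ^ 2 ≠ 0 := pow_ne_zero _ hz0
    apply mul_left_cancel₀ hz2
    linear_combination o1' - o2'
  have := jinj_eventually_zero hDan hUc hVc hU0 hV0 hrel
  filter_upwards [this] with z hz
  exact sub_eq_zero.mp hz

theorem jinj_countable_lattice (L : PeriodPair) : (L.lattice : Set ℂ).Countable := by
  have : Countable L.lattice := Countable.of_equiv _ L.latticeEquivProd.toEquiv.symm
  exact Set.to_countable _

/-- If the two Weierstrass functions (pole removed) agree near `0`, every pole of the first is a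
pole of the second. -/
theorem jinj_lattice_le (L L' : PeriodPair)
    (h : ∀ᶠ z in 𝓝 (0 : ℂ), ℘[L - (0 : ℂ)] z = ℘[L' - (0 : ℂ)] z) :
    L.lattice ≤ L'.lattice := by
  intro ω hω
  by_contra hω'
  set W : Set ℂ := ((L.lattice : Set ℂ) ∪ (L'.lattice : Set ℂ))ᶜ with hW
  have hWpre : IsPreconnected W := by
    have hc : ((L.lattice : Set ℂ) ∪ (L'.lattice : Set ℂ)).Countable :=
      (jinj_countable_lattice L).union (jinj_countable_lattice L')
    exact (hc.isConnected_compl_of_one_lt_rank (by simp)).isPreconnected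
  have hWL : W ⊆ (L.lattice : Set ℂ)ᶜ := Set.compl_subset_compl.mpr Set.subset_union_left
  have hWL' : W ⊆ (L'.lattice : Set ℂ)ᶜ := Set.compl_subset_compl.mpr Set.subset_union_right
  have han : AnalyticOnNhd ℂ ℘[L] W := L.analyticOnNhd_weierstrassP.mono hWL
  have han' : AnalyticOnNhd ℂ ℘[L'] W := L'.analyticOnNhd_weierstrassP.mono hWL'
  -- a point near `0` where the two functions agree locally
  have hN : (L.lattice \ {0} : Set ℂ)ᶜ ∈ 𝓝 (0 : ℂ) := L.compl_lattice_sdiff_singleton_mem_nhds 0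
  have hN' : (L'.lattice \ {0} : Set ℂ)ᶜ ∈ 𝓝 (0 : ℂ) :=
    L'.compl_lattice_sdiff_singleton_mem_nhds 0
  obtain ⟨O, hOsub, hOopen, hO0⟩ := mem_nhds_iff.mp (inter_mem (inter_mem h hN) hN')
  have hpunct : ∀ z ∈ O, z ≠ 0 → z ∈ W ∧ ℘[L] z = ℘[L'] z := by
    intro z hz hz0
    obtain ⟨⟨hz1, hz2⟩, hz3⟩ := hOsub hz
    have hzL : z ∉ L.lattice := fun hmem => hz2 ⟨hmem, by simpa using hz0⟩
    have hzL' : z ∉ L'.lattice := fun hmem => hz3 ⟨hmem, by simpa using hz0⟩
    refine ⟨by simp [hW, hzL, hzL'], ?_⟩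
    have p1 := L.weierstrassPExcept_def 0 z
    have p2 := L'.weierstrassPExcept_def 0 z
    simp only [ZeroMemClass.coe_zero, sub_zero] at p1 p2
    have hz1' : ℘[L - (0 : ℂ)] z = ℘[L' - (0 : ℂ)] z := hz1
    rw [p1, p2] at hz1'
    exact add_right_cancel hz1'
  obtain ⟨z₁, hz₁O, hz₁0⟩ : ∃ z₁ ∈ O, z₁ ≠ 0 := by
    have : (O ∩ {0}ᶜ : Set ℂ).Nonempty := by
      have hne : (𝓝[≠] (0 : ℂ)).NeBot := inferInstance
      have : O ∩ {0}ᶜ ∈ 𝓝[≠] (0 : ℂ) :=
        inter_mem (mem_nhdsWithin_of_mem_nhds (hOopen.mem_nhds hO0)) self_mem_nhdsWithin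
      exact hne.nonempty_of_mem this
    obtain ⟨z₁, h1, h2⟩ := this
    exact ⟨z₁, h1, h2⟩
  have hev : ℘[L] =ᶠ[𝓝 z₁] ℘[L'] := by
    have : O ∩ {0}ᶜ ∈ 𝓝 z₁ :=
      (hOopen.inter isOpen_compl_singleton).mem_nhds ⟨hz₁O, hz₁0⟩
    filter_upwards [this] with z hz
    exact (hpunct z hz.1 hz.2).2
  have heq : Set.EqOn ℘[L] ℘[L'] W :=
    han.eqOn_of_preconnected_of_eventuallyEq han' hWpre (hpunct z₁ hz₁O hz₁0).1 hev
  -- compare the orders at `ω`
  have hcong : ℘[L] =ᶠ[𝓝[≠] ω] ℘[L'] := by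
    have h1 : (L.lattice \ {ω} : Set ℂ)ᶜ ∈ 𝓝 ω := L.compl_lattice_sdiff_singleton_mem_nhds ω
    have h2 : (L'.lattice : Set ℂ)ᶜ ∈ 𝓝 ω := L'.isClosed_lattice.isOpen_compl.mem_nhds hω'
    filter_upwards [mem_nhdsWithin_of_mem_nhds h1, mem_nhdsWithin_of_mem_nhds h2,
      self_mem_nhdsWithin] with z hz1 hz2 (hz3 : z ≠ ω)
    apply heq
    have hzL : z ∉ L.lattice := fun hmem => hz1 ⟨hmem, by simpa using hz3⟩
    simp only [hW, Set.mem_compl_iff, Set.mem_union, SetLike.mem_coe, not_or]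
    exact ⟨hzL, hz2⟩
  have ho := meromorphicOrderAt_congr hcong
  rw [L.order_weierstrassP ω hω] at ho
  have hnn : 0 ≤ meromorphicOrderAt ℘[L'] ω :=
    (L'.analyticOnNhd_weierstrassP ω hω').meromorphicOrderAt_nonneg
  rw [← ho] at hnn
  exact absurd hnn (by decide)

/-- Two period pairs with the same invariants `g₂`, `g₃` span the same lattice. -/
theorem jinj_lattice_eq_of_g_eq (L L' : PeriodPair) (h2 : L.g₂ = L'.g₂) (h3 : L.g₃ = L'.g₃) :
    L.lattice = L'.lattice := by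
  have h := jinj_weierstrassPExcept_eventuallyEq L L' h2 h3
  refine le_antisymm (jinj_lattice_le L L' h) (jinj_lattice_le L' L ?_)
  filter_upwards [h] with z hz
  exact hz.symm

/-- The period pair `(c z, c)`, spanning the lattice `c (ℤ z + ℤ)`. -/
noncomputable def jinjPair (c : ℂ) (hc : c ≠ 0) (z : ℍ) : PeriodPair where
  ω₁ := c * z
  ω₂ := c
  indep := by
    rw [LinearIndependent.pair_iff]
    intro s t hst
    have h1 : c * ((s : ℂ) * z + t) = 0 := by
      simp only [Complex.real_smul] at hst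
      linear_combination hst
    have h2 : (s : ℂ) * z + t = 0 := (mul_eq_zero.mp h1).resolve_left hc
    have him := congrArg Complex.im h2
    simp only [Complex.add_im, Complex.mul_im, Complex.ofReal_re, Complex.ofReal_im, zero_mul,
      add_zero, Complex.zero_im, UpperHalfPlane.coe_im, mul_eq_zero] at him
    have hs : s = 0 := by
      rcases him with h | h
      · exact h
      · exact absurd h z.im_pos.ne'
    subst hs
    simp only [Complex.ofReal_zero, zero_mul, zero_add, Complex.ofReal_eq_zero] at h2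
    exact ⟨rfl, h2⟩

theorem jinj_mem_lattice {c : ℂ} {hc : c ≠ 0} {z : ℍ} {x : ℂ} :
    x ∈ (jinjPair c hc z).lattice ↔ ∃ m n : ℤ, (m : ℂ) * (c * z) + n * c = x :=
  PeriodPair.mem_lattice

/-- The lattice sums of `c (ℤ z + ℤ)` in terms of the Eisenstein series. -/
theorem jinj_G (c : ℂ) (hc : c ≠ 0) (z : ℍ) (k : ℕ) (hk : 3 ≤ k) :
    (jinjPair c hc z).G k = (c ^ k)⁻¹ * (riemannZeta k * (2 * E hk z)) := by
  set L := jinjPair c hc z with hL
  have e : (Fin 2 → ℤ) ≃ L.lattice := L.latticeBasis.equivFun.symm.toEquiv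
  have he : ∀ v : Fin 2 → ℤ, ((L.latticeBasis.equivFun.symm.toEquiv v : L.lattice) : ℂ) =
      (v 0 : ℂ) * (c * z) + v 1 * c := by
    intro v
    simp [Module.Basis.equivFun_symm_apply, Fin.sum_univ_two, hL, jinjPair]
  have hsum : ∀ v : Fin 2 → ℤ,
      (((L.latticeBasis.equivFun.symm.toEquiv v : L.lattice) : ℂ) ^ k)⁻¹ =
        (c ^ k)⁻¹ * EisensteinSeries.eisSummand k v z := by
    intro v
    rw [he v, EisensteinSeries.eisSummand, zpow_neg, zpow_natCast, ← mul_inv, ← mul_pow]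
    congr 2
    ring
  rw [PeriodPair.G, ← L.latticeBasis.equivFun.symm.toEquiv.tsum_eq]
  simp_rw [hsum]
  rw [tsum_mul_left, tsum_eisSummand_eq_riemannZeta_mul_eisensteinSeries hk z]
  have hE : E hk z = (1 / 2 : ℂ) * eisensteinSeries (N := 1) 0 k z := by
    rw [show E hk z = (1 / 2 : ℂ) • EisensteinSeries.eisensteinSeriesSIF (N := 1) 0 k z from rfl,
      EisensteinSeries.eisensteinSeriesSIF_apply 0 k z, smul_eq_mul]
  rw [hE]
  ring

/-- Pure algebra: equal `j`-invariants give a scaling factor. -/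
theorem jinj_exists_scale (a0 b0 a1 b1 : ℂ) (h0 : a0 ^ 3 ≠ b0 ^ 2) (h1 : a1 ^ 3 ≠ b1 ^ 2)
    (h : a1 ^ 3 * b0 ^ 2 = a0 ^ 3 * b1 ^ 2) :
    ∃ l : ℂ, l ≠ 0 ∧ a1 = l ^ 4 * a0 ∧ b1 = l ^ 6 * b0 := by
  by_cases ha0 : a0 = 0
  · subst ha0
    have hb0 : b0 ≠ 0 := by
      rintro rfl
      exact h0 (by ring)
    have ha1 : a1 = 0 := by
      have : a1 ^ 3 * b0 ^ 2 = 0 := by rw [h]; ring
      rcases mul_eq_zero.mp this with h' | h'
      · exact pow_eq_zero_iff (by norm_num) |>.mp h'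
      · exact absurd (pow_eq_zero_iff (by norm_num) |>.mp h') hb0
    subst ha1
    have hb1 : b1 ≠ 0 := by
      rintro rfl
      exact h1 (by ring)
    obtain ⟨l, hl⟩ := IsAlgClosed.exists_pow_nat_eq (b1 / b0) (n := 6) (by norm_num)
    refine ⟨l, ?_, by ring, ?_⟩
    · rintro rfl
      have : b1 / b0 = 0 := by rw [← hl]; ring
      exact div_ne_zero hb1 hb0 this
    · rw [hl]; field_simp
  by_cases hb0 : b0 = 0
  · subst hb0
    have hb1 : b1 = 0 := by
      have : a0 ^ 3 * b1 ^ 2 = 0 := by rw [← h]; ring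
      rcases mul_eq_zero.mp this with h' | h'
      · exact absurd (pow_eq_zero_iff (by norm_num) |>.mp h') ha0
      · exact pow_eq_zero_iff (by norm_num) |>.mp h'
    subst hb1
    have ha1 : a1 ≠ 0 := by
      rintro rfl
      exact h1 (by ring)
    obtain ⟨l, hl⟩ := IsAlgClosed.exists_pow_nat_eq (a1 / a0) (n := 4) (by norm_num)
    refine ⟨l, ?_, ?_, by ring⟩
    · rintro rfl
      have : a1 / a0 = 0 := by rw [← hl]; ring
      exact div_ne_zero ha1 ha0 this
    · rw [hl]; field_simp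
  have ha1 : a1 ≠ 0 := by
    rintro rfl
    have : a0 ^ 3 * b1 ^ 2 = 0 := by rw [← h]; ring
    rcases mul_eq_zero.mp this with h' | h'
    · exact absurd (pow_eq_zero_iff (by norm_num) |>.mp h') ha0
    · have hb1 : b1 = 0 := pow_eq_zero_iff (by norm_num) |>.mp h'
      subst hb1
      exact h1 (by ring)
  have hb1 : b1 ≠ 0 := by
    rintro rfl
    have : a1 ^ 3 * b0 ^ 2 = 0 := by rw [h]; ring
    rcases mul_eq_zero.mp this with h' | h'
    · exact absurd (pow_eq_zero_iff (by norm_num) |>.mp h') ha1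
    · exact absurd (pow_eq_zero_iff (by norm_num) |>.mp h') hb0
  obtain ⟨l, hl⟩ := IsAlgClosed.exists_pow_nat_eq (b1 * a0 / (b0 * a1)) (n := 2) (by norm_num)
  have hl4 : l ^ 4 = a1 / a0 := by
    have : l ^ 4 = (l ^ 2) ^ 2 := by ring
    rw [this, hl]
    field_simp
    linear_combination (-1 : ℂ) * h
  refine ⟨l, ?_, ?_, ?_⟩
  · rintro rfl
    have : b1 * a0 / (b0 * a1) = 0 := by rw [← hl]; ring
    exact div_ne_zero (mul_ne_zero hb1 ha0) (mul_ne_zero hb0 ha1) this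
  · rw [hl4]; field_simp
  · have : l ^ 6 = l ^ 4 * l ^ 2 := by ring
    rw [this, hl4, hl]
    field_simp

/-- `j` is injective on `SL(2, ℤ) \ ℍ`. -/
theorem exists_smul_eq_of_j_eq (z₀ z₁ : ℍ)
    (h : E₄ z₁ ^ 3 * discriminant z₀ = E₄ z₀ ^ 3 * discriminant z₁) :
    ∃ γ : SL(2, ℤ), z₁ = γ • z₀ := by
  have hΔ0 := discriminant_eq_E₄_cube_sub_E₆_sq z₀
  have hΔ1 := discriminant_eq_E₄_cube_sub_E₆_sq z₁
  have hne0 : E₄ z₀ ^ 3 ≠ E₆ z₀ ^ 2 := by
    intro he
    apply discriminant_ne_zero z₀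
    rw [hΔ0, he]; ring
  have hne1 : E₄ z₁ ^ 3 ≠ E₆ z₁ ^ 2 := by
    intro he
    apply discriminant_ne_zero z₁
    rw [hΔ1, he]; ring
  have hrel : E₄ z₁ ^ 3 * E₆ z₀ ^ 2 = E₄ z₀ ^ 3 * E₆ z₁ ^ 2 := by
    rw [hΔ0, hΔ1] at h
    linear_combination (-1728 : ℂ) * h
  obtain ⟨l, hl0, hl4, hl6⟩ := jinj_exists_scale _ _ _ _ hne0 hne1 hrel
  set L₁ := jinjPair 1 one_ne_zero z₁ with hL₁
  set L₀ := jinjPair l⁻¹ (inv_ne_zero hl0) z₀ with hL₀
  have hg2 : L₁.g₂ = L₀.g₂ := by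
    simp only [PeriodPair.g₂, hL₁, hL₀]
    rw [jinj_G 1 one_ne_zero z₁ 4 (by norm_num), jinj_G l⁻¹ (inv_ne_zero hl0) z₀ 4 (by norm_num)]
    rw [hl4]
    field_simp
  have hg3 : L₁.g₃ = L₀.g₃ := by
    simp only [PeriodPair.g₃, hL₁, hL₀]
    rw [jinj_G 1 one_ne_zero z₁ 6 (by norm_num), jinj_G l⁻¹ (inv_ne_zero hl0) z₀ 6 (by norm_num)]
    rw [hl6]
    field_simp
  have hlat : L₁.lattice = L₀.lattice := jinj_lattice_eq_of_g_eq L₁ L₀ hg2 hg3
  -- the four membership facts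
  have m1 : (z₁ : ℂ) ∈ L₀.lattice := by
    rw [← hlat]
    exact jinj_mem_lattice.mpr ⟨1, 0, by simp⟩
  have m2 : (1 : ℂ) ∈ L₀.lattice := by
    rw [← hlat]
    exact jinj_mem_lattice.mpr ⟨0, 1, by simp⟩
  have m3 : l⁻¹ * (z₀ : ℂ) ∈ L₁.lattice := by
    rw [hlat]
    exact jinj_mem_lattice.mpr ⟨1, 0, by simp⟩
  have m4 : l⁻¹ ∈ L₁.lattice := by
    rw [hlat]
    exact jinj_mem_lattice.mpr ⟨0, 1, by simp⟩
  obtain ⟨a, b, hab⟩ := jinj_mem_lattice.mp m1
  obtain ⟨c, d, hcd⟩ := jinj_mem_lattice.mp m2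
  obtain ⟨a', b', hab'⟩ := jinj_mem_lattice.mp m3
  obtain ⟨c', d', hcd'⟩ := jinj_mem_lattice.mp m4
  -- clear denominators
  have e1 : (a : ℂ) * z₀ + b = l * z₁ := by
    field_simp at hab
    linear_combination hab
  have e2 : (c : ℂ) * z₀ + d = l := by
    field_simp at hcd
    linear_combination hcd
  have e3 : l * ((a' : ℂ) * z₁ + b') = z₀ := by
    field_simp at hab'
    linear_combination hab'
  have e4 : l * ((c' : ℂ) * z₁ + d') = 1 := by
    field_simp at hcd'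
    linear_combination hcd'
  -- linear independence of `z₀, 1` over the integers
  have indep : ∀ s t : ℤ, (s : ℂ) * z₀ + t = 0 → s = 0 ∧ t = 0 := by
    intro s t hst
    have him := congrArg Complex.im hst
    simp only [Complex.add_im, Complex.mul_im, Complex.intCast_re, Complex.intCast_im, zero_mul,
      add_zero, Complex.zero_im, UpperHalfPlane.coe_im, mul_eq_zero] at him
    have hs : s = 0 := by
      rcases him with h' | h'
      · exact_mod_cast h'
      · exact absurd h' z₀.im_pos.ne'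
    subst hs
    simp only [Int.cast_zero, zero_mul, zero_add] at hst
    exact ⟨rfl, by exact_mod_cast hst⟩
  have f1 : ((a' * a + b' * c - 1 : ℤ) : ℂ) * z₀ + ((a' * b + b' * d : ℤ) : ℂ) = 0 := by
    push_cast
    linear_combination (a' : ℂ) * e1 + (b' : ℂ) * e2 + e3
  have f2 : ((c' * a + d' * c : ℤ) : ℂ) * z₀ + ((c' * b + d' * d - 1 : ℤ) : ℂ) = 0 := by
    push_cast
    linear_combination (c' : ℂ) * e1 + (d' : ℂ) * e2 + e4
  obtain ⟨hP, hQ⟩ := indep _ _ f1
  obtain ⟨hR, hS⟩ := indep _ _ f2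
  have hdet : (a' * d' - b' * c') * (a * d - b * c) = 1 := by
    linear_combination (c' * b + d' * d) * hP + hS - (c' * a + d' * c) * hQ
  -- the sign of the determinant
  have e5 : (z₁ : ℂ) * ((c : ℂ) * z₀ + d) = (a : ℂ) * z₀ + b := by
    rw [e1, e2]; ring
  have hre := congrArg Complex.re e5
  have him := congrArg Complex.im e5
  simp only [Complex.mul_re, Complex.add_re, Complex.intCast_re, Complex.intCast_im, zero_mul,
    sub_zero, Complex.mul_im, Complex.add_im, add_zero, UpperHalfPlane.coe_re,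
    UpperHalfPlane.coe_im] at hre him
  have hpos : 0 < ((c : ℝ) * z₀.re + d) ^ 2 + ((c : ℝ) * z₀.im) ^ 2 := by
    by_contra hcon
    have h1 : ((c : ℝ) * z₀.re + d) ^ 2 + ((c : ℝ) * z₀.im) ^ 2 = 0 :=
      le_antisymm (not_lt.mp hcon) (by positivity)
    have h2 : (c : ℝ) * z₀.re + d = 0 := by nlinarith [sq_nonneg ((c : ℝ) * z₀.re + d), sq_nonneg ((c : ℝ) * z₀.im)]
    have h3 : (c : ℝ) * z₀.im = 0 := by nlinarith [sq_nonneg ((c : ℝ) * z₀.re + d), sq_nonneg ((c : ℝ) * z₀.im)]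
    apply hl0
    rw [← e2]
    apply Complex.ext
    · simpa using h2
    · simpa using h3
  have hkey : z₁.im * (((c : ℝ) * z₀.re + d) ^ 2 + ((c : ℝ) * z₀.im) ^ 2) =
      ((a * d - b * c : ℤ) : ℝ) * z₀.im := by
    push_cast
    linear_combination ((c : ℝ) * z₀.re + d) * him - ((c : ℝ) * z₀.im) * hre
  have hdetpos : 0 < a * d - b * c := by
    have h1 : 0 < ((a * d - b * c : ℤ) : ℝ) * z₀.im := by
      rw [← hkey]
      exact mul_pos z₁.im_pos hpos
    have h2 : 0 < ((a * d - b * c : ℤ) : ℝ) := by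
      by_contra hcon
      have := mul_nonpos_of_nonpos_of_nonneg (not_lt.mp hcon) z₀.im_pos.le
      linarith
    exact_mod_cast h2
  have hdet1 : a * d - b * c = 1 := by
    rcases Int.eq_one_or_neg_one_of_mul_eq_one' hdet with ⟨_, h'⟩ | ⟨_, h'⟩
    · exact h'
    · omega
  have hdet' : (!![a, b; c, d] : Matrix (Fin 2) (Fin 2) ℤ).det = 1 := by
    rw [Matrix.det_fin_two_of]; exact hdet1
  set γ : SL(2, ℤ) := ⟨!![a, b; c, d], hdet'⟩ with hγ
  refine ⟨γ, ?_⟩
  apply UpperHalfPlane.ext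
  rw [UpperHalfPlane.coe_specialLinearGroup_apply]
  have g00 : γ 0 0 = a := rfl
  have g01 : γ 0 1 = b := rfl
  have g10 : γ 1 0 = c := rfl
  have g11 : γ 1 1 = d := rfl
  rw [g00, g01, g10, g11]
  have hne : (c : ℂ) * z₀ + d ≠ 0 := by rw [e2]; exact hl0
  simp only [algebraMap_int_eq, eq_intCast, Complex.ofReal_intCast]
  rw [eq_div_iff hne]
  exact e5

end Fermat.Agent.S20
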