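import Mathlib
import Fermat.Agent.S20.Defs
import Fermat.Agent.Lib.IntStruct.LevelOne

/-!
# S20 module B: level one facts

* `isLevelOne_decomp`: every level one form of positive weight is `E₄ * r + E₆ * s`.
* `tendsto_E₄`, `tendsto_E₆`, `exists_discriminant_bounds`, `isLevelOne_Pfun`, `tendsto_Pfun`.
* `deriv_E₄_ne_zero`, `deriv_E₆_ne_zero`, `deriv_Pfun_ne_zero`: simple zeros, via the bracket
  `4 E₄ D E₆ - 6 E₆ D E₄ = c Δ`, `c ≠ 0`.
-/

set_option autoImplicit false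

open UpperHalfPlane ModularForm CongruenceSubgroup Filter
open scoped MatrixGroups Manifold

namespace Fermat.Agent.S20

/-! ### closure properties of `IsLevelOne` -/

theorem lvl_E4 : IsLevelOne 4 (⇑E₄) := ⟨E₄, rfl⟩

theorem lvl_E6 : IsLevelOne 6 (⇑E₆) := ⟨E₆, rfl⟩

theorem lvl_disc : IsLevelOne 12 discriminant :=
  ⟨CuspForm.toModularFormₗ CuspForm.discriminant, rfl⟩

theorem lvl_zero (k : ℤ) : IsLevelOne k 0 := ⟨0, rfl⟩

theorem lvl_cast {k l : ℤ} (h : k = l) {p : ℍ → ℂ} (hp : IsLevelOne k p) : IsLevelOne l p :=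
  h ▸ hp

theorem lvl_add {k : ℤ} {p q : ℍ → ℂ} (hp : IsLevelOne k p) (hq : IsLevelOne k q) :
    IsLevelOne k (p + q) := by
  obtain ⟨f, rfl⟩ := hp
  obtain ⟨g, rfl⟩ := hq
  exact ⟨f + g, rfl⟩

theorem lvl_sub {k : ℤ} {p q : ℍ → ℂ} (hp : IsLevelOne k p) (hq : IsLevelOne k q) :
    IsLevelOne k (p - q) := by
  obtain ⟨f, rfl⟩ := hp
  obtain ⟨g, rfl⟩ := hq
  exact ⟨f - g, rfl⟩

theorem lvl_neg {k : ℤ} {p : ℍ → ℂ} (hp : IsLevelOne k p) : IsLevelOne k (-p) := by
  obtain ⟨f, rfl⟩ := hp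
  exact ⟨-f, rfl⟩

theorem lvl_smul {k : ℤ} (c : ℂ) {p : ℍ → ℂ} (hp : IsLevelOne k p) : IsLevelOne k (c • p) := by
  obtain ⟨f, rfl⟩ := hp
  exact ⟨c • f, rfl⟩

theorem lvl_mul {k l : ℤ} {p q : ℍ → ℂ} (hp : IsLevelOne k p) (hq : IsLevelOne l q) :
    IsLevelOne (k + l) (p * q) := by
  obtain ⟨f, rfl⟩ := hp
  obtain ⟨g, rfl⟩ := hq
  exact ⟨f.mul g, rfl⟩

theorem lvl_mul' {k l m : ℤ} {p q : ℍ → ℂ} (hp : IsLevelOne k p) (hq : IsLevelOne l q)
    (h : k + l = m) : IsLevelOne m (p * q) :=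
  lvl_cast h (lvl_mul hp hq)

theorem lvl_pow {k : ℤ} {p : ℍ → ℂ} (hp : IsLevelOne k p) (n : ℕ) :
    IsLevelOne (n * k) (p ^ n) := by
  obtain ⟨f, rfl⟩ := hp
  exact ⟨f.pow n, ModularForm.coe_pow f n⟩

theorem lvl_mdiff {k : ℤ} {p : ℍ → ℂ} (hp : IsLevelOne k p) : MDiff p := by
  obtain ⟨f, rfl⟩ := hp
  exact f.holo'

theorem lvl_slash {k : ℤ} {p : ℍ → ℂ} (hp : IsLevelOne k p) (γ : SL(2, ℤ)) : p ∣[k] γ = p := by
  obtain ⟨f, rfl⟩ := hp
  exact SlashInvariantForm.slash_action_eqn f _ ⟨γ, rfl⟩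

/-! ### limits at `i∞` -/

/-- a level one modular form tends to the constant term of its `q`-expansion -/
theorem lvl_tendsto_coeff {k : ℤ} (f : ModularForm 𝒮ℒ k) :
    Tendsto (⇑f) atImInfty (nhds ((qExpansion 1 f).coeff 0)) := by
  have hper := SlashInvariantFormClass.periodic_comp_ofComplex f
    one_mem_strictPeriods_SL
  have han := ModularFormClass.analyticAt_cuspFunction_zero f one_pos
    one_mem_strictPeriods_SL
  have h0 : (qExpansion 1 f).coeff 0 = cuspFunction 1 f 0 := by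
    simp [qExpansion_coeff]
  rw [h0]
  have : (cuspFunction 1 f ∘ fun τ : ℍ ↦ Function.Periodic.qParam 1 τ : ℍ → ℂ) = f := by
    funext τ
    simpa using eq_cuspFunction τ one_ne_zero hper
  simpa [this] using han.continuousAt.tendsto.comp (qParam_tendsto_atImInfty one_pos)

theorem lvl_exists_tendsto {k : ℤ} {p : ℍ → ℂ} (hp : IsLevelOne k p) :
    ∃ c : ℂ, Tendsto p atImInfty (nhds c) := by
  obtain ⟨f, rfl⟩ := hp
  exact ⟨_, lvl_tendsto_coeff f⟩

theorem tendsto_E₄ : Tendsto (⇑E₄) atImInfty (nhds 1) := by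
  have h := lvl_tendsto_coeff E₄
  rwa [EisensteinSeries.E_qExpansion_coeff_zero (k := 4) (by norm_num) ⟨2, rfl⟩] at h

theorem tendsto_E₆ : Tendsto (⇑E₆) atImInfty (nhds 1) := by
  have h := lvl_tendsto_coeff E₆
  rwa [EisensteinSeries.E_qExpansion_coeff_zero (k := 6) (by norm_num) ⟨3, rfl⟩] at h

theorem lvl_tendsto_disc : Tendsto discriminant atImInfty (nhds 0) :=
  discriminant_isZeroAtImInfty

/-- a level one form tending to `0` at `i∞` is divisible by `Δ` -/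
theorem lvl_exists_eq_disc_mul {k : ℤ} {p : ℍ → ℂ} (hp : IsLevelOne k p)
    (h0 : Tendsto p atImInfty (nhds 0)) :
    ∃ q : ℍ → ℂ, IsLevelOne (k - 12) q ∧ p = discriminant * q := by
  obtain ⟨f, rfl⟩ := hp
  have hc : (qExpansion 1 f).coeff 0 = 0 :=
    tendsto_nhds_unique (lvl_tendsto_coeff f) h0
  refine ⟨⇑(CuspForm.discriminantEquiv (toCuspForm f hc)), ⟨_, rfl⟩, ?_⟩
  funext z
  rw [Pi.mul_apply, CuspForm.discriminantEquiv_apply, mul_div_cancel₀ _ (discriminant_ne_zero z)]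
  rfl

/-- `Δ * q = E₄ * r + E₆ * s` -/
theorem lvl_disc_mul_decomp {k : ℤ} {q : ℍ → ℂ} (hq : IsLevelOne (k - 12) q) :
    ∃ r s : ℍ → ℂ, IsLevelOne (k - 4) r ∧ IsLevelOne (k - 6) s ∧
      discriminant * q = ⇑E₄ * r + ⇑E₆ * s := by
  refine ⟨(1 / 1728 : ℂ) • ((⇑E₄) ^ 2 * q), (-1 / 1728 : ℂ) • (⇑E₆ * q), ?_, ?_, ?_⟩
  · exact lvl_smul _ (lvl_mul' (lvl_pow lvl_E4 2) hq (by ring))
  · exact lvl_smul _ (lvl_mul' lvl_E6 hq (by ring))
  · funext z
    simp only [Pi.mul_apply, Pi.add_apply, Pi.smul_apply, Pi.pow_apply, smul_eq_mul]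
    rw [discriminant_eq_E₄_cube_sub_E₆_sq]
    ring

/-- the monomial of weight `k` with constant term one -/
theorem lvl_exists_monomial {k : ℤ} (hk : 4 ≤ k) (hk2 : Even k) :
    ∃ e r s : ℍ → ℂ, IsLevelOne k e ∧ Tendsto e atImInfty (nhds 1) ∧ IsLevelOne (k - 4) r ∧
      IsLevelOne (k - 6) s ∧ e = ⇑E₄ * r + ⇑E₆ * s := by
  obtain ⟨j, hj⟩ := hk2
  rcases Int.emod_two_eq_zero_or_one j with hj2 | hj2
  · -- `k = 4 a`, `a ≥ 1`
    obtain ⟨a, ha⟩ : ∃ a : ℕ, k = 4 * ((a : ℤ) + 1) := ⟨(j / 2 - 1).toNat, by omega⟩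
    refine ⟨(⇑E₄) ^ (a + 1), (⇑E₄) ^ a, 0, ?_, ?_, ?_, lvl_zero _, ?_⟩
    · exact lvl_cast (by push_cast; omega) (lvl_pow lvl_E4 (a + 1))
    · have h := tendsto_E₄.pow (a + 1)
      rw [one_pow] at h
      exact h
    · exact lvl_cast (by omega) (lvl_pow lvl_E4 a)
    · rw [pow_succ]; simp [mul_comm]
  · -- `k = 4 a + 6`
    obtain ⟨a, ha⟩ : ∃ a : ℕ, k = 4 * (a : ℤ) + 6 := ⟨((j - 3) / 2).toNat, by omega⟩
    refine ⟨⇑E₆ * (⇑E₄) ^ a, 0, (⇑E₄) ^ a, ?_, ?_, lvl_zero _, ?_, ?_⟩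
    · exact lvl_mul' lvl_E6 (lvl_pow lvl_E4 a) (by omega)
    · have h := tendsto_E₆.mul (tendsto_E₄.pow a)
      rw [one_pow, one_mul] at h
      exact h
    · exact lvl_cast (by omega) (lvl_pow lvl_E4 a)
    · simp

theorem isLevelOne_decomp {k : ℤ} (hk : 0 < k) {p : ℍ → ℂ} (hp : IsLevelOne k p) :
    ∃ r s : ℍ → ℂ, IsLevelOne (k - 4) r ∧ IsLevelOne (k - 6) s ∧ p = ⇑E₄ * r + ⇑E₆ * s := by
  have hzero : p = 0 → ∃ r s : ℍ → ℂ, IsLevelOne (k - 4) r ∧ IsLevelOne (k - 6) s ∧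
      p = ⇑E₄ * r + ⇑E₆ * s := fun h => ⟨0, 0, lvl_zero _, lvl_zero _, by simp [h]⟩
  rcases Int.even_or_odd k with heven | hodd
  · by_cases h2 : k = 2
    · subst h2
      obtain ⟨f, rfl⟩ := hp
      have hf : f = 0 := rank_zero_iff_forall_zero.mp ModularForm.levelOne_weight_two_rank_zero f
      exact hzero (by rw [hf]; rfl)
    · have hk4 : 4 ≤ k := by
        obtain ⟨j, hj⟩ := heven
        omega
      obtain ⟨e, r₀, s₀, he, hlim, hr₀, hs₀, hers⟩ := lvl_exists_monomial hk4 heven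
      obtain ⟨c, hc⟩ := lvl_exists_tendsto hp
      have h0 : Tendsto (p - c • e) atImInfty (nhds 0) := by
        have := hc.sub (hlim.const_mul c)
        rw [mul_one, sub_self] at this
        exact this
      obtain ⟨q, hq, hpq⟩ := lvl_exists_eq_disc_mul (lvl_sub hp (lvl_smul c he)) h0
      obtain ⟨r₁, s₁, hr₁, hs₁, hqrs⟩ := lvl_disc_mul_decomp hq
      refine ⟨c • r₀ + r₁, c • s₀ + s₁, lvl_add (lvl_smul c hr₀) hr₁,
        lvl_add (lvl_smul c hs₀) hs₁, ?_⟩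
      have : p = c • e + discriminant * q := by rw [← hpq]; abel
      rw [this, hqrs, hers]
      funext z
      simp only [Pi.mul_apply, Pi.add_apply, Pi.smul_apply, smul_eq_mul]
      ring
  · obtain ⟨f, rfl⟩ := hp
    have hf : f = 0 := ModularForm.levelOne_odd_weight_eq_zero hodd f
    exact hzero (by rw [hf]; rfl)

/-! ### bounds for the discriminant -/

theorem exists_discriminant_bounds : ∃ c C : ℝ, 0 < c ∧ ∀ᶠ z : ℍ in atImInfty,
    c * Real.exp (-2 * Real.pi * z.im) ≤ ‖discriminant z‖ ∧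
      ‖discriminant z‖ ≤ C * Real.exp (-2 * Real.pi * z.im) := by
  obtain ⟨c₁, hc₁, h₁⟩ := exp_isBigO_discriminant.exists_pos
  have h₂ := (CuspFormClass.exp_decay_atImInfty (h := 1) CuspForm.discriminant one_pos
    one_mem_strictPeriods_SL)
  obtain ⟨c₂, hc₂, h₂⟩ := h₂.exists_pos
  refine ⟨c₁⁻¹, c₂, inv_pos.mpr hc₁, ?_⟩
  filter_upwards [h₁.bound, h₂.bound] with z hz₁ hz₂
  constructor
  · rw [Real.norm_of_nonneg (Real.exp_pos _).le] at hz₁
    rw [inv_mul_le_iff₀ hc₁]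
    exact hz₁
  · rw [Real.norm_of_nonneg (Real.exp_pos _).le] at hz₂
    simpa using hz₂

/-! ### the forms `Pfun z₀` -/

theorem lvl_Pfun_eq (z₀ : ℍ) :
    Pfun z₀ = discriminant z₀ • (⇑E₄) ^ 3 - (E₄ z₀ ^ 3) • discriminant := by
  funext z
  simp [Pfun]

theorem isLevelOne_Pfun (z₀ : ℍ) : IsLevelOne 12 (Pfun z₀) := by
  rw [lvl_Pfun_eq]
  exact lvl_sub (lvl_smul _ (lvl_cast (by norm_num) (lvl_pow lvl_E4 3))) (lvl_smul _ lvl_disc)

theorem tendsto_Pfun (z₀ : ℍ) : Tendsto (Pfun z₀) atImInfty (nhds (discriminant z₀)) := by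
  have h := ((tendsto_E₄.pow 3).const_mul (discriminant z₀)).sub
    (lvl_tendsto_disc.const_mul (E₄ z₀ ^ 3))
  rw [one_pow, mul_one, mul_zero, sub_zero] at h
  exact h

/-! ### the derivative `D` in terms of the cusp function -/

open Derivative in
/-- `D f = q · (d/dq) (cusp function of f)` -/
theorem lvl_D_eq {k : ℤ} (f : ModularForm 𝒮ℒ k) (z : ℍ) :
    normalizedDerivOfComplex (⇑f) z =
      Function.Periodic.qParam 1 z * deriv (cuspFunction 1 f) (Function.Periodic.qParam 1 z) := by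
  have hper := SlashInvariantFormClass.periodic_comp_ofComplex f one_mem_strictPeriods_SL
  have hq : ‖Function.Periodic.qParam 1 (z : ℂ)‖ < 1 :=
    Function.Periodic.norm_qParam_lt_one one_pos z.im_pos
  have hdiff : DifferentiableAt ℂ (cuspFunction 1 f) (Function.Periodic.qParam 1 z) :=
    ModularFormClass.differentiableAt_cuspFunction f one_pos one_mem_strictPeriods_SL hq
  have hev : (⇑f ∘ ofComplex) =ᶠ[nhds (z : ℂ)]
      (cuspFunction 1 f ∘ Function.Periodic.qParam 1) := by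
    filter_upwards [isOpen_upperHalfPlaneSet.mem_nhds z.im_pos] with w hw
    have := eq_cuspFunction (f := ⇑f) ⟨w, hw⟩ one_ne_zero hper
    simp only [Function.comp_apply, ofComplex_apply_of_im_pos hw]
    exact this.symm
  have hqd : HasDerivAt (Function.Periodic.qParam 1)
      (Function.Periodic.qParam 1 (z : ℂ) * (2 * Real.pi * Complex.I)) (z : ℂ) := by
    have h1 : HasDerivAt (fun w : ℂ => 2 * Real.pi * Complex.I * w / (1 : ℝ))
        (2 * Real.pi * Complex.I) (z : ℂ) := by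
      have := ((hasDerivAt_id (z : ℂ)).const_mul (2 * Real.pi * Complex.I)).div_const
        ((1 : ℝ) : ℂ)
      simpa using this
    exact h1.cexp
  have hcomp := hdiff.hasDerivAt.comp (z : ℂ) hqd
  rw [normalizedDerivOfComplex, hev.deriv_eq, hcomp.deriv]
  have hpi : (2 * Real.pi * Complex.I : ℂ) ≠ 0 := by
    simp [Real.pi_ne_zero]
  field_simp

open Derivative in
theorem lvl_tendsto_D {k : ℤ} (f : ModularForm 𝒮ℒ k) :
    Tendsto (normalizedDerivOfComplex (⇑f)) atImInfty (nhds 0) := by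
  have han := ModularFormClass.analyticAt_cuspFunction_zero f one_pos one_mem_strictPeriods_SL
  have hcont : ContinuousAt (deriv (cuspFunction 1 f)) 0 := han.deriv.continuousAt
  have hq := qParam_tendsto_atImInfty one_pos
  have h := hq.mul (hcont.tendsto.comp hq)
  rw [zero_mul] at h
  refine h.congr fun z => ?_
  rw [lvl_D_eq]
  rfl

/-- the derivative of the cusp function at `0` is the first `q`-coefficient -/
theorem lvl_deriv_cuspFunction_zero {k : ℤ} (f : ModularForm 𝒮ℒ k) :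
    deriv (cuspFunction 1 f) 0 = (qExpansion 1 f).coeff 1 := by
  simp [qExpansion_coeff]

theorem lvl_cuspFunction_zero {k : ℤ} (f : ModularForm 𝒮ℒ k) :
    cuspFunction 1 f 0 = (qExpansion 1 f).coeff 0 := by
  simp [qExpansion_coeff]


open Derivative

/-! ### the bracket `4 E₄ D E₆ - 6 E₆ D E₄` -/

/-- the bracket `4 E₄ D E₆ - 6 E₆ D E₄` -/
noncomputable def lvlBracket : ℍ → ℂ := fun z =>
  4 * E₄ z * normalizedDerivOfComplex (⇑E₆) z - 6 * E₆ z * normalizedDerivOfComplex (⇑E₄) z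

theorem lvlBracket_mdiff : MDiff lvlBracket := by
  have h4 : MDiff (⇑E₄) := E₄.holo'
  have h6 : MDiff (⇑E₆) := E₆.holo'
  have hD4 := normalizedDerivOfComplex_mdifferentiable h4
  have hD6 := normalizedDerivOfComplex_mdifferentiable h6
  have h : MDiff (fun z : ℍ => (4 : ℂ) * (E₄ z * normalizedDerivOfComplex (⇑E₆) z) -
      (6 : ℂ) * (E₆ z * normalizedDerivOfComplex (⇑E₄) z)) :=
    (MDifferentiable.mul mdifferentiable_const (h4.mul hD6)).sub
      (MDifferentiable.mul mdifferentiable_const (h6.mul hD4))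
  have e : lvlBracket = (fun z : ℍ => (4 : ℂ) * (E₄ z * normalizedDerivOfComplex (⇑E₆) z) -
      (6 : ℂ) * (E₆ z * normalizedDerivOfComplex (⇑E₄) z)) := by
    funext z
    simp only [lvlBracket]
    ring
  rw [e]
  exact h

/-- transformation of `D F` for an invariant `F` -/
theorem lvl_D_slash {k : ℤ} {F : ℍ → ℂ} (hF : MDiff F) (γ : SL(2, ℤ)) (hinv : F ∣[k] γ = F)
    (z : ℍ) :
    normalizedDerivOfComplex F (γ • z) * denom γ z ^ (-(k + 2)) =
      normalizedDerivOfComplex F z +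
        (k : ℂ) * (2 * Real.pi * Complex.I)⁻¹ * (γ 1 0 / denom γ z) * F z := by
  have h := congrFun (normalizedDerivOfComplex_SL_slash (k := k) hF (γ := γ)) z
  rw [hinv] at h
  simp only [Pi.sub_apply, ModularForm.SL_slash_apply] at h
  rw [h]
  ring

theorem lvlBracket_slash (γ : SL(2, ℤ)) : lvlBracket ∣[(12 : ℤ)] γ = lvlBracket := by
  funext z
  rw [ModularForm.SL_slash_apply]
  have hd : denom γ z ≠ 0 := denom_ne_zero γ z
  have h4 : E₄ (γ • z) * denom γ z ^ (-(4 : ℤ)) = E₄ z := by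
    have := congrFun (lvl_slash lvl_E4 γ) z
    rwa [ModularForm.SL_slash_apply] at this
  have h6 : E₆ (γ • z) * denom γ z ^ (-(6 : ℤ)) = E₆ z := by
    have := congrFun (lvl_slash lvl_E6 γ) z
    rwa [ModularForm.SL_slash_apply] at this
  have hm4 : MDiff (⇑E₄) := E₄.holo'
  have hm6 : MDiff (⇑E₆) := E₆.holo'
  have hD4 := lvl_D_slash (k := 4) (F := ⇑E₄) hm4 γ (lvl_slash lvl_E4 γ) z
  have hD6 := lvl_D_slash (k := 6) (F := ⇑E₆) hm6 γ (lvl_slash lvl_E6 γ) z
  have e1 : denom γ z ^ (-(12 : ℤ)) = denom γ z ^ (-(4 : ℤ)) * denom γ z ^ (-((6 : ℤ) + 2)) := by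
    rw [← zpow_add₀ hd]; norm_num
  have e2 : denom γ z ^ (-(12 : ℤ)) = denom γ z ^ (-(6 : ℤ)) * denom γ z ^ (-((4 : ℤ) + 2)) := by
    rw [← zpow_add₀ hd]; norm_num
  have key : lvlBracket (γ • z) * denom γ z ^ (-(12 : ℤ)) =
      4 * (E₄ (γ • z) * denom γ z ^ (-(4 : ℤ))) *
        (normalizedDerivOfComplex (⇑E₆) (γ • z) * denom γ z ^ (-((6 : ℤ) + 2))) -
      6 * (E₆ (γ • z) * denom γ z ^ (-(6 : ℤ))) *
        (normalizedDerivOfComplex (⇑E₄) (γ • z) * denom γ z ^ (-((4 : ℤ) + 2))) := by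
    simp only [lvlBracket]
    rw [sub_mul]
    congr 1
    · rw [e1]; ring
    · rw [e2]; ring
  rw [key, h4, h6, hD4, hD6]
  simp only [lvlBracket]
  push_cast
  ring

theorem lvlBracket_tendsto : Tendsto lvlBracket atImInfty (nhds 0) := by
  have h := ((tendsto_E₄.const_mul 4).mul (lvl_tendsto_D E₆)).sub
    ((tendsto_E₆.const_mul 6).mul (lvl_tendsto_D E₄))
  simp only [mul_zero, sub_zero] at h
  refine h.congr fun z => ?_
  simp only [lvlBracket]

theorem lvlBracket_exists_cuspForm : ∃ f : CuspForm 𝒮ℒ 12, ⇑f = lvlBracket := by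
  refine ⟨{ toFun := lvlBracket
            slash_action_eq' := ?_
            holo' := lvlBracket_mdiff
            zero_at_cusps' := ?_ }, rfl⟩
  · intro A hA
    obtain ⟨A, rfl⟩ := hA
    exact lvlBracket_slash A
  · intro c hc
    rw [Subgroup.IsArithmetic.isCusp_iff_isCusp_SL2Z] at hc
    rw [OnePoint.isZeroAt_iff_forall_SL2Z hc]
    intro γ _
    rw [lvlBracket_slash]
    exact lvlBracket_tendsto

/-- the bracket in terms of cusp functions -/
theorem lvlBracket_eq_cusp (z : ℍ) :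
    lvlBracket z = Function.Periodic.qParam 1 z *
      (4 * cuspFunction 1 E₄ (Function.Periodic.qParam 1 z) *
          deriv (cuspFunction 1 E₆) (Function.Periodic.qParam 1 z) -
        6 * cuspFunction 1 E₆ (Function.Periodic.qParam 1 z) *
          deriv (cuspFunction 1 E₄) (Function.Periodic.qParam 1 z)) := by
  have h4 := eq_cuspFunction (f := ⇑E₄) z one_ne_zero
    (SlashInvariantFormClass.periodic_comp_ofComplex E₄ one_mem_strictPeriods_SL)
  have h6 := eq_cuspFunction (f := ⇑E₆) z one_ne_zero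
    (SlashInvariantFormClass.periodic_comp_ofComplex E₆ one_mem_strictPeriods_SL)
  simp only [lvlBracket]
  rw [lvl_D_eq, lvl_D_eq, h4, h6]
  ring

/-- the bracket is a nonzero multiple of the discriminant -/
theorem lvlBracket_eq : ∃ c : ℂ, c ≠ 0 ∧ ∀ z : ℍ, lvlBracket z = c * discriminant z := by
  obtain ⟨f, hf⟩ := lvlBracket_exists_cuspForm
  obtain ⟨c, hc⟩ := CuspForm.exists_smul_discriminant_of_weight_eq_twelve f
  have hval : ∀ z : ℍ, lvlBracket z = c * discriminant z := by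
    intro z
    rw [← hf, ← hc]
    rfl
  refine ⟨c, ?_, hval⟩
  rintro rfl
  -- the bracket vanishes identically; look at the cusp functions near `q = 0`
  set G : ℂ → ℂ := fun q => 4 * cuspFunction 1 E₄ q * deriv (cuspFunction 1 E₆) q -
    6 * cuspFunction 1 E₆ q * deriv (cuspFunction 1 E₄) q with hG
  have han4 := ModularFormClass.analyticAt_cuspFunction_zero E₄ one_pos one_mem_strictPeriods_SL
  have han6 := ModularFormClass.analyticAt_cuspFunction_zero E₆ one_pos one_mem_strictPeriods_SL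
  have hcont : ContinuousAt G 0 :=
    ((continuousAt_const.mul han4.continuousAt).mul han6.deriv.continuousAt).sub
      ((continuousAt_const.mul han6.continuousAt).mul han4.deriv.continuousAt)
  have hq := qParam_tendsto_atImInfty one_pos
  have h1 : Tendsto (fun z : ℍ => G (Function.Periodic.qParam 1 z)) atImInfty (nhds (G 0)) :=
    hcont.tendsto.comp hq
  have h2 : ∀ z : ℍ, G (Function.Periodic.qParam 1 z) = 0 := by
    intro z
    have h := lvlBracket_eq_cusp z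
    rw [hval z, zero_mul] at h
    have hne : Function.Periodic.qParam 1 (z : ℂ) ≠ 0 := Function.Periodic.qParam_ne_zero _
    exact (mul_eq_zero.mp h.symm).resolve_left hne
  have h3 : G 0 = 0 := by
    refine tendsto_nhds_unique h1 ?_
    simp only [h2]
    exact tendsto_const_nhds
  have h4 : G 0 = -3456 := by
    simp only [hG]
    rw [lvl_deriv_cuspFunction_zero, lvl_deriv_cuspFunction_zero, lvl_cuspFunction_zero,
      lvl_cuspFunction_zero, E₄_qExpansion_coeff_one, E₆_qExpansion_coeff_one,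
      EisensteinSeries.E_qExpansion_coeff_zero (k := 4) (by norm_num) ⟨2, rfl⟩,
      EisensteinSeries.E_qExpansion_coeff_zero (k := 6) (by norm_num) ⟨3, rfl⟩]
    norm_num
  rw [h4] at h3
  norm_num at h3



/-! ### simple zeros -/

theorem deriv_E₄_ne_zero {z : ℍ} (h : E₄ z = 0) : deriv (⇑E₄ ∘ ofComplex) z ≠ 0 := by
  obtain ⟨c, hc, hval⟩ := lvlBracket_eq
  intro hd
  have h1 := hval z
  simp only [lvlBracket, normalizedDerivOfComplex, h, hd] at h1
  have h2 : c * discriminant z = 0 := by rw [← h1]; ring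
  exact mul_ne_zero hc (discriminant_ne_zero z) h2

theorem deriv_E₆_ne_zero {z : ℍ} (h : E₆ z = 0) : deriv (⇑E₆ ∘ ofComplex) z ≠ 0 := by
  obtain ⟨c, hc, hval⟩ := lvlBracket_eq
  intro hd
  have h1 := hval z
  simp only [lvlBracket, normalizedDerivOfComplex, h, hd] at h1
  have h2 : c * discriminant z = 0 := by rw [← h1]; ring
  exact mul_ne_zero hc (discriminant_ne_zero z) h2

theorem lvl_Pfun_eq' (z₀ w : ℍ) :
    Pfun z₀ w = (E₄ z₀ ^ 3 * E₆ w ^ 2 - E₆ z₀ ^ 2 * E₄ w ^ 3) / 1728 := by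
  simp only [Pfun]
  rw [discriminant_eq_E₄_cube_sub_E₆_sq, discriminant_eq_E₄_cube_sub_E₆_sq]
  ring

theorem deriv_Pfun_ne_zero {z₀ z : ℍ} (h4 : E₄ z₀ ≠ 0) (h6 : E₆ z₀ ≠ 0) (h : Pfun z₀ z = 0) :
    deriv (Pfun z₀ ∘ ofComplex) z ≠ 0 := by
  obtain ⟨c, hc, hval⟩ := lvlBracket_eq
  have hm4 : MDiff (⇑E₄) := E₄.holo'
  have hm6 : MDiff (⇑E₆) := E₆.holo'
  have hd4 : HasDerivAt (⇑E₄ ∘ ofComplex) (deriv (⇑E₄ ∘ ofComplex) z) z :=
    (UpperHalfPlane.mdifferentiableAt_iff.mp (hm4 z)).hasDerivAt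
  have hd6 : HasDerivAt (⇑E₆ ∘ ofComplex) (deriv (⇑E₆ ∘ ofComplex) z) z :=
    (UpperHalfPlane.mdifferentiableAt_iff.mp (hm6 z)).hasDerivAt
  set d4 := deriv (⇑E₄ ∘ ofComplex) z with hd4def
  set d6 := deriv (⇑E₆ ∘ ofComplex) z with hd6def
  have hfun : Pfun z₀ ∘ ofComplex = fun w : ℂ =>
      (E₄ z₀ ^ 3 * (⇑E₆ ∘ ofComplex) w ^ 2 - E₆ z₀ ^ 2 * (⇑E₄ ∘ ofComplex) w ^ 3) / 1728 := by
    funext w
    simp only [Function.comp_apply]
    exact lvl_Pfun_eq' z₀ _
  have hder : HasDerivAt (Pfun z₀ ∘ ofComplex)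
      ((E₄ z₀ ^ 3 * (2 * (⇑E₆ ∘ ofComplex) z ^ 1 * d6) -
        E₆ z₀ ^ 2 * (3 * (⇑E₄ ∘ ofComplex) z ^ 2 * d4)) / 1728) z := by
    rw [hfun]
    exact (((hd6.pow 2).const_mul (E₄ z₀ ^ 3)).sub ((hd4.pow 3).const_mul (E₆ z₀ ^ 2))).div_const
      1728
  rw [hder.deriv]
  simp only [Function.comp_apply, ofComplex_apply, pow_one]
  intro h0
  -- notation
  have hbr := hval z
  simp only [lvlBracket, normalizedDerivOfComplex] at hbr
  rw [← hd4def, ← hd6def] at hbr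
  have hP := lvl_Pfun_eq' z₀ z
  rw [h] at hP
  have hΔ := discriminant_eq_E₄_cube_sub_E₆_sq z
  have hΔne := discriminant_ne_zero z
  have hpi : (2 * Real.pi * Complex.I : ℂ) ≠ 0 := by simp [Real.pi_ne_zero]
  -- relations
  have r1 : E₄ z₀ ^ 3 * E₆ z ^ 2 = E₆ z₀ ^ 2 * E₄ z ^ 3 := by
    have : (E₄ z₀ ^ 3 * E₆ z ^ 2 - E₆ z₀ ^ 2 * E₄ z ^ 3) = 0 := by
      have h1728 : (1728 : ℂ) ≠ 0 := by norm_num
      field_simp at hP
      linear_combination -hP
    linear_combination this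
  have r2 : E₄ z₀ ^ 3 * (2 * E₆ z * d6) = E₆ z₀ ^ 2 * (3 * E₄ z ^ 2 * d4) := by
    have h1728 : (1728 : ℂ) ≠ 0 := by norm_num
    field_simp at h0
    linear_combination h0
  have r3 : 4 * E₄ z * d6 - 6 * E₆ z * d4 = (2 * Real.pi * Complex.I) * (c * discriminant z) := by
    rw [← hbr]
    field_simp
  -- `E₄ z * (derivative) = E₄ z₀ ^ 3 * E₆ z * (bracket) / 2`
  have r4 : E₄ z₀ ^ 3 * E₆ z * ((2 * Real.pi * Complex.I) * (c * discriminant z)) = 0 := by
    rw [← r3]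
    linear_combination 2 * E₄ z * r2 - 6 * d4 * r1
  have hy : E₆ z = 0 := by
    rcases mul_eq_zero.mp r4 with h' | h'
    · rcases mul_eq_zero.mp h' with h'' | h''
      · exact absurd (pow_eq_zero_iff (n := 3) (by norm_num) |>.mp h'') h4
      · exact h''
    · exact absurd h' (mul_ne_zero hpi (mul_ne_zero hc hΔne))
  have hx : E₄ z = 0 := by
    rw [hy] at r1
    have : E₆ z₀ ^ 2 * E₄ z ^ 3 = 0 := by rw [← r1]; ring
    rcases mul_eq_zero.mp this with h' | h'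
    · exact absurd (pow_eq_zero_iff (n := 2) (by norm_num) |>.mp h') h6
    · exact pow_eq_zero_iff (n := 3) (by norm_num) |>.mp h'
  rw [hx, hy] at hΔ
  apply hΔne
  rw [hΔ]
  norm_num

end Fermat.Agent.S20
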