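import Mathlib
import Fermat.Agent.S20.Defs
import Fermat.Agent.S20.Forms
import Fermat.Agent.S20.LevelOne
import Fermat.Agent.S20.JInj
import Fermat.Agent.S20.Division
import Fermat.Agent.S23.TNForm
import Fermat.Agent.S23.Conjugates

/-!
Module F of the S20/S21 project: the value vectors `ev z (B a)` of a homogeneous basis are
linearly independent at every point `z` of the upper half plane, and they span `ℂ^(Q N)`.
-/

set_option autoImplicit false

open UpperHalfPlane ModularForm CongruenceSubgroup Filter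
open scoped MatrixGroups Manifold

namespace Fermat.Agent.S20

/-! ### Elementary facts on a homogeneous basis -/

theorem HomBasis.fiber_B_ne_zero {N : ℕ} [NeZero N] (H : HomBasis N) (a : H.ι) : H.B a ≠ 0 := by
  classical
  intro h0
  have h1 := H.ind (H.w a) {a} (fun _ => (1 : ℍ → ℂ))
    (by
      intro b hb
      rw [Finset.mem_singleton] at hb
      subst hb
      exact isLevelOne_one.cast (sub_self _).symm)
    (by simp [h0]) a (Finset.mem_singleton_self a)
  have h2 := congrFun h1 UpperHalfPlane.I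
  simp at h2

theorem HomBasis.weight_even {N : ℕ} [NeZero N] (H : HomBasis N) (a : H.ι) : Even (H.w a) := by
  by_contra h
  rw [Int.not_even_iff_odd] at h
  exact H.fiber_B_ne_zero a ((H.isForm a).eq_zero_of_odd h)

theorem HomBasis.weight_nonneg {N : ℕ} [NeZero N] (H : HomBasis N) (a : H.ι) : 0 ≤ H.w a := by
  by_contra h
  rw [not_le] at h
  exact H.fiber_B_ne_zero a ((H.isForm a).eq_zero_of_neg h)

theorem HomBasis.card_weight_zero {N : ℕ} [NeZero N] (H : HomBasis N) :
    Nat.card {a : H.ι // H.w a = 0} = 1 := by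
  classical
  rw [Nat.card_eq_one_iff_unique]
  constructor
  · -- uniqueness
    refine ⟨fun x y => ?_⟩
    obtain ⟨a, ha⟩ := x
    obtain ⟨b, hb⟩ := y
    by_contra hne
    have hab : a ≠ b := fun h => hne (Subtype.ext h)
    obtain ⟨ca, hca⟩ := ((H.isForm a).cast ha).const_of_zero
    obtain ⟨cb, hcb⟩ := ((H.isForm b).cast hb).const_of_zero
    have h1 := H.ind 0 {a, b} (fun x => if x = a then (fun _ => cb) else (fun _ => -ca))
      (by
        intro x hx
        rw [Finset.mem_insert, Finset.mem_singleton] at hx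
        rcases hx with rfl | rfl
        · rw [if_pos rfl]
          exact (isLevelOne_const cb).cast (by rw [ha]; ring)
        · rw [if_neg (Ne.symm hab)]
          exact (isLevelOne_const (-ca)).cast (by rw [hb]; ring))
      (by
        rw [Finset.sum_pair hab, if_pos rfl, if_neg (Ne.symm hab), hca, hcb]
        funext z
        simp only [Pi.add_apply, Pi.mul_apply, Pi.zero_apply]
        ring) a (by simp)
    rw [if_pos rfl] at h1
    have h2 : cb = 0 := congrFun h1 UpperHalfPlane.I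
    apply H.fiber_B_ne_zero b
    rw [hcb, h2]
    rfl
  · -- existence
    by_contra hemp
    rw [not_nonempty_iff] at hemp
    obtain ⟨s, p, hp, hsum⟩ := H.gen 0 (fun _ => (1 : ℂ)) (isForm_const N 1)
    have h0 : ∀ a ∈ s, p a = 0 := by
      intro a ha
      have hwa : 0 < H.w a := by
        rcases (H.weight_nonneg a).lt_or_eq with h | h
        · exact h
        · exact (hemp.false ⟨a, h.symm⟩).elim
      exact (hp a ha).eq_zero_of_neg (by linarith)
    have h1 : ∑ a ∈ s, p a * H.B a = 0 :=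
      Finset.sum_eq_zero fun a ha => by rw [h0 a ha, zero_mul]
    rw [h1] at hsum
    have h2 := congrFun hsum UpperHalfPlane.I
    simp at h2

/-! ### The two elliptic points -/

/-- the point `ρ = e^{2πi/3}`, fixed by `S * T` -/
noncomputable def rho : ℍ := ⟨⟨-1 / 2, Real.sqrt 3 / 2⟩, by positivity⟩

theorem fiber_rho_eq : rho = UpperHalfPlane.ρ := rfl

theorem fiber_S_smul_I : ModularGroup.S • UpperHalfPlane.I = UpperHalfPlane.I :=
  ModularGroup.stabilizer_I.mpr (by simp)

theorem fiber_ST_smul_rho : (ModularGroup.S * ModularGroup.T) • rho = rho :=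
  ModularGroup.stabilizer_ρ.mpr (by simp)

theorem fiber_denom_S_I : denom ModularGroup.S UpperHalfPlane.I = Complex.I := by
  rw [ModularGroup.denom_S]
  rfl

theorem fiber_denom_ST_rho :
    denom ((ModularGroup.S * ModularGroup.T : SL(2, ℤ))) rho = (rho : ℂ) + 1 := by
  rw [ModularGroup.denom_apply]
  have h10 : (ModularGroup.S * ModularGroup.T : SL(2, ℤ)) 1 0 = 1 := by
    rw [Matrix.SpecialLinearGroup.coe_mul, ModularGroup.coe_S, ModularGroup.coe_T]
    simp [Matrix.mul_apply, Fin.sum_univ_two]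
  have h11 : (ModularGroup.S * ModularGroup.T : SL(2, ℤ)) 1 1 = 1 := by
    rw [Matrix.SpecialLinearGroup.coe_mul, ModularGroup.coe_S, ModularGroup.coe_T]
    simp [Matrix.mul_apply, Fin.sum_univ_two]
  rw [h10, h11]
  simp

/-- if `g` fixes `z`, the value vector at `z` is an eigenvector of the permutation by `g⁻¹` -/
theorem fiber_ev_stab_perm {N : ℕ} [NeZero N] {k : ℤ} {F : ℍ → ℂ}
    (hF : ∀ γ ∈ Gamma0 N, F ∣[k] γ = F) {g : SL(2, ℤ)} {z : ℍ} (hg : g • z = z) (q : Q N) :
    ev N k F z (g⁻¹ • q) = denom g z ^ (-k) * ev N k F z q := by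
  have h1 := ev_smul hF g z q
  rw [hg] at h1
  have hj : denom g z ≠ 0 := denom_ne_zero _ z
  rw [h1, ← mul_assoc, ← zpow_add₀ hj]
  simp

theorem ev_I_perm {N : ℕ} [NeZero N] {k : ℤ} {F : ℍ → ℂ} (hF : IsForm N k F) (q : Q N) :
    ev N k F UpperHalfPlane.I (ModularGroup.S⁻¹ • q) =
      Complex.I ^ (-k) * ev N k F UpperHalfPlane.I q := by
  have h := fiber_ev_stab_perm (fun γ hγ => hF.slash_eq hγ) fiber_S_smul_I q
  rw [fiber_denom_S_I] at h
  exact h

theorem ev_rho_perm {N : ℕ} [NeZero N] {k : ℤ} {F : ℍ → ℂ} (hF : IsForm N k F) (q : Q N) :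
    ev N k F rho ((ModularGroup.S * ModularGroup.T)⁻¹ • q) =
      ((rho : ℂ) + 1) ^ (-k) * ev N k F rho q := by
  have h := fiber_ev_stab_perm (fun γ hγ => hF.slash_eq hγ) fiber_ST_smul_rho q
  rw [fiber_denom_ST_rho] at h
  exact h

/-! ### The core argument -/

theorem fiber_ev_mul_levelOne_cast {N : ℕ} {k l K : ℤ} {p F : ℍ → ℂ} (hp : IsLevelOne l p)
    (h : K = l + k) (z : ℍ) : ev N K (p * F) z = p z • ev N k F z := by
  subst h
  exact ev_mul_levelOne hp z

/-- The core step: a relation between the value vectors at `z`, made homogeneous by level one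
multipliers `u a` normalised at `z`, is trivial, as soon as there is a level one form `P` with
simple zeros exactly on the orbit of `z`. -/
theorem fiber_core {N : ℕ} [NeZero N] (H : HomBasis N) (z : ℍ) {wP : ℤ} {P : ℍ → ℂ}
    (hP : IsLevelOne wP P) {cinf : ℂ} (hcinf : cinf ≠ 0)
    (hPinf : Tendsto P atImInfty (nhds cinf))
    (hsimple : ∀ z' : ℍ, P z' = 0 → deriv (P ∘ ofComplex) z' ≠ 0)
    (hPz : P z = 0) (hzeros : ∀ z' : ℍ, P z' = 0 → ∃ γ : SL(2, ℤ), z' = γ • z)
    (s : Finset H.ι) (c : H.ι → ℂ) (K : ℤ) (u : H.ι → ℍ → ℂ)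
    (hu : ∀ a ∈ s, IsLevelOne (K - H.w a) (u a)) (huz : ∀ a ∈ s, u a z = 1)
    (hrel : ∑ a ∈ s, c a • ev N (H.w a) (H.B a) z = 0) : ∀ a ∈ s, c a = 0 := by
  classical
  set F : ℍ → ℂ := ∑ a ∈ s, (c a • u a) * H.B a with hFdef
  have hF : IsForm N K F := by
    refine IsForm.sum s fun a ha => ?_
    exact (IsForm.levelOne_mul ((hu a ha).smul (c a)) (H.isForm a)).cast (by ring)
  have hev : ev N K F z = 0 := by
    rw [hFdef, ev_sum, ← hrel]
    refine Finset.sum_congr rfl fun a ha => ?_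
    rw [fiber_ev_mul_levelOne_cast ((hu a ha).smul (c a)) (by ring : K = (K - H.w a) + H.w a)]
    simp [huz a ha]
  have hFinv : ∀ γ ∈ Gamma0 N, F ∣[K] γ = F := fun γ hγ => hF.slash_eq hγ
  have hvan0 := (ev_eq_zero_iff hFinv z).mp hev
  have hvan : ∀ z' : ℍ, P z' = 0 → F z' = 0 := by
    intro z' hz'
    obtain ⟨γ, rfl⟩ := hzeros z' hz'
    exact hvan0 γ
  obtain ⟨G, hG, hFG⟩ := isForm_div hP hcinf hPinf hsimple hF hvan
  obtain ⟨s', p, hp, hGsum⟩ := H.gen (K - wP) G hG
  -- the relation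
  let coef : H.ι → ℍ → ℂ := fun a =>
    (if a ∈ s then c a • u a else 0) - P * (if a ∈ s' then p a else 0)
  have hcoef : ∀ a ∈ s ∪ s', IsLevelOne (K - H.w a) (coef a) := by
    intro a _
    refine IsLevelOne.sub ?_ ?_
    · split_ifs with h
      · exact (hu a h).smul (c a)
      · exact isLevelOne_zero _
    · split_ifs with h
      · exact (hP.mul (hp a h)).cast (by ring)
      · rw [mul_zero]
        exact isLevelOne_zero _
  have hsum0 : ∑ a ∈ s ∪ s', coef a * H.B a = 0 := by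
    have h1 : ∑ a ∈ s ∪ s', (if a ∈ s then c a • u a else 0) * H.B a = F := by
      rw [hFdef, ← Finset.sum_subset (Finset.subset_union_left (s₂ := s'))
        (fun a _ hns => by rw [if_neg hns, zero_mul])]
      exact Finset.sum_congr rfl fun a ha => by rw [if_pos ha]
    have h2 : ∑ a ∈ s ∪ s', (P * (if a ∈ s' then p a else 0)) * H.B a = P * G := by
      rw [hGsum, Finset.mul_sum, ← Finset.sum_subset (Finset.subset_union_right (s₁ := s))
        (fun a _ hns => by rw [if_neg hns, mul_zero, zero_mul])]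
      exact Finset.sum_congr rfl fun a ha => by rw [if_pos ha, mul_assoc]
    simp only [coef, sub_mul, Finset.sum_sub_distrib]
    rw [h1, h2, hFG, sub_self]
  intro a ha
  have h3 := H.ind K (s ∪ s') coef hcoef hsum0 a (Finset.mem_union_left _ ha)
  have h4 := congrFun h3 z
  simp only [coef, if_pos ha, Pi.sub_apply, Pi.smul_apply, Pi.mul_apply, huz a ha, hPz,
    zero_mul, sub_zero, smul_eq_mul, mul_one, Pi.zero_apply] at h4
  exact h4

/-- Eigenvector splitting: a family of eigenvectors is linearly independent as soon as each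
subfamily with a common eigenvalue is. -/
theorem fiber_split {V : Type*} [AddCommGroup V] [Module ℂ V] (R : V →ₗ[ℂ] V) {ι : Type*}
    (x : ι → V) (lam : ι → ℂ) (hR : ∀ a, R (x a) = lam a • x a)
    (hcls : ∀ (t : ℂ) (s : Finset ι) (c : ι → ℂ), (∀ a ∈ s, lam a = t) →
      ∑ a ∈ s, c a • x a = 0 → ∀ a ∈ s, c a = 0) :
    LinearIndependent ℂ x := by
  classical
  rw [linearIndependent_iff']
  intro s c hsum a ha
  let y : ℂ → V := fun t => ∑ b ∈ s.filter (fun b => lam b = t), c b • x b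
  have hRy : ∀ t, y t ∈ Module.End.eigenspace R t := by
    intro t
    rw [Module.End.mem_eigenspace_iff]
    simp only [y, map_sum, map_smul, Finset.smul_sum]
    refine Finset.sum_congr rfl fun b hb => ?_
    rw [hR b, (Finset.mem_filter.mp hb).2, smul_comm]
  have hysum : ∑ t ∈ s.image lam, y t = 0 := by
    rw [← hsum]
    exact Finset.sum_fiberwise_of_maps_to (fun b hb => Finset.mem_image_of_mem lam hb) _
  have hy0 := (iSupIndep_iff_finsetSum_eq_zero_imp_eq_zero (Module.End.eigenspace R)).mp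
    (Module.End.eigenspaces_iSupIndep R) (s.image lam) y (fun t _ => hRy t) hysum
    (lam a) (Finset.mem_image_of_mem lam ha)
  exact hcls (lam a) (s.filter (fun b => lam b = lam a)) c
    (fun b hb => (Finset.mem_filter.mp hb).2) hy0 a (Finset.mem_filter.mpr ⟨ha, rfl⟩)

/-- Linear independence of the value vectors at a point `z` fixed by `g`, given a level one
form with simple zeros exactly on the orbit of `z` and enough level one forms not vanishing
at `z`. -/
theorem fiber_indep_of_stab {N : ℕ} [NeZero N] (H : HomBasis N) (z : ℍ) (g : SL(2, ℤ))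
    (hg : g • z = z) {wP : ℤ} {P : ℍ → ℂ}
    (hP : IsLevelOne wP P) {cinf : ℂ} (hcinf : cinf ≠ 0)
    (hPinf : Tendsto P atImInfty (nhds cinf))
    (hsimple : ∀ z' : ℍ, P z' = 0 → deriv (P ∘ ofComplex) z' ≠ 0)
    (hPz : P z = 0) (hzeros : ∀ z' : ℍ, P z' = 0 → ∃ γ : SL(2, ℤ), z' = γ • z)
    (hU : ∀ d : ℤ, denom g z ^ d = 1 → ∃ n₀ : ℕ, ∀ n : ℕ, n₀ ≤ n →
      ∃ u : ℍ → ℂ, IsLevelOne (d + 12 * n) u ∧ u z ≠ 0) :
    LinearIndependent ℂ (fun a : H.ι => ev N (H.w a) (H.B a) z) := by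
  classical
  have hj : denom g z ≠ 0 := denom_ne_zero _ z
  refine fiber_split (LinearMap.funLeft ℂ ℂ (fun q : Q N => g⁻¹ • q))
    (fun a : H.ι => ev N (H.w a) (H.B a) z) (fun a => denom g z ^ (-H.w a)) ?_ ?_
  · intro a
    funext q
    rw [LinearMap.funLeft_apply, Pi.smul_apply, smul_eq_mul]
    exact fiber_ev_stab_perm (fun γ hγ => (H.isForm a).slash_eq hγ) hg q
  · intro t s c hs hsum
    rcases s.eq_empty_or_nonempty with rfl | ⟨a₀, ha₀⟩
    · intro a ha
      simp at ha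
    -- the weight differences
    have hd : ∀ a ∈ s, denom g z ^ (H.w a₀ - H.w a) = 1 := by
      intro a ha
      have h1 : denom g z ^ (-H.w a) = denom g z ^ (-H.w a₀) := by rw [hs a ha, hs a₀ ha₀]
      have h2 : denom g z ^ (H.w a₀ - H.w a) = denom g z ^ (-H.w a) * denom g z ^ (H.w a₀) := by
        rw [← zpow_add₀ hj]
        congr 1
        ring
      rw [h2, h1, ← zpow_add₀ hj]
      simp
    have hex : ∀ a : H.ι, ∃ n₀ : ℕ, a ∈ s → ∀ n : ℕ, n₀ ≤ n →
        ∃ u : ℍ → ℂ, IsLevelOne (H.w a₀ - H.w a + 12 * n) u ∧ u z ≠ 0 := by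
      intro a
      by_cases ha : a ∈ s
      · obtain ⟨n₀, hn₀⟩ := hU _ (hd a ha)
        exact ⟨n₀, fun _ => hn₀⟩
      · exact ⟨0, fun h => absurd h ha⟩
    choose n₀ hn₀ using hex
    set n : ℕ := s.sup n₀ with hn
    have hex2 : ∀ a : H.ι, ∃ u : ℍ → ℂ, a ∈ s →
        IsLevelOne (H.w a₀ - H.w a + 12 * n) u ∧ u z ≠ 0 := by
      intro a
      by_cases ha : a ∈ s
      · obtain ⟨u, hu⟩ := hn₀ a ha n (Finset.le_sup ha)
        exact ⟨u, fun _ => hu⟩
      · exact ⟨0, fun h => absurd h ha⟩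
    choose u hu using hex2
    refine fiber_core H z hP hcinf hPinf hsimple hPz hzeros s c (H.w a₀ + 12 * n)
      (fun a => (u a z)⁻¹ • u a) ?_ ?_ hsum
    · intro a ha
      exact (((hu a ha).1).smul _).cast (by ring)
    · intro a ha
      simp [inv_mul_cancel₀ (hu a ha).2]

/-! ### Roots of unity and the values of `E₄`, `E₆` at the elliptic points -/

theorem fiber_isPrimitiveRoot_six {ζ : ℂ} (hζ : ζ ^ 2 = ζ - 1) : IsPrimitiveRoot ζ 6 := by
  refine IsPrimitiveRoot.mk_of_lt ζ (by norm_num)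
    (by linear_combination (ζ ^ 3 - 1) * (ζ + 1) * hζ) ?_
  intro l hl0 hl6 h
  interval_cases l
  · rw [pow_one] at h
    rw [h] at hζ
    norm_num at hζ
  · have h2 : ζ = 2 := by linear_combination h - hζ
    rw [h2] at hζ
    norm_num at hζ
  · have h3 : ζ ^ 3 = -1 := by linear_combination (ζ + 1) * hζ
    rw [h3] at h
    norm_num at h
  · have h4 : ζ = -1 := by linear_combination (ζ ^ 2 + ζ) * hζ - h
    rw [h4] at hζ
    norm_num at hζ
  · have h5 : ζ = 0 := by linear_combination (ζ ^ 3 + ζ ^ 2 - 1) * hζ - h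
    rw [h5] at hζ
    norm_num at hζ

theorem fiber_rho_add_one_sq : ((rho : ℂ) + 1) ^ 2 = ((rho : ℂ) + 1) - 1 := by
  have h := UpperHalfPlane.ρ_sq
  rw [← fiber_rho_eq] at h
  linear_combination h

theorem fiber_isPrimitiveRoot_rho : IsPrimitiveRoot ((rho : ℂ) + 1) 6 :=
  fiber_isPrimitiveRoot_six fiber_rho_add_one_sq

theorem IsLevelOne.fiber_apply_smul {k : ℤ} {p : ℍ → ℂ} (hp : IsLevelOne k p) (g : SL(2, ℤ))
    (z : ℍ) : p (g • z) = denom g z ^ k * p z := by
  have h := congrFun (hp.slash_eq g) z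
  rw [ModularForm.SL_slash_apply] at h
  have hj : denom g z ≠ 0 := denom_ne_zero _ z
  rw [← h, mul_comm, mul_assoc, ← zpow_add₀ hj]
  simp

theorem IsLevelOne.fiber_eq_zero_of_stab {k : ℤ} {p : ℍ → ℂ} (hp : IsLevelOne k p)
    {g : SL(2, ℤ)} {z : ℍ} (hg : g • z = z) (hne : denom g z ^ k ≠ 1) : p z = 0 := by
  have h := hp.fiber_apply_smul g z
  rw [hg] at h
  have h1 : (1 - denom g z ^ k) * p z = 0 := by linear_combination h
  rcases mul_eq_zero.mp h1 with h5 | h5
  · exact absurd (sub_eq_zero.mp h5).symm hne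
  · exact h5

theorem fiber_E₄_rho : E₄ rho = 0 := by
  refine isLevelOne_E₄.fiber_eq_zero_of_stab fiber_ST_smul_rho ?_
  rw [fiber_denom_ST_rho]
  intro h1
  have h2 := (fiber_isPrimitiveRoot_rho.zpow_eq_one_iff_dvd 4).mp h1
  norm_num at h2

theorem fiber_E₆_I : E₆ UpperHalfPlane.I = 0 := by
  refine isLevelOne_E₆.fiber_eq_zero_of_stab fiber_S_smul_I ?_
  rw [fiber_denom_S_I]
  intro h1
  have h2 := (Complex.isPrimitiveRoot_I.zpow_eq_one_iff_dvd 6).mp h1
  norm_num at h2

theorem fiber_E₆_rho_ne : E₆ rho ≠ 0 := by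
  intro h
  have h1 := ModularForm.discriminant_eq_E₄_cube_sub_E₆_sq rho
  rw [h, fiber_E₄_rho] at h1
  exact ModularForm.discriminant_ne_zero rho (by rw [h1]; ring)

theorem fiber_E₄_I_ne : E₄ UpperHalfPlane.I ≠ 0 := by
  intro h
  have h1 := ModularForm.discriminant_eq_E₄_cube_sub_E₆_sq UpperHalfPlane.I
  rw [h, fiber_E₆_I] at h1
  exact ModularForm.discriminant_ne_zero UpperHalfPlane.I (by rw [h1]; ring)

theorem fiber_exists_smul_rho {z : ℍ} (h : E₄ z = 0) : ∃ γ : SL(2, ℤ), z = γ • rho := by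
  apply exists_smul_eq_of_j_eq rho z
  rw [h, fiber_E₄_rho]
  ring

theorem fiber_exists_smul_I {z : ℍ} (h : E₆ z = 0) :
    ∃ γ : SL(2, ℤ), z = γ • UpperHalfPlane.I := by
  apply exists_smul_eq_of_j_eq UpperHalfPlane.I z
  rw [ModularForm.discriminant_eq_E₄_cube_sub_E₆_sq,
    ModularForm.discriminant_eq_E₄_cube_sub_E₆_sq, h, fiber_E₆_I]
  ring

/-! ### Transport along the orbit -/

theorem fiber_indep_smul {N : ℕ} [NeZero N] (H : HomBasis N) (z : ℍ) (γ : SL(2, ℤ))
    (h : LinearIndependent ℂ (fun a : H.ι => ev N (H.w a) (H.B a) z)) :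
    LinearIndependent ℂ (fun a : H.ι => ev N (H.w a) (H.B a) (γ • z)) := by
  have hj : denom γ z ≠ 0 := denom_ne_zero _ z
  have hinj : Function.Injective (LinearMap.funLeft ℂ ℂ (fun q : Q N => γ⁻¹ • q)) :=
    LinearMap.funLeft_injective_of_surjective ℂ ℂ _ (MulAction.surjective γ⁻¹)
  have h1 := h.map' (LinearMap.funLeft ℂ ℂ (fun q : Q N => γ⁻¹ • q))
    (LinearMap.ker_eq_bot.mpr hinj)
  have h2 := h1.units_smul (fun a => Units.mk0 (denom γ z ^ (H.w a)) (zpow_ne_zero _ hj))
  have key : (fun a : H.ι => ev N (H.w a) (H.B a) (γ • z)) =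
      (fun a => Units.mk0 (denom γ z ^ (H.w a)) (zpow_ne_zero _ hj)) •
        (⇑(LinearMap.funLeft ℂ ℂ fun q : Q N => γ⁻¹ • q) ∘
          fun a => ev N (H.w a) (H.B a) z) := by
    funext a q
    rw [ev_smul (fun γ hγ => (H.isForm a).slash_eq hγ) γ z q]
    rfl
  rw [key]
  exact h2

/-! ### The three cases -/

theorem fiber_exists_monomial {z : ℍ} (h4 : E₄ z ≠ 0) (h6 : E₆ z ≠ 0) {m : ℤ} (hm : Even m)
    (hm4 : 4 ≤ m) : ∃ u : ℍ → ℂ, IsLevelOne m u ∧ u z ≠ 0 := by
  obtain ⟨n, rfl⟩ := hm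
  rcases Int.even_or_odd' n with ⟨i, rfl | rfl⟩
  · refine ⟨(⇑E₄) ^ i.toNat, (isLevelOne_E₄.pow i.toNat).cast ?_, ?_⟩
    · have h : (i.toNat : ℤ) = i := Int.toNat_of_nonneg (by omega)
      rw [h]
      ring
    · simp [h4]
  · refine ⟨(⇑E₄) ^ (i - 1).toNat * ⇑E₆,
      ((isLevelOne_E₄.pow (i - 1).toNat).mul isLevelOne_E₆).cast ?_, ?_⟩
    · have h : ((i - 1).toNat : ℤ) = i - 1 := Int.toNat_of_nonneg (by omega)
      rw [h]
      ring
    · simp [h4, h6]

theorem fiber_indep_generic {N : ℕ} [NeZero N] (H : HomBasis N) (z : ℍ) (h4 : E₄ z ≠ 0)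
    (h6 : E₆ z ≠ 0) : LinearIndependent ℂ (fun a : H.ι => ev N (H.w a) (H.B a) z) := by
  have hg : (-1 : SL(2, ℤ)) • z = z := by
    ext
    simp
  have hden : denom (-1 : SL(2, ℤ)) z = -1 := by
    simp [denom]
  refine fiber_indep_of_stab H z (-1) hg (isLevelOne_Pfun z)
    (ModularForm.discriminant_ne_zero z) (tendsto_Pfun z)
    (fun z' hz' => deriv_Pfun_ne_zero h4 h6 hz') ?_ ?_ ?_
  · simp [Pfun]
    ring
  · intro z' hz'
    apply exists_smul_eq_of_j_eq z z'
    have h : discriminant z * E₄ z' ^ 3 - E₄ z ^ 3 * discriminant z' = 0 := hz'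
    linear_combination h
  · intro d hd
    rw [hden] at hd
    have hev : Even d := by
      by_contra hodd
      rw [Int.not_even_iff_odd] at hodd
      rw [hodd.neg_one_zpow] at hd
      norm_num at hd
    refine ⟨(4 - d).toNat, fun n hn => ?_⟩
    have h1 : 4 - d ≤ (n : ℤ) := le_trans (Int.self_le_toNat _) (by exact_mod_cast hn)
    refine fiber_exists_monomial h4 h6 (hev.add ?_) (by omega)
    exact (show Even (12 : ℤ) by decide).mul_right _

theorem fiber_indep_rho {N : ℕ} [NeZero N] (H : HomBasis N) :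
    LinearIndependent ℂ (fun a : H.ι => ev N (H.w a) (H.B a) rho) := by
  refine fiber_indep_of_stab H rho (ModularGroup.S * ModularGroup.T) fiber_ST_smul_rho
    isLevelOne_E₄ one_ne_zero tendsto_E₄ (fun z' hz' => deriv_E₄_ne_zero hz') fiber_E₄_rho
    (fun z' hz' => fiber_exists_smul_rho hz') ?_
  intro d hd
  rw [fiber_denom_ST_rho] at hd
  obtain ⟨e, rfl⟩ := (fiber_isPrimitiveRoot_rho.zpow_eq_one_iff_dvd d).mp hd
  refine ⟨(-e).toNat, fun n hn => ?_⟩
  have h1 : -e ≤ (n : ℤ) := le_trans (Int.self_le_toNat _) (by exact_mod_cast hn)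
  refine ⟨(⇑E₆) ^ (e + 2 * n).toNat, (isLevelOne_E₆.pow _).cast ?_, ?_⟩
  · have h : ((e + 2 * n).toNat : ℤ) = e + 2 * n := Int.toNat_of_nonneg (by omega)
    rw [h]
    push_cast
    ring
  · simp [fiber_E₆_rho_ne]

theorem fiber_indep_I {N : ℕ} [NeZero N] (H : HomBasis N) :
    LinearIndependent ℂ (fun a : H.ι => ev N (H.w a) (H.B a) UpperHalfPlane.I) := by
  refine fiber_indep_of_stab H UpperHalfPlane.I ModularGroup.S fiber_S_smul_I
    isLevelOne_E₆ one_ne_zero tendsto_E₆ (fun z' hz' => deriv_E₆_ne_zero hz') fiber_E₆_I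
    (fun z' hz' => fiber_exists_smul_I hz') ?_
  intro d hd
  rw [fiber_denom_S_I] at hd
  obtain ⟨e, rfl⟩ := (Complex.isPrimitiveRoot_I.zpow_eq_one_iff_dvd d).mp hd
  refine ⟨(-e).toNat, fun n hn => ?_⟩
  have h1 : -e ≤ (n : ℤ) := le_trans (Int.self_le_toNat _) (by exact_mod_cast hn)
  refine ⟨(⇑E₄) ^ (e + 3 * n).toNat, (isLevelOne_E₄.pow _).cast ?_, ?_⟩
  · have h : ((e + 3 * n).toNat : ℤ) = e + 3 * n := Int.toNat_of_nonneg (by omega)
    rw [h]
    push_cast
    ring
  · simp [fiber_E₄_I_ne]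

theorem ev_linearIndependent {N : ℕ} [NeZero N] (H : HomBasis N) (z : ℍ) :
    LinearIndependent ℂ (fun a : H.ι => ev N (H.w a) (H.B a) z) := by
  by_cases h4 : E₄ z = 0
  · obtain ⟨γ, rfl⟩ := fiber_exists_smul_rho h4
    exact fiber_indep_smul H rho γ (fiber_indep_rho H)
  by_cases h6 : E₆ z = 0
  · obtain ⟨γ, rfl⟩ := fiber_exists_smul_I h6
    exact fiber_indep_smul H _ γ (fiber_indep_I H)
  exact fiber_indep_generic H z h4 h6

/-! ### Finiteness and the number of basis elements -/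

theorem HomBasis.finite {N : ℕ} [NeZero N] (H : HomBasis N) : Finite H.ι :=
  (ev_linearIndependent H UpperHalfPlane.I).finite_of_isNoetherian

theorem fiber_ev_mul {N : ℕ} {k l : ℤ} (F G : ℍ → ℂ) (z : ℍ) :
    ev N (k + l) (F * G) z = ev N k F z * ev N l G z := by
  funext q
  rw [Pi.mul_apply, ev_apply, ev_apply, ev_apply, mul_slash_SL2]
  rfl

theorem fiber_ev_prod {N : ℕ} {κ : Type*} (t : Finset κ) (k : ℤ) (F : κ → ℍ → ℂ) (z : ℍ) :
    ev N ((t.card : ℤ) * k) (∏ i ∈ t, F i) z = ∏ i ∈ t, ev N k (F i) z := by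
  funext q
  rw [ev_apply, Fermat.Agent.S23.SymAux.prod_slash_SL, Finset.prod_apply, Finset.prod_apply]
  rfl

theorem fiber_isForm_prod {N : ℕ} [NeZero N] {κ : Type*} (t : Finset κ) {k : ℤ}
    {F : κ → ℍ → ℂ} (h : ∀ i ∈ t, IsForm N k (F i)) :
    IsForm N ((t.card : ℤ) * k) (∏ i ∈ t, F i) := by
  classical
  induction t using Finset.induction_on with
  | empty =>
    have h1 : (∏ i ∈ (∅ : Finset κ), F i) = fun _ : ℍ => (1 : ℂ) := by
      rw [Finset.prod_empty]
      rfl
    rw [h1]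
    simpa using isForm_const N 1
  | insert i t hi ih =>
    rw [Finset.prod_insert hi, Finset.card_insert_of_notMem hi]
    exact ((h i (Finset.mem_insert_self i t)).mul
      (ih fun j hj => h j (Finset.mem_insert_of_mem hj))).cast (by push_cast; ring)

/-- there is a point where the conjugates of the primitive element take distinct values -/
theorem fiber_exists_injective (N : ℕ) [NeZero N] :
    ∃ z : ℍ, Function.Injective (ev N 12 (Fermat.Agent.S23.TN N) z) := by
  classical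
  let _ : Fintype (Q N) := Fintype.ofFinite _
  set T := Fermat.Agent.S23.TN N with hTdef
  have hT : IsForm N 12 T := ⟨Fermat.Agent.S23.TNForm N, rfl⟩
  have hinv : ∀ γ ∈ Gamma0 N, T ∣[(12 : ℤ)] γ = T := fun γ hγ => hT.slash_eq hγ
  let b : Q N → ℍ → ℂ := fun q z => ev N 12 T z q
  have hb_hol : ∀ q, MDiff (b q) := fun q => ev_mdiff hT.mdiff q
  let D : ℍ → ℂ := ∏ pr ∈ (Finset.univ : Finset (Q N)).offDiag, (b pr.1 - b pr.2)
  have hD : D ≠ 0 := by
    intro hD
    rw [UpperHalfPlane.prod_eq_zero_iff (fun pr _ => (hb_hol pr.1).sub (hb_hol pr.2))] at hD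
    obtain ⟨⟨q, q'⟩, hq, hq0⟩ := hD
    have hne : q ≠ q' := (Finset.mem_offDiag.mp hq).2.2
    apply hne
    obtain ⟨g, rfl⟩ := QuotientGroup.mk_surjective q
    obtain ⟨g', rfl⟩ := QuotientGroup.mk_surjective q'
    have e1 : b (QuotientGroup.mk g) = T ∣[(12 : ℤ)] g⁻¹ := by
      funext z
      exact ev_mk hinv g z
    have e2 : b (QuotientGroup.mk g') = T ∣[(12 : ℤ)] g'⁻¹ := by
      funext z
      exact ev_mk hinv g' z
    have h1 : T ∣[(12 : ℤ)] g⁻¹ = T ∣[(12 : ℤ)] g'⁻¹ := by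
      rw [← e1, ← e2]
      exact sub_eq_zero.mp hq0
    have h2 : T ∣[(12 : ℤ)] (g⁻¹ * g') = T := by
      rw [SlashAction.slash_mul, h1, ← SlashAction.slash_mul, inv_mul_cancel,
        SlashAction.slash_one]
    exact QuotientGroup.eq.mpr (Fermat.Agent.S23.mem_Gamma0_of_TN_slash_eq N _ h2)
  obtain ⟨z, hz⟩ : ∃ z, D z ≠ 0 := by
    by_contra hcon
    apply hD
    funext z
    by_contra h
    exact hcon ⟨z, h⟩
  refine ⟨z, fun q q' hqq' => ?_⟩
  by_contra hne
  apply hz
  show (∏ pr ∈ (Finset.univ : Finset (Q N)).offDiag, (b pr.1 - b pr.2)) z = 0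
  rw [Finset.prod_apply]
  refine Finset.prod_eq_zero (i := (q, q'))
    (Finset.mem_offDiag.mpr ⟨Finset.mem_univ _, Finset.mem_univ _, hne⟩) ?_
  show b q z - b q' z = 0
  exact sub_eq_zero.mpr hqq'

theorem fiber_span_eq_top {N : ℕ} [NeZero N] (H : HomBasis N) (z : ℍ)
    (hz : Function.Injective (ev N 12 (Fermat.Agent.S23.TN N) z)) :
    Submodule.span ℂ (Set.range fun a : H.ι => ev N (H.w a) (H.B a) z) = ⊤ := by
  classical
  let _ : Fintype (Q N) := Fintype.ofFinite _
  set T := Fermat.Agent.S23.TN N with hTdef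
  have hT : IsForm N 12 T := ⟨Fermat.Agent.S23.TNForm N, rfl⟩
  set b : Q N → ℂ := ev N 12 T z with hb
  have hmem : ∀ (k : ℤ) (F : ℍ → ℂ), IsForm N k F → ev N k F z ∈
      Submodule.span ℂ (Set.range fun a : H.ι => ev N (H.w a) (H.B a) z) := by
    intro k F hF
    obtain ⟨s, p, hp, rfl⟩ := H.gen k F hF
    rw [ev_sum]
    refine Submodule.sum_mem _ fun a ha => ?_
    rw [fiber_ev_mul_levelOne_cast (hp a ha) (by ring : k = (k - H.w a) + H.w a)]
    exact Submodule.smul_mem _ _ (Submodule.subset_span ⟨a, rfl⟩)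
  let G : Q N → ℍ → ℂ := fun q => T - (b q / discriminant z) • discriminant
  have hG : ∀ q, IsForm N 12 (G q) := fun q =>
    hT.sub ((isLevelOne_discriminant.isForm).smul _)
  have hdisc : ev N 12 discriminant z = fun _ => discriminant z := by
    funext q''
    rw [ev_apply, isLevelOne_discriminant.slash_eq]
  have hGev : ∀ q q', ev N 12 (G q) z q' = b q' - b q := by
    intro q q'
    show ev N 12 (T - (b q / discriminant z) • discriminant) z q' = b q' - b q
    rw [ev_sub, ev_const_smul, hdisc]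
    simp [hb, div_mul_cancel₀ _ (ModularForm.discriminant_ne_zero z)]
  rw [eq_top_iff]
  intro v _
  have hv : v = ∑ q, v q • (Pi.single q (1 : ℂ) : Q N → ℂ) := by
    funext q'
    simp [Finset.sum_apply, Pi.single_apply]
  rw [hv]
  refine Submodule.sum_mem _ fun q₀ _ => Submodule.smul_mem _ _ ?_
  set F : ℍ → ℂ := ∏ q ∈ Finset.univ.erase q₀, G q with hFdef
  have hF : IsForm N (((Finset.univ.erase q₀).card : ℤ) * 12) F :=
    fiber_isForm_prod _ fun q _ => hG q
  have hFev : ev N (((Finset.univ.erase q₀).card : ℤ) * 12) F z =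
      (∏ q ∈ Finset.univ.erase q₀, (b q₀ - b q)) • (Pi.single q₀ (1 : ℂ) : Q N → ℂ) := by
    rw [hFdef, fiber_ev_prod]
    funext q'
    rw [Finset.prod_apply]
    simp only [hGev, Pi.smul_apply, Pi.single_apply, smul_eq_mul]
    by_cases h : q' = q₀
    · subst h
      simp
    · rw [if_neg h, mul_zero]
      exact Finset.prod_eq_zero (Finset.mem_erase.mpr ⟨h, Finset.mem_univ _⟩) (sub_self _)
  have hc : (∏ q ∈ Finset.univ.erase q₀, (b q₀ - b q)) ≠ 0 := by
    rw [Finset.prod_ne_zero_iff]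
    intro q hq
    exact sub_ne_zero.mpr (fun h => (Finset.mem_erase.mp hq).1 (hz h).symm)
  have h1 := hmem _ F hF
  rw [hFev] at h1
  have h2 := Submodule.smul_mem _ (∏ q ∈ Finset.univ.erase q₀, (b q₀ - b q))⁻¹ h1
  rwa [smul_smul, inv_mul_cancel₀ hc, one_smul] at h2

theorem HomBasis.card_eq {N : ℕ} [NeZero N] (H : HomBasis N) : Nat.card H.ι = mu N := by
  classical
  obtain ⟨z, hz⟩ := fiber_exists_injective N
  have hli := ev_linearIndependent H z
  have hsp := fiber_span_eq_top H z hz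
  let bas : Module.Basis H.ι ℂ (Q N → ℂ) := Module.Basis.mk hli hsp.ge
  have hfin := H.finite
  let _ : Fintype H.ι := Fintype.ofFinite _
  let _ : Fintype (Q N) := Fintype.ofFinite _
  have h1 : Module.finrank ℂ (Q N → ℂ) = Fintype.card H.ι := Module.finrank_eq_card_basis bas
  rw [Module.finrank_fintype_fun_eq_card] at h1
  rw [Nat.card_eq_fintype_card, ← h1, mu, Nat.card_eq_fintype_card]

end Fermat.Agent.S20
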