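import Fermat.Agent.S20.CuspLim
import Fermat.Agent.S20.Fiber
import Fermat.Agent.S20.LevelOne

/-!
# S20, module H2, part (C): the limits at `i∞` of a homogeneous basis are linearly independent

If `∑ c_a Λ(B_a) = 0`, multiply `B_a` by a monomial `u_a` in `E₄, E₆` with constant term one to
reach a common weight `K`; then `F = ∑ c_a u_a B_a` has `Λ(F) = 0`, hence `F = Δ G`, and
expanding `G` in the basis the uniqueness of the coefficients gives `c_a u_a = Δ p_a`, whose limit
at `i∞` is `c_a = 0`.
-/

set_option autoImplicit false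

open UpperHalfPlane ModularForm CongruenceSubgroup Filter
open scoped MatrixGroups Manifold

namespace Fermat.Agent.S20

theorem cind_sum_ite {ι : Type*} [DecidableEq ι] (s t : Finset ι) (f B : ι → ℍ → ℂ) :
    ∑ a ∈ s ∪ t, (if a ∈ s then f a else 0) * B a = ∑ a ∈ s, f a * B a := by
  symm
  rw [← Finset.sum_subset (Finset.subset_union_left (s₁ := s) (s₂ := t))]
  · exact Finset.sum_congr rfl fun a ha => by rw [if_pos ha]
  · intro a _ ha
    rw [if_neg ha, zero_mul]

theorem cind_sum_ite' {ι : Type*} [DecidableEq ι] (s t : Finset ι) (f B : ι → ℍ → ℂ) :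
    ∑ a ∈ s ∪ t, (if a ∈ t then f a else 0) * B a = ∑ a ∈ t, f a * B a := by
  rw [Finset.union_comm]
  exact cind_sum_ite t s f B

theorem cuspLim_linearIndependent {N : ℕ} [NeZero N] (H : HomBasis N) :
    LinearIndependent ℂ (fun a : H.ι => cuspLim N (H.w a) (H.B a)) := by
  classical
  rw [linearIndependent_iff']
  intro s c hc a₀ ha₀
  -- a common weight `K`
  set M : ℤ := ∑ a ∈ s, H.w a with hM
  have hM0 : 0 ≤ M := Finset.sum_nonneg fun a _ => H.weight_nonneg a
  have hwM : ∀ a ∈ s, H.w a ≤ M := fun a ha =>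
    Finset.single_le_sum (f := fun a => H.w a) (fun b _ => H.weight_nonneg b) ha
  set K : ℤ := 2 * M + 4 with hK
  have hu : ∀ a ∈ s, ∃ u : ℍ → ℂ, IsLevelOne (K - H.w a) u ∧ Tendsto u atImInfty (nhds 1) := by
    intro a ha
    have h1 : 4 ≤ K - H.w a := by
      have := hwM a ha
      omega
    have h2 : Even (K - H.w a) := by
      refine Even.sub ?_ (H.weight_even a)
      exact ⟨M + 2, by rw [hK]; ring⟩
    obtain ⟨e, r, s', he, ht, -⟩ := lvl_exists_monomial h1 h2
    exact ⟨e, he, ht⟩
  choose! u hu1 hu2 using hu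
  -- the form `F = ∑ c_a u_a B_a` of weight `K`
  have hterm : ∀ a ∈ s, IsForm N K ((c a • u a) * H.B a) := fun a ha =>
    (IsForm.levelOne_mul ((hu1 a ha).smul (c a)) (H.isForm a)).cast (sub_add_cancel _ _)
  have hFform : IsForm N K (∑ a ∈ s, (c a • u a) * H.B a) := IsForm.sum s hterm
  have hlim : cuspLim N K (∑ a ∈ s, (c a • u a) * H.B a) = 0 := by
    rw [cuspLim_sum s hterm, ← hc]
    refine Finset.sum_congr rfl fun a ha => ?_
    have h0 : Tendsto (c a • u a) atImInfty (nhds (c a)) := by
      have := (hu2 a ha).const_smul (c a)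
      rw [smul_eq_mul, mul_one] at this
      exact this
    have h1 := cuspLim_levelOne_mul (N := N) ((hu1 a ha).smul (c a)) h0 (H.isForm a)
    rw [sub_add_cancel] at h1
    exact h1
  obtain ⟨G, hG, hFG⟩ := exists_eq_discriminant_mul_of_cuspLim_eq_zero hFform hlim
  obtain ⟨t, p, hp, hGp⟩ := H.gen (K - 12) G hG
  -- uniqueness of the coefficients
  have hind := H.ind K (s ∪ t)
    (fun a => (if a ∈ s then c a • u a else 0) - (if a ∈ t then discriminant * p a else 0))
    (by
      intro a _
      refine IsLevelOne.sub ?_ ?_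
      · by_cases ha : a ∈ s
        · rw [if_pos ha]
          exact (hu1 a ha).smul (c a)
        · rw [if_neg ha]
          exact isLevelOne_zero _
      · by_cases ha : a ∈ t
        · rw [if_pos ha]
          exact (isLevelOne_discriminant.mul (hp a ha)).cast (by ring)
        · rw [if_neg ha]
          exact isLevelOne_zero _)
    (by
      simp only [sub_mul]
      rw [Finset.sum_sub_distrib, cind_sum_ite, cind_sum_ite', hFG, hGp, Finset.mul_sum,
        sub_eq_zero]
      exact Finset.sum_congr rfl fun a _ => (mul_assoc _ _ _).symm)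
    a₀ (Finset.mem_union_left _ ha₀)
  rw [if_pos ha₀] at hind
  have h0 : Tendsto (c a₀ • u a₀) atImInfty (nhds (c a₀)) := by
    have := (hu2 a₀ ha₀).const_smul (c a₀)
    rw [smul_eq_mul, mul_one] at this
    exact this
  by_cases hat : a₀ ∈ t
  · rw [if_pos hat, sub_eq_zero] at hind
    obtain ⟨l, hl⟩ := lvl_exists_tendsto (hp a₀ hat)
    have h1 : Tendsto (discriminant * p a₀) atImInfty (nhds (0 * l)) := lvl_tendsto_disc.mul hl
    rw [zero_mul, ← hind] at h1
    exact tendsto_nhds_unique h0 h1
  · rw [if_neg hat, sub_zero] at hind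
    rw [hind] at h0
    exact tendsto_nhds_unique h0 tendsto_const_nhds

end Fermat.Agent.S20
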