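import Fermat.Agent.S20.Twist
import Fermat.Agent.S20.Forms

/-!
# S20, module H2: definitions for the behaviour at the cusp `i∞`

`cuspTau N` is the permutation of the cosets `Q N` induced by `T`, `cuspG N k F z` is the twisted
vector `E(z) (ev_z F)` of the values at `z` of the conjugates of `F` (it is `1`-periodic in `z`),
and `cuspLim N k F` is its limit at `i∞`.
-/

set_option autoImplicit false

open UpperHalfPlane ModularForm CongruenceSubgroup Filter
open scoped MatrixGroups Manifold

namespace Fermat.Agent.S20

/-- The permutation of the cosets given by left multiplication by `T`. -/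
noncomputable def cuspTau (N : ℕ) : Equiv.Perm (Q N) := MulAction.toPerm ModularGroup.T

/-- `G_F(z) = E(z) (ev_z F)`: the twisted vector of the values at `z` of the conjugates of `F`. -/
noncomputable def cuspG (N : ℕ) (k : ℤ) (F : ℍ → ℂ) (z : ℍ) : Q N → ℂ :=
  twE (cuspTau N) N (z : ℂ) (ev N k F z)

/-- The limit of `G_F` at `i∞`. -/
noncomputable def cuspLim (N : ℕ) (k : ℤ) (F : ℍ → ℂ) : Q N → ℂ :=
  limUnder atImInfty (cuspG N k F)

theorem cuspG_apply (N : ℕ) (k : ℤ) (F : ℍ → ℂ) (z : ℍ) :
    cuspG N k F z = twE (cuspTau N) N (z : ℂ) (ev N k F z) := rfl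

end Fermat.Agent.S20
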