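import Mathlib
import Fermat.Agent.S20.Forms
import Fermat.Agent.S20.LevelOne
import Fermat.Agent.S22.LowWeight

/-!
Module I (Dual) of the S20/S21 project, core part.

For a homogeneous basis `B_a` of `⊕ M_k(Gamma0 N)` over the level one forms, with matrix of
conjugates `M z = [ev (B_a) z (e b)]`, the dual family `f_a = Δ · (M⁻¹)_{q₀, a}` consists of
cusp forms of weight `12 - w_a`.  Hence `w_a ≤ 10`, and the `f_a` with `w_a = 10` form a basis of
the cusp forms of weight two.

The two inputs from the other modules (linear independence of the value vectors at every point,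
and the behaviour of `Δ · M⁻¹` at `i∞`) are taken as hypotheses here.
-/

set_option autoImplicit false
set_option linter.unusedSectionVars false

open UpperHalfPlane ModularForm CongruenceSubgroup Filter
open scoped MatrixGroups Manifold

namespace Fermat.Agent.S20

open Fermat.Agent.S23.SymAux

/-! ### holomorphy of determinants and inverses -/

theorem dual_mdiff_det {n : Type*} [Fintype n] [DecidableEq n] (A : ℍ → Matrix n n ℂ)
    (hA : ∀ i j, MDiff (fun z => A z i j)) : MDiff (fun z => (A z).det) := by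
  have h : (fun z => (A z).det) =
      ∑ σ : Equiv.Perm n, ((fun _ : ℍ => (((Equiv.Perm.sign σ : ℤˣ) : ℤ) : ℂ)) *
        ∏ i : n, (fun z => A z (σ i) i)) := by
    funext z
    rw [Matrix.det_apply, Finset.sum_apply]
    refine Finset.sum_congr rfl fun σ _ => ?_
    rw [Pi.mul_apply, Finset.prod_apply, Units.smul_def, zsmul_eq_mul]
  rw [h]
  refine mdiff_finsetSum _ fun σ _ => ?_
  have hc : MDiff (fun _ : ℍ => (((Equiv.Perm.sign σ : ℤˣ) : ℤ) : ℂ)) :=
    fun _ => mdifferentiableAt_const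
  exact hc.mul (mdiff_finsetProd _ fun i _ => hA (σ i) i)

theorem dual_mdiff_inv {n : Type*} [Fintype n] [DecidableEq n] (A : ℍ → Matrix n n ℂ)
    (hA : ∀ i j, MDiff (fun z => A z i j)) (hdet : ∀ z, (A z).det ≠ 0) (i j : n) :
    MDiff (fun z => (A z)⁻¹ i j) := by
  have hadj : MDiff (fun z => (A z).adjugate i j) := by
    have h : (fun z => (A z).adjugate i j) =
        fun z => ((A z).updateRow j (Pi.single i 1)).det := by
      funext z
      rw [Matrix.adjugate_apply]
    rw [h]
    refine dual_mdiff_det (fun z => (A z).updateRow j (Pi.single i 1)) fun i' j' => ?_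
    by_cases hi : i' = j
    · have h1 : (fun z => (A z).updateRow j (Pi.single i 1) i' j') =
          fun _ => (Pi.single i (1 : ℂ) : n → ℂ) j' := by
        funext z
        rw [Matrix.updateRow_apply, if_pos hi]
      rw [h1]
      exact fun _ => mdifferentiableAt_const
    · have h1 : (fun z => (A z).updateRow j (Pi.single i 1) i' j') = fun z => A z i' j' := by
        funext z
        rw [Matrix.updateRow_apply, if_neg hi]
      rw [h1]
      exact hA i' j'
  have hd := dual_mdiff_det A hA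
  have h : (fun z => (A z)⁻¹ i j) = fun z => ((A z).det)⁻¹ * (A z).adjugate i j := by
    funext z
    rw [Matrix.inv_def, Ring.inverse_eq_inv', Matrix.smul_apply, smul_eq_mul]
  rw [h]
  rw [UpperHalfPlane.mdifferentiable_iff] at hd hadj ⊢
  exact (hd.inv fun w _ => hdet _).mul hadj

/-! ### the matrix of conjugates and the dual family -/

section Core

variable {N : ℕ} [NeZero N] (H : HomBasis N) [Fintype H.ι] [DecidableEq H.ι] (e : H.ι ≃ Q N)

/-- the matrix of values of the conjugates of the basis elements -/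
noncomputable def dualM (z : ℍ) : Matrix H.ι H.ι ℂ :=
  Matrix.of fun a b => ev N (H.w a) (H.B a) z (e b)

theorem dualM_apply (z : ℍ) (a b : H.ι) :
    dualM H e z a b = ev N (H.w a) (H.B a) z (e b) := rfl

theorem dual_det_ne_zero
    (hli : ∀ z : ℍ, LinearIndependent ℂ (fun a : H.ι => ev N (H.w a) (H.B a) z)) (z : ℍ) :
    (dualM H e z).det ≠ 0 := by
  have h1 : LinearIndependent ℂ (dualM H e z).row :=
    (hli z).map' (LinearEquiv.funCongrLeft ℂ ℂ e).toLinearMap (LinearEquiv.ker _)
  have h2 := Matrix.linearIndependent_rows_iff_isUnit.mp h1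
  exact ((Matrix.isUnit_iff_isUnit_det _).mp h2).ne_zero

theorem dualM_smul (γ : SL(2, ℤ)) (z : ℍ) (a b : H.ι) :
    dualM H e (γ • z) a b = denom γ z ^ (H.w a) * dualM H e z a (e.symm (γ⁻¹ • e b)) := by
  rw [dualM_apply, dualM_apply, Equiv.apply_symm_apply]
  exact ev_smul (fun δ hδ => (H.isForm a).slash_eq hδ) γ z (e b)

theorem dualM_inv_smul
    (hli : ∀ z : ℍ, LinearIndependent ℂ (fun a : H.ι => ev N (H.w a) (H.B a) z))
    (γ : SL(2, ℤ)) (z : ℍ) (b a : H.ι) :
    (dualM H e (γ • z))⁻¹ b a =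
      (dualM H e z)⁻¹ (e.symm (γ⁻¹ • e b)) a * denom γ z ^ (-(H.w a)) := by
  have hdet := dual_det_ne_zero H e hli z
  have hd : denom γ z ≠ 0 := denom_ne_zero _ z
  have key : (Matrix.of fun b a =>
      (dualM H e z)⁻¹ (e.symm (γ⁻¹ • e b)) a * denom γ z ^ (-(H.w a)) : Matrix H.ι H.ι ℂ) *
        dualM H e (γ • z) = 1 := by
    ext b c
    rw [Matrix.mul_apply]
    have h1 : ∀ a, (Matrix.of fun b a =>
        (dualM H e z)⁻¹ (e.symm (γ⁻¹ • e b)) a * denom γ z ^ (-(H.w a)) :
          Matrix H.ι H.ι ℂ) b a * dualM H e (γ • z) a c =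
        (dualM H e z)⁻¹ (e.symm (γ⁻¹ • e b)) a * dualM H e z a (e.symm (γ⁻¹ • e c)) := by
      intro a
      rw [Matrix.of_apply, dualM_smul]
      have h2 : denom γ z ^ (-(H.w a)) * denom γ z ^ (H.w a) = 1 := by
        rw [← zpow_add₀ hd]
        simp
      linear_combination ((dualM H e z)⁻¹ (e.symm (γ⁻¹ • e b)) a *
        dualM H e z a (e.symm (γ⁻¹ • e c))) * h2
    rw [Finset.sum_congr rfl fun a _ => h1 a, ← Matrix.mul_apply,
      Matrix.nonsing_inv_mul _ (Ne.isUnit hdet), Matrix.one_apply, Matrix.one_apply]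
    simp only [EmbeddingLike.apply_eq_iff_eq, smul_left_cancel_iff]
  rw [Matrix.inv_eq_left_inv key, Matrix.of_apply]

/-- the dual family `f_a = Δ · (M⁻¹)_{q₀, a}` -/
noncomputable def dualF (a : H.ι) : ℍ → ℂ :=
  fun z => discriminant z * (dualM H e z)⁻¹ (e.symm (QuotientGroup.mk 1)) a

theorem dual_discriminant_smul (γ : SL(2, ℤ)) (z : ℍ) :
    discriminant (γ • z) = denom γ z ^ (12 : ℤ) * discriminant z := by
  have h := congrFun (isLevelOne_discriminant.slash_eq γ) z
  rw [ModularForm.SL_slash_apply] at h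
  have hd : denom γ z ≠ 0 := denom_ne_zero _ z
  rw [← h, mul_comm (discriminant (γ • z)), ← mul_assoc, ← zpow_add₀ hd]
  simp

theorem dualF_smul
    (hli : ∀ z : ℍ, LinearIndependent ℂ (fun a : H.ι => ev N (H.w a) (H.B a) z))
    (a : H.ι) (γ : SL(2, ℤ)) (z : ℍ) :
    dualF H e a (γ • z) = denom γ z ^ (12 - H.w a) *
      (discriminant z * (dualM H e z)⁻¹ (e.symm (γ⁻¹ • (QuotientGroup.mk 1 : Q N))) a) := by
  have hd : denom γ z ≠ 0 := denom_ne_zero _ z
  unfold dualF
  rw [dualM_inv_smul H e hli γ z, dual_discriminant_smul, Equiv.apply_symm_apply,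
    sub_eq_add_neg, zpow_add₀ hd]
  ring

theorem dualF_slash
    (hli : ∀ z : ℍ, LinearIndependent ℂ (fun a : H.ι => ev N (H.w a) (H.B a) z))
    (a : H.ι) (γ : SL(2, ℤ)) (z : ℍ) :
    (dualF H e a ∣[12 - H.w a] γ) z =
      discriminant z * (dualM H e z)⁻¹ (e.symm (γ⁻¹ • (QuotientGroup.mk 1 : Q N))) a := by
  have hd : denom γ z ≠ 0 := denom_ne_zero _ z
  rw [ModularForm.SL_slash_apply, dualF_smul H e hli a γ z]
  have h2 : denom γ z ^ (12 - H.w a) * denom γ z ^ (-(12 - H.w a)) = 1 := by
    rw [← zpow_add₀ hd]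
    simp
  linear_combination (discriminant z *
    (dualM H e z)⁻¹ (e.symm (γ⁻¹ • (QuotientGroup.mk 1 : Q N))) a) * h2

theorem dualF_mdiff
    (hli : ∀ z : ℍ, LinearIndependent ℂ (fun a : H.ι => ev N (H.w a) (H.B a) z))
    (a : H.ι) : MDiff (dualF H e a) := by
  have h1 : MDiff (fun z : ℍ => discriminant z) := isLevelOne_discriminant.mdiff
  have h2 : MDiff (fun z => (dualM H e z)⁻¹ (e.symm (QuotientGroup.mk 1)) a) :=
    dual_mdiff_inv (dualM H e) (fun a b => ev_mdiff (H.isForm a).mdiff (e b))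
      (dual_det_ne_zero H e hli) _ _
  exact h1.mul h2

theorem dualF_isCuspF
    (hli : ∀ z : ℍ, LinearIndependent ℂ (fun a : H.ι => ev N (H.w a) (H.B a) z))
    (hH2 : Tendsto (fun z : ℍ => discriminant z • (dualM H e z)⁻¹) atImInfty (nhds 0))
    (a : H.ι) : IsCuspF N (12 - H.w a) (dualF H e a) := by
  refine isCuspF_of (dualF_mdiff H e hli a) ?_ ?_
  · intro γ hγ
    funext z
    rw [dualF_slash H e hli a γ z]
    have h1 : (γ⁻¹ • (QuotientGroup.mk 1 : Q N)) = QuotientGroup.mk 1 := by
      show (QuotientGroup.mk (γ⁻¹ * 1) : Q N) = QuotientGroup.mk 1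
      rw [QuotientGroup.eq]
      simpa using hγ
    rw [h1]
    rfl
  · intro γ
    have h1 : Tendsto (fun z => (discriminant z • (dualM H e z)⁻¹)
        (e.symm (γ⁻¹ • (QuotientGroup.mk 1 : Q N))) a) atImInfty (nhds 0) := by
      have h2 := ((continuous_id.matrix_elem (e.symm (γ⁻¹ • (QuotientGroup.mk 1 : Q N))) a).tendsto
        (0 : Matrix H.ι H.ι ℂ)).comp hH2
      exact h2
    refine h1.congr fun z => ?_
    rw [dualF_slash H e hli a γ z, Matrix.smul_apply, smul_eq_mul]

theorem dualF_ne_zero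
    (hli : ∀ z : ℍ, LinearIndependent ℂ (fun a : H.ι => ev N (H.w a) (H.B a) z))
    (a : H.ι) : dualF H e a ≠ 0 := by
  intro h0
  have hcol : ∀ b, (dualM H e UpperHalfPlane.I)⁻¹ b a = 0 := by
    intro b
    obtain ⟨g, hg⟩ := QuotientGroup.mk_surjective (e b)
    have h1 := dualF_slash H e hli a g⁻¹ UpperHalfPlane.I
    rw [h0, SlashAction.zero_slash, inv_inv] at h1
    have h2 : (g • (QuotientGroup.mk 1 : Q N)) = e b := by
      rw [← hg]
      show (QuotientGroup.mk (g * 1) : Q N) = _
      rw [mul_one]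
    rw [h2, Equiv.symm_apply_apply] at h1
    exact (mul_eq_zero.mp h1.symm).resolve_left (discriminant_ne_zero _)
  have hdet := dual_det_ne_zero H e hli UpperHalfPlane.I
  have h1 : dualM H e UpperHalfPlane.I * (dualM H e UpperHalfPlane.I)⁻¹ = 1 :=
    Matrix.mul_nonsing_inv _ (Ne.isUnit hdet)
  have h2 := congrFun (congrFun h1 a) a
  rw [Matrix.mul_apply, Matrix.one_apply_eq] at h2
  simp only [hcol, mul_zero, Finset.sum_const_zero] at h2
  exact zero_ne_one h2

/-- **weights are at most ten** (core form) -/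
theorem dual_weight_le_ten
    (hli : ∀ z : ℍ, LinearIndependent ℂ (fun a : H.ι => ev N (H.w a) (H.B a) z))
    (hH2 : Tendsto (fun z : ℍ => discriminant z • (dualM H e z)⁻¹) atImInfty (nhds 0))
    (a : H.ι) : H.w a ≤ 10 := by
  by_contra hlt
  obtain ⟨f, hf⟩ := dualF_isCuspF H e hli hH2 a
  have h0 := Fermat.Agent.S22.cuspForm_eq_zero_of_weight_le_one (by omega : 12 - H.w a ≤ 1) f
  apply dualF_ne_zero H e hli a
  rw [← hf, h0]
  rfl

/-- the dual forms of weight two are linearly independent (coefficient form) -/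
theorem dual_indep_aux
    (hli : ∀ z : ℍ, LinearIndependent ℂ (fun a : H.ι => ev N (H.w a) (H.B a) z))
    (c : H.ι → ℂ) (hc : ∀ a, H.w a ≠ 10 → c a = 0)
    (h : ∀ z, ∑ a, c a * dualF H e a z = 0) : c = 0 := by
  have hdet := dual_det_ne_zero H e hli UpperHalfPlane.I
  have hrow : ∀ b, ∑ a, (dualM H e UpperHalfPlane.I)⁻¹ b a * c a = 0 := by
    intro b
    obtain ⟨γ, hγ⟩ : ∃ γ : SL(2, ℤ), γ⁻¹ • (QuotientGroup.mk 1 : Q N) = e b := by
      obtain ⟨g, hg⟩ := QuotientGroup.mk_surjective (e b)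
      refine ⟨g⁻¹, ?_⟩
      rw [inv_inv, ← hg]
      show (QuotientGroup.mk (g * 1) : Q N) = _
      rw [mul_one]
    have h1 := h (γ • UpperHalfPlane.I)
    have h2 : ∀ a, c a * dualF H e a (γ • UpperHalfPlane.I) =
        (denom γ UpperHalfPlane.I ^ (2 : ℤ) * discriminant UpperHalfPlane.I) *
          ((dualM H e UpperHalfPlane.I)⁻¹ b a * c a) := by
      intro a
      by_cases ha : H.w a = 10
      · rw [dualF_smul H e hli a γ UpperHalfPlane.I, hγ, Equiv.symm_apply_apply, ha]
        have h4 : (12 : ℤ) - 10 = 2 := by norm_num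
        rw [h4]
        ring
      · rw [hc a ha]
        ring
    rw [Finset.sum_congr rfl fun a _ => h2 a, ← Finset.mul_sum] at h1
    exact (mul_eq_zero.mp h1).resolve_left
      (mul_ne_zero (zpow_ne_zero _ (denom_ne_zero _ _)) (discriminant_ne_zero _))
  have h3 : Matrix.mulVec (dualM H e UpperHalfPlane.I)⁻¹ c = 0 := by
    funext b
    exact hrow b
  have h4 : c = Matrix.mulVec (dualM H e UpperHalfPlane.I)
      (Matrix.mulVec (dualM H e UpperHalfPlane.I)⁻¹ c) := by
    rw [Matrix.mulVec_mulVec, Matrix.mul_nonsing_inv _ (Ne.isUnit hdet), Matrix.one_mulVec]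
  rw [h4, h3, Matrix.mulVec_zero]

/-- every cusp form of weight two is a combination of the dual forms of weight two -/
theorem dual_span_aux
    (hli : ∀ z : ℍ, LinearIndependent ℂ (fun a : H.ι => ev N (H.w a) (H.B a) z))
    (hH2 : Tendsto (fun z : ℍ => discriminant z • (dualM H e z)⁻¹) atImInfty (nhds 0))
    (f : CuspForm (Gamma0 N) 2) :
    ∃ c : H.ι → ℂ, (∀ a, H.w a ≠ 10 → c a = 0) ∧ ∀ z, f z = ∑ a, c a * dualF H e a z := by
  have hF : IsCuspF N 2 (⇑f) := ⟨f, rfl⟩
  have hFinv : ∀ γ ∈ Gamma0 N, (⇑f) ∣[(2 : ℤ)] γ = ⇑f := fun γ hγ => hF.isForm.slash_eq hγ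
  -- the traces `tr (f · B_a)`
  let t : H.ι → ℍ → ℂ := fun a z => ∑ b, ev N 2 (⇑f) z (e b) * dualM H e z a b
  have ht_zero : ∀ a, IsZeroAtImInfty (t a) := by
    intro a
    have h1 : ∀ b, Tendsto (fun z => ev N 2 (⇑f) z (e b) * dualM H e z a b) atImInfty
        (nhds 0) := by
      intro b
      have hz : IsZeroAtImInfty (fun z => ev N 2 (⇑f) z (e b)) := ev_zero_at hF (e b)
      have hb : IsBoundedAtImInfty (fun z => ev N (H.w a) (H.B a) z (e b)) :=
        ev_bdd (H.isForm a) (e b)
      have hz' : (fun z => ev N 2 (⇑f) z (e b)) =o[atImInfty] (fun _ => (1 : ℝ)) :=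
        (Asymptotics.isLittleO_one_iff ℝ).mpr hz
      have hb' : (fun z => dualM H e z a b) =O[atImInfty] (fun _ => (1 : ℝ)) := hb
      have h2 := hz'.mul_isBigO hb'
      simp only [mul_one] at h2
      exact (Asymptotics.isLittleO_one_iff ℝ).mp h2
    have h2 := tendsto_finsetSum Finset.univ fun b _ => h1 b
    simp only [Finset.sum_const_zero] at h2
    exact h2
  have ht_lvl : ∀ a, IsLevelOne (2 + H.w a) (t a) := by
    intro a
    refine isLevelOne_of ?_ ?_ (ht_zero a).isBoundedAtImInfty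
    · have h1 : t a = ∑ b, (fun z => ev N 2 (⇑f) z (e b)) * (fun z => dualM H e z a b) := by
        funext z
        simp [t, Finset.sum_apply]
      rw [h1]
      exact mdiff_finsetSum _ fun b _ =>
        (ev_mdiff hF.isForm.mdiff (e b)).mul (ev_mdiff (H.isForm a).mdiff (e b))
    · intro γ
      funext z
      rw [ModularForm.SL_slash_apply]
      show (∑ b, ev N 2 (⇑f) (γ • z) (e b) * dualM H e (γ • z) a b) * _ =
        ∑ b, ev N 2 (⇑f) z (e b) * dualM H e z a b
      have hd : denom γ z ≠ 0 := denom_ne_zero _ z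
      have h1 : ∀ b, ev N 2 (⇑f) (γ • z) (e b) * dualM H e (γ • z) a b =
          denom γ z ^ (2 + H.w a) * (ev N 2 (⇑f) z (e (e.symm (γ⁻¹ • e b))) *
            dualM H e z a (e.symm (γ⁻¹ • e b))) := by
        intro b
        rw [dualM_smul, ev_smul hFinv, Equiv.apply_symm_apply, zpow_add₀ hd]
        ring
      rw [Finset.sum_congr rfl fun b _ => h1 b, ← Finset.mul_sum]
      have h2 : ∑ b, ev N 2 (⇑f) z (e (e.symm (γ⁻¹ • e b))) *
          dualM H e z a (e.symm (γ⁻¹ • e b)) = ∑ b, ev N 2 (⇑f) z (e b) * dualM H e z a b :=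
        Equiv.sum_comp ((e.trans (MulAction.toPerm γ⁻¹)).trans e.symm)
          (fun b => ev N 2 (⇑f) z (e b) * dualM H e z a b)
      rw [h2]
      have h3 : denom γ z ^ (2 + H.w a) * denom γ z ^ (-(2 + H.w a)) = 1 := by
        rw [← zpow_add₀ hd]
        simp
      linear_combination (∑ b, ev N 2 (⇑f) z (e b) * dualM H e z a b) * h3
  have hconst : ∀ a, ∃ c : ℂ, (H.w a ≠ 10 → c = 0) ∧ ∀ z, t a z = discriminant z * c := by
    intro a
    obtain ⟨u, hu, hta⟩ := lvl_exists_eq_disc_mul (ht_lvl a) (ht_zero a)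
    have hle := dual_weight_le_ten H e hli hH2 a
    by_cases ha : H.w a = 10
    · have hu0 : IsLevelOne 0 u := hu.cast (by rw [ha]; norm_num)
      obtain ⟨c, hc⟩ := hu0.const_of_zero
      refine ⟨c, fun h => absurd ha h, fun z => ?_⟩
      rw [hta, hc]
      rfl
    · have hu0 : u = 0 := hu.eq_zero_of_neg (by omega)
      refine ⟨0, fun _ => rfl, fun z => ?_⟩
      rw [hta, hu0]
      simp
  choose c hc0 hct using hconst
  refine ⟨c, hc0, fun z => ?_⟩
  have hdet := dual_det_ne_zero H e hli z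
  have hinv : (dualM H e z)⁻¹ * dualM H e z = 1 := Matrix.nonsing_inv_mul _ (Ne.isUnit hdet)
  calc f z = ev N 2 (⇑f) z (QuotientGroup.mk 1) := (ev_one hFinv z).symm
    _ = ∑ b, ev N 2 (⇑f) z (e b) * (if e.symm (QuotientGroup.mk 1) = b then 1 else 0) := by
        simp
    _ = ∑ b, ev N 2 (⇑f) z (e b) *
          ∑ a, (dualM H e z)⁻¹ (e.symm (QuotientGroup.mk 1)) a * dualM H e z a b := by
        refine Finset.sum_congr rfl fun b _ => ?_
        rw [← Matrix.mul_apply, hinv, Matrix.one_apply]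
    _ = ∑ a, (dualM H e z)⁻¹ (e.symm (QuotientGroup.mk 1)) a * t a z := by
        simp only [Finset.mul_sum, t]
        rw [Finset.sum_comm]
        exact Finset.sum_congr rfl fun a _ => Finset.sum_congr rfl fun b _ => by ring
    _ = ∑ a, c a * dualF H e a z := by
        refine Finset.sum_congr rfl fun a _ => ?_
        rw [hct a z]
        unfold dualF
        ring

theorem dual_sum_subtype {ι : Type*} [Fintype ι] (p : ι → Prop) [DecidablePred p] (F : ι → ℂ)
    (hF : ∀ a, ¬ p a → F a = 0) : ∑ a, F a = ∑ i : {a // p a}, F i.1 := by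
  rw [← Finset.sum_subtype (Finset.univ.filter p) (by simp) F]
  exact (Finset.sum_filter_of_ne fun a _ hne => by_contra fun hp => hne (hF a hp)).symm

/-- **the dimension of the space of cusp forms of weight two** (core form) -/
theorem dual_finrank_cuspForm_two
    (hli : ∀ z : ℍ, LinearIndependent ℂ (fun a : H.ι => ev N (H.w a) (H.B a) z))
    (hH2 : Tendsto (fun z : ℍ => discriminant z • (dualM H e z)⁻¹) atImInfty (nhds 0)) :
    Module.finrank ℂ (CuspForm (Gamma0 N) 2) = Fintype.card {a : H.ι // H.w a = 10} := by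
  classical
  let L : CuspForm (Gamma0 N) 2 →ₗ[ℂ] (ℍ → ℂ) :=
    { toFun := fun f => ⇑f
      map_add' := fun _ _ => rfl
      map_smul' := fun _ _ => rfl }
  have hLinj : Function.Injective L := fun f g h => DFunLike.coe_injective h
  let v : {a : H.ι // H.w a = 10} → (ℍ → ℂ) := fun a => dualF H e a.1
  have hv : LinearIndependent ℂ v := by
    rw [Fintype.linearIndependent_iff]
    intro g hg i
    let c : H.ι → ℂ := fun a => if h : H.w a = 10 then g ⟨a, h⟩ else 0
    have hc : ∀ a, H.w a ≠ 10 → c a = 0 := fun a ha => dif_neg ha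
    have hci : ∀ i : {a : H.ι // H.w a = 10}, c i.1 = g i := fun i => dif_pos i.2
    have hsum : ∀ z, ∑ a, c a * dualF H e a z = 0 := by
      intro z
      have h1 : ∑ i, (g i • v i) z = 0 := by
        rw [← Finset.sum_apply, hg]
        rfl
      rw [dual_sum_subtype (fun a => H.w a = 10) (fun a => c a * dualF H e a z)
        (fun a ha => by rw [hc a ha, zero_mul]), ← h1]
      refine Finset.sum_congr rfl fun i _ => ?_
      rw [hci i]
      rfl
    have h0 := dual_indep_aux H e hli c hc hsum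
    rw [← hci i, h0]
    rfl
  have hrange : LinearMap.range L = Submodule.span ℂ (Set.range v) := by
    apply le_antisymm
    · rintro _ ⟨f, rfl⟩
      obtain ⟨c, hc0, hcf⟩ := dual_span_aux H e hli hH2 f
      have h1 : L f = ∑ i : {a : H.ι // H.w a = 10}, c i.1 • v i := by
        funext z
        rw [Finset.sum_apply]
        show f z = _
        rw [hcf z, dual_sum_subtype (fun a => H.w a = 10) (fun a => c a * dualF H e a z)
          (fun a ha => by rw [hc0 a ha, zero_mul])]
        rfl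
      rw [h1]
      exact Submodule.sum_mem _ fun i _ =>
        Submodule.smul_mem _ _ (Submodule.subset_span ⟨i, rfl⟩)
    · rw [Submodule.span_le]
      rintro _ ⟨i, rfl⟩
      have h1 := dualF_isCuspF H e hli hH2 i.1
      have h2 : (12 : ℤ) - H.w i.1 = 2 := by
        rw [i.2]
        norm_num
      rw [h2] at h1
      obtain ⟨f, hf⟩ := h1
      exact ⟨f, hf⟩
  rw [← LinearMap.finrank_range_of_inj hLinj, hrange, finrank_span_eq_card hv]

end Core

end Fermat.Agent.S20
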