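import Mathlib
import Fermat.Agent.S20.DualCore
import Fermat.Agent.S20.CuspDefs
import Fermat.Agent.S20.LevelOne

/-!
Module H2 (D2) of the S20/S21 project, core part: `Δ(z) • (M z)⁻¹ → 0` at `i∞`, where
`M z = [ev (B_a) z (e b)]` is the matrix of conjugates of a homogeneous basis.

With the twisted matrix `G z = M z * (E z)ᵀ` (rows `cuspG`), one has
`Δ(z) • (M z)⁻¹ = (Δ(z) • (E z)ᵀ) * (G z)⁻¹`; the first factor tends to `0` by the growth bound
of the twist, the second one tends to the inverse of the (invertible) limit matrix.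

The inputs from the other modules (linear independence of the value vectors, convergence of
`cuspG`, linear independence of the limits) are hypotheses here.
-/

set_option autoImplicit false
set_option linter.unusedSectionVars false

open UpperHalfPlane ModularForm CongruenceSubgroup Filter
open scoped MatrixGroups Manifold

namespace Fermat.Agent.S20

theorem cinv_tendsto_matrix {α : Type*} {l : Filter α} {n : Type*} (F : α → Matrix n n ℂ)
    (A : Matrix n n ℂ) (h : ∀ i j, Tendsto (fun x => F x i j) l (nhds (A i j))) :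
    Tendsto F l (nhds A) :=
  tendsto_pi_nhds.mpr fun i => tendsto_pi_nhds.mpr fun j => h i j

theorem cinv_tendsto_im : Tendsto (fun z : ℍ => z.im) atImInfty atTop := tendsto_comap

section Core

attribute [local instance] Classical.propDecidable

variable {N : ℕ} [NeZero N] (H : HomBasis N) [Fintype H.ι] [DecidableEq H.ι] (e : H.ι ≃ Q N)

/-- the matrix of the twist `E(z)` in the basis of the cosets, indexed through `e` -/
noncomputable def cinvE (z : ℂ) : Matrix H.ι H.ι ℂ :=
  Matrix.of fun b b2 => twE (cuspTau N) N z (Pi.single (e b2) (1 : ℂ)) (e b)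

/-- the twisted matrix, with rows `cuspG` -/
noncomputable def cinvG (z : ℍ) : Matrix H.ι H.ι ℂ :=
  Matrix.of fun a b => cuspG N (H.w a) (H.B a) z (e b)

/-- the limit matrix, with rows `cuspLim` -/
noncomputable def cinvL : Matrix H.ι H.ι ℂ :=
  Matrix.of fun a b => cuspLim N (H.w a) (H.B a) (e b)

theorem cinv_twE_apply (z : ℂ) (v : Q N → ℂ) (b : H.ι) :
    twE (cuspTau N) N z v (e b) = ∑ b2, cinvE H e z b b2 * v (e b2) := by
  have hv : v = ∑ b2, v (e b2) • (Pi.single (e b2) (1 : ℂ) : Q N → ℂ) := by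
    funext y
    rw [Finset.sum_apply, Finset.sum_eq_single (e.symm y)]
    · simp
    · intro b2 _ hb2
      have h1 : y ≠ e b2 := fun h => hb2 (by rw [h, Equiv.symm_apply_apply])
      simp [h1]
    · intro h
      exact absurd (Finset.mem_univ _) h
  conv_lhs => rw [hv]
  rw [map_sum, Finset.sum_apply]
  refine Finset.sum_congr rfl fun b2 _ => ?_
  rw [map_smul, Pi.smul_apply, smul_eq_mul, mul_comm]
  rfl

theorem cinvE_apply (z : ℂ) (b b2 : H.ι) :
    cinvE H e z b b2 = twE (cuspTau N) N z (Pi.single (e b2) (1 : ℂ)) (e b) := rfl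

theorem cinvG_eq (z : ℍ) : cinvG H e z = dualM H e z * (cinvE H e (z : ℂ)).transpose := by
  ext a b
  rw [Matrix.mul_apply]
  show twE (cuspTau N) N (z : ℂ) (ev N (H.w a) (H.B a) z) (e b) = _
  rw [cinv_twE_apply H e]
  refine Finset.sum_congr rfl fun b2 _ => ?_
  rw [Matrix.transpose_apply, dualM_apply, mul_comm]

theorem cinv_norm_single_le (y y' : Q N) : ‖(Pi.single y (1 : ℂ) : Q N → ℂ) y'‖ ≤ 1 := by
  by_cases h : y' = y
  · subst h
    simp
  · simp [h]

/-- `Δ(z) • E(z)ᵀ → 0` at `i∞` -/
theorem cinv_tendsto_smul_E :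
    Tendsto (fun z : ℍ => discriminant z • (cinvE H e (z : ℂ)).transpose) atImInfty (nhds 0) := by
  obtain ⟨c, C, _, hb⟩ := exists_discriminant_bounds
  have hN : (0 : ℝ) < N := Nat.cast_pos.mpr (Nat.pos_of_ne_zero (NeZero.ne N))
  refine cinv_tendsto_matrix _ _ fun b2 b => ?_
  have hlim : Tendsto (fun z : ℍ => C * N * Real.exp (-(2 * Real.pi * z.im / N))) atImInfty
      (nhds 0) := by
    have h1 : Tendsto (fun z : ℍ => 2 * Real.pi * z.im / N) atImInfty atTop := by
      have h2 : (fun z : ℍ => 2 * Real.pi * z.im / N) = fun z : ℍ => (2 * Real.pi / N) * z.im := by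
        funext z
        ring
      rw [h2]
      exact cinv_tendsto_im.const_mul_atTop (by positivity)
    have h3 := (Real.tendsto_exp_neg_atTop_nhds_zero.comp h1).const_mul (C * N)
    simpa using h3
  refine squeeze_zero_norm' ?_ hlim
  filter_upwards [hb] with z hz
  have hE := twE_norm_le (cuspTau N) N (z : ℂ) z.im_pos.le (Pi.single (e b2) (1 : ℂ)) 1
    (cinv_norm_single_le (e b2)) (e b)
  have hE' : ‖cinvE H e (z : ℂ) b b2‖ ≤
      N * (Real.exp (2 * Real.pi * z.im) * Real.exp (-(2 * Real.pi * z.im / N))) := by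
    have h4 : ((z : ℂ)).im = z.im := rfl
    rw [h4, mul_one] at hE
    exact hE
  show ‖discriminant z * (cinvE H e (z : ℂ)).transpose b2 b‖ ≤ _
  rw [Matrix.transpose_apply, norm_mul]
  have h5 : Real.exp (-2 * Real.pi * z.im) * Real.exp (2 * Real.pi * z.im) = 1 := by
    rw [← Real.exp_add]
    simp
  have hC0 : 0 ≤ C := by
    have h6 := (norm_nonneg _).trans hz.2
    exact nonneg_of_mul_nonneg_left h6 (Real.exp_pos _)
  calc ‖discriminant z‖ * ‖cinvE H e (z : ℂ) b b2‖
      ≤ (C * Real.exp (-2 * Real.pi * z.im)) *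
          (N * (Real.exp (2 * Real.pi * z.im) * Real.exp (-(2 * Real.pi * z.im / N)))) :=
        mul_le_mul hz.2 hE' (norm_nonneg _) (mul_nonneg hC0 (Real.exp_pos _).le)
    _ = C * N * Real.exp (-(2 * Real.pi * z.im / N)) := by
        linear_combination (C * N * Real.exp (-(2 * Real.pi * z.im / N))) * h5

/-- **`Δ(z) • (M z)⁻¹ → 0` at `i∞`** (core form) -/
theorem cinv_tendsto_discriminant_smul_inv
    (hli : ∀ z : ℍ, LinearIndependent ℂ (fun a : H.ι => ev N (H.w a) (H.B a) z))
    (hA : ∀ a : H.ι, Tendsto (cuspG N (H.w a) (H.B a)) atImInfty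
      (nhds (cuspLim N (H.w a) (H.B a))))
    (hC : LinearIndependent ℂ (fun a : H.ι => cuspLim N (H.w a) (H.B a))) :
    Tendsto (fun z : ℍ => discriminant z • (dualM H e z)⁻¹) atImInfty (nhds 0) := by
  have hLdet : (cinvL H e).det ≠ 0 := by
    have h1 : LinearIndependent ℂ (cinvL H e).row :=
      hC.map' (LinearEquiv.funCongrLeft ℂ ℂ e).toLinearMap (LinearEquiv.ker _)
    exact ((Matrix.isUnit_iff_isUnit_det _).mp
      (Matrix.linearIndependent_rows_iff_isUnit.mp h1)).ne_zero
  have hG : Tendsto (cinvG H e) atImInfty (nhds (cinvL H e)) :=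
    cinv_tendsto_matrix _ _ fun a b => (tendsto_pi_nhds.mp (hA a)) (e b)
  have hGinv : Tendsto (fun z => (cinvG H e z)⁻¹) atImInfty (nhds (cinvL H e)⁻¹) := by
    have hc : ContinuousAt Inv.inv (cinvL H e) :=
      continuousAt_matrix_inv _ (NormedRing.inverse_continuousAt (Units.mk0 _ hLdet))
    exact hc.tendsto.comp hG
  have hGdet : ∀ᶠ z in atImInfty, (cinvG H e z).det ≠ 0 := by
    have h1 : Tendsto (fun z => (cinvG H e z).det) atImInfty (nhds (cinvL H e).det) :=
      ((Continuous.matrix_det continuous_id).tendsto (cinvL H e)).comp hG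
    exact h1.eventually_ne hLdet
  have hprod := (cinv_tendsto_smul_E H e).mul hGinv
  rw [zero_mul] at hprod
  refine hprod.congr' ?_
  filter_upwards [hGdet] with z hz
  have hM := dual_det_ne_zero H e hli z
  have h1 : (dualM H e z)⁻¹ * cinvG H e z = (cinvE H e (z : ℂ)).transpose := by
    rw [cinvG_eq, ← Matrix.mul_assoc, Matrix.nonsing_inv_mul _ (Ne.isUnit hM), Matrix.one_mul]
  have h2 : (cinvE H e (z : ℂ)).transpose * (cinvG H e z)⁻¹ = (dualM H e z)⁻¹ := by
    rw [← h1, Matrix.mul_assoc, Matrix.mul_nonsing_inv _ (Ne.isUnit hz), Matrix.mul_one]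
  show discriminant z • (cinvE H e (z : ℂ)).transpose * (cinvG H e z)⁻¹ =
    discriminant z • (dualM H e z)⁻¹
  rw [Matrix.smul_mul, h2]

end Core

end Fermat.Agent.S20
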