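import Mathlib
import Fermat.Agent.S20.Forms
import Fermat.Agent.S20.LevelOne

/-!
Leaf lemmas for the cusp analysis (module H2 of the S20/S21 project).

* `isLevelOne_eq_const_mul_discriminant_pow`: a level one modular form without zeros on `ℍ` is
  `c * Δ ^ m`.
* `exists_tendsto_of_periodic`: a `1`-periodic holomorphic function `g` on `ℍ` with
  `g z * exp (2 π i z) → 0` at `i∞` has a limit at `i∞`; if the limit is zero then
  `g z / exp (2 π i z)` is bounded at `i∞`.
-/

set_option autoImplicit false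

open UpperHalfPlane ModularForm CongruenceSubgroup Filter
open scoped MatrixGroups Manifold Real

namespace Fermat.Agent.S20

/-- the inverse of a level one form without zeros whose limit at `i∞` is nonzero -/
theorem aux13_isLevelOne_inv {k : ℤ} {p : ℍ → ℂ} (hp : IsLevelOne k p) (hnz : ∀ z, p z ≠ 0)
    {l : ℂ} (hl : l ≠ 0) (hlim : Tendsto p atImInfty (nhds l)) :
    IsLevelOne (-k) (fun z => (p z)⁻¹) := by
  refine isLevelOne_of ?_ ?_ ?_
  · intro z
    rw [UpperHalfPlane.mdifferentiableAt_iff]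
    have h1 := UpperHalfPlane.mdifferentiableAt_iff.mp (hp.mdiff z)
    have h2 : ((fun z => (p z)⁻¹) ∘ ofComplex) = fun w => ((p ∘ ofComplex) w)⁻¹ := rfl
    rw [h2]
    refine h1.inv ?_
    simp only [Function.comp_apply, ofComplex_apply]
    exact hnz z
  · intro γ
    funext z
    have h := congrFun (hp.slash_eq γ) z
    rw [ModularForm.SL_slash_apply] at h
    rw [ModularForm.SL_slash_apply, neg_neg]
    rw [← h, mul_inv, ← zpow_neg, neg_neg]
  · exact (hlim.inv₀ hl).isBigO_one ℝ

theorem aux13_levelOne_nonvanishing (n : ℕ) : ∀ (k : ℤ), k ≤ n → ∀ p : ℍ → ℂ, IsLevelOne k p →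
    (∀ z, p z ≠ 0) →
    ∃ (m : ℕ) (c : ℂ), c ≠ 0 ∧ k = 12 * (m : ℤ) ∧ p = fun z => c * discriminant z ^ m := by
  -- the case of a nonzero limit at `i∞`
  have key : ∀ (k : ℤ) (p : ℍ → ℂ), IsLevelOne k p → (∀ z, p z ≠ 0) → ∀ l : ℂ, l ≠ 0 →
      Tendsto p atImInfty (nhds l) →
      ∃ (m : ℕ) (c : ℂ), c ≠ 0 ∧ k = 12 * (m : ℤ) ∧ p = fun z => c * discriminant z ^ m := by
    intro k p hp hnz l hl hlim
    have hinv := aux13_isLevelOne_inv hp hnz hl hlim
    have hk : k = 0 := by
      rcases lt_trichotomy k 0 with h | h | h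
      · exact absurd (congrFun (hp.eq_zero_of_neg h) UpperHalfPlane.I) (hnz _)
      · exact h
      · have h0 := congrFun (hinv.eq_zero_of_neg (by omega)) UpperHalfPlane.I
        exact absurd h0 (inv_ne_zero (hnz _))
    subst hk
    obtain ⟨c, hc⟩ := hp.const_of_zero
    refine ⟨0, c, ?_, by simp, ?_⟩
    · intro h0
      exact hnz UpperHalfPlane.I (by rw [hc, h0])
    · rw [hc]; funext z; simp
  induction n with
  | zero =>
    intro k hk p hp hnz
    obtain ⟨l, hlim⟩ := lvl_exists_tendsto hp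
    by_cases hl : l = 0
    · subst hl
      obtain ⟨q, hq, hpq⟩ := lvl_exists_eq_disc_mul hp hlim
      have hq0 : q = 0 := hq.eq_zero_of_neg (by push_cast at hk; omega)
      exact absurd (by rw [hpq, hq0]; simp) (hnz UpperHalfPlane.I)
    · exact key k p hp hnz l hl hlim
  | succ n ih =>
    intro k hk p hp hnz
    obtain ⟨l, hlim⟩ := lvl_exists_tendsto hp
    by_cases hl : l = 0
    · subst hl
      obtain ⟨q, hq, hpq⟩ := lvl_exists_eq_disc_mul hp hlim
      have hqnz : ∀ z, q z ≠ 0 := by
        intro z hz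
        exact hnz z (by rw [hpq, Pi.mul_apply, hz, mul_zero])
      obtain ⟨m, c, hc, hkm, hqm⟩ := ih (k - 12) (by push_cast at hk; omega) q hq hqnz
      refine ⟨m + 1, c, hc, by push_cast; omega, ?_⟩
      rw [hpq, hqm]
      funext z
      rw [Pi.mul_apply]
      ring
    · exact key k p hp hnz l hl hlim

/-- A level one modular form without zeros on the upper half plane is `c * Δ ^ m`. -/
theorem isLevelOne_eq_const_mul_discriminant_pow {k : ℤ} {p : ℍ → ℂ} (hp : IsLevelOne k p)
    (hnz : ∀ z, p z ≠ 0) :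
    ∃ (m : ℕ) (c : ℂ), c ≠ 0 ∧ k = 12 * (m : ℤ) ∧ p = fun z => c * discriminant z ^ m := by
  rcases lt_or_ge k 0 with h | h
  · exact absurd (congrFun (hp.eq_zero_of_neg h) UpperHalfPlane.I) (hnz _)
  · exact aux13_levelOne_nonvanishing k.toNat k (by omega) p hp hnz

/-! ### periodic functions: removable singularity at `i∞` -/

theorem aux13_periodic_comp_ofComplex {g : ℍ → ℂ} (hper : ∀ z : ℍ, g ((1 : ℝ) +ᵥ z) = g z) :
    Function.Periodic (g ∘ ofComplex) ((1 : ℝ) : ℂ) := by
  intro w
  by_cases hw : 0 < w.im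
  · have hw' : 0 < (w + ((1 : ℝ) : ℂ)).im := by simpa using hw
    simp only [Function.comp_apply, ofComplex_apply_of_im_pos hw', ofComplex_apply_of_im_pos hw]
    rw [← hper ⟨w, hw⟩]
    congr 1
    ext
    simp [add_comm]
  · have hw0 : w.im ≤ 0 := not_lt.mp hw
    have hw' : (w + ((1 : ℝ) : ℂ)).im ≤ 0 := by simpa using hw0
    show g (ofComplex (w + ((1 : ℝ) : ℂ))) = g (ofComplex w)
    rw [ofComplex_apply_of_im_nonpos hw', ofComplex_apply_of_im_nonpos hw0]

theorem aux13_eventually_im_pos : ∀ᶠ w : ℂ in comap Complex.im atTop, 0 < w.im :=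
  tendsto_comap.eventually (eventually_gt_atTop 0)

theorem aux13_eventually_differentiableAt {g : ℍ → ℂ} (hg : MDiff g) :
    ∀ᶠ w : ℂ in comap Complex.im atTop, DifferentiableAt ℂ (g ∘ ofComplex) w := by
  filter_upwards [aux13_eventually_im_pos] with w hw
  exact UpperHalfPlane.mdifferentiableAt_iff.mp (hg ⟨w, hw⟩)

/-- A `1`-periodic holomorphic function `g` on `ℍ` with `g z * exp (2 π i z) → 0` at `i∞` has a
limit at `i∞`. -/
theorem aux13_exists_tendsto {g : ℍ → ℂ} (hg : MDiff g)
    (hper : ∀ z : ℍ, g ((1 : ℝ) +ᵥ z) = g z)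
    (h0 : Tendsto (fun z : ℍ => g z * Complex.exp (2 * π * Complex.I * z)) atImInfty (nhds 0)) :
    ∃ l : ℂ, Tendsto g atImInfty (nhds l) := by
  set f : ℂ → ℂ := g ∘ ofComplex with hf_def
  have hf : Function.Periodic f ((1 : ℝ) : ℂ) := aux13_periodic_comp_ofComplex hper
  have hfhol : ∀ᶠ w : ℂ in comap Complex.im atTop, DifferentiableAt ℂ f w :=
    aux13_eventually_differentiableAt hg
  set H : ℂ → ℂ := fun w => f w * Function.Periodic.qParam 1 w with hH_def
  have hq : ∀ w : ℂ, Function.Periodic.qParam 1 w = Complex.exp (2 * π * Complex.I * w) := by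
    intro w
    simp [Function.Periodic.qParam]
  have hH : Function.Periodic H ((1 : ℝ) : ℂ) := by
    intro w
    simp only [hH_def]
    rw [hf w, hq, hq]
    congr 1
    rw [mul_add, Complex.exp_add]
    simp [Complex.exp_two_pi_mul_I]
  have hHhol : ∀ᶠ w : ℂ in comap Complex.im atTop, DifferentiableAt ℂ H w := by
    filter_upwards [hfhol] with w hw
    exact hw.mul (Function.Periodic.differentiable_qParam).differentiableAt
  have hHzero : ZeroAtFilter (comap Complex.im atTop) H := by
    have h1 := h0.comp tendsto_comap_im_ofComplex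
    refine h1.congr' ?_
    filter_upwards [aux13_eventually_im_pos] with w hw
    simp only [Function.comp_apply, hH_def, hf_def, hq]
    rw [ofComplex_apply_of_im_pos hw]
  have hdecay := Function.Periodic.exp_decay_of_zero_at_inf one_pos hH hHhol hHzero
  have hfbdd : BoundedAtFilter (comap Complex.im atTop) f := by
    obtain ⟨C, hC⟩ := hdecay.bound
    refine Asymptotics.IsBigO.of_bound C ?_
    filter_upwards [hC] with w hw
    have hqn : ‖Function.Periodic.qParam 1 w‖ = Real.exp (-2 * π * w.im / 1) :=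
      Function.Periodic.norm_qParam 1 w
    have hpos : 0 < Real.exp (-2 * π * w.im / 1) := Real.exp_pos _
    simp only [hH_def, norm_mul, hqn, Real.norm_eq_abs, abs_of_pos hpos] at hw
    simp only [Pi.one_apply, norm_one, mul_one]
    exact le_of_mul_le_mul_right hw hpos
  have hlim := Function.Periodic.tendsto_at_I_inf one_pos hf hfhol hfbdd
  refine ⟨_, (hlim.comp tendsto_coe_atImInfty).congr ?_⟩
  intro z
  simp [hf_def]

/-- A `1`-periodic holomorphic function on `ℍ` tending to zero at `i∞` is `O(exp (2 π i z))`. -/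
theorem aux13_isBoundedAtImInfty_div {g : ℍ → ℂ} (hg : MDiff g)
    (hper : ∀ z : ℍ, g ((1 : ℝ) +ᵥ z) = g z) (h0 : Tendsto g atImInfty (nhds 0)) :
    IsBoundedAtImInfty (fun z : ℍ => g z / Complex.exp (2 * π * Complex.I * z)) := by
  have hE : MDiff (fun z : ℍ => Complex.exp (2 * π * Complex.I * z)) := by
    intro z
    rw [UpperHalfPlane.mdifferentiableAt_iff]
    have h1 : DifferentiableAt ℂ (fun w : ℂ => Complex.exp (2 * π * Complex.I * w)) (z : ℂ) := by
      fun_prop
    refine h1.congr_of_eventuallyEq ?_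
    have hz : {w : ℂ | 0 < w.im} ∈ nhds (z : ℂ) :=
      (isOpen_lt continuous_const Complex.continuous_im).mem_nhds z.im_pos
    filter_upwards [hz] with w hw
    simp only [Function.comp_apply]
    rw [ofComplex_apply_of_im_pos hw]
  have hg1 : MDiff (fun z : ℍ => g z / Complex.exp (2 * π * Complex.I * z)) := by
    intro z
    rw [UpperHalfPlane.mdifferentiableAt_iff]
    have h1 := UpperHalfPlane.mdifferentiableAt_iff.mp (hg z)
    have h2 := UpperHalfPlane.mdifferentiableAt_iff.mp (hE z)
    have h3 := h1.div h2 (by simp [Complex.exp_ne_zero])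
    exact h3
  have hper1 : ∀ z : ℍ, (fun z : ℍ => g z / Complex.exp (2 * π * Complex.I * z)) ((1 : ℝ) +ᵥ z) =
      (fun z : ℍ => g z / Complex.exp (2 * π * Complex.I * z)) z := by
    intro z
    show g ((1 : ℝ) +ᵥ z) / Complex.exp (2 * π * Complex.I * ((1 : ℝ) +ᵥ z : ℍ)) =
      g z / Complex.exp (2 * π * Complex.I * z)
    rw [hper z]
    congr 1
    rw [UpperHalfPlane.coe_vadd, mul_add, Complex.exp_add]
    simp [Complex.exp_two_pi_mul_I]
  obtain ⟨l, hl⟩ := aux13_exists_tendsto hg1 hper1 (by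
    refine h0.congr ?_
    intro z
    show g z = g z / Complex.exp (2 * π * Complex.I * z) * Complex.exp (2 * π * Complex.I * z)
    rw [div_mul_cancel₀ _ (Complex.exp_ne_zero _)])
  exact hl.isBigO_one ℝ

/-- A `1`-periodic holomorphic function `g` on `ℍ` with `g z * exp (2 π i z) → 0` at `i∞` has a
limit at `i∞`; if the limit is zero then `g z / exp (2 π i z)` is bounded at `i∞`. -/
theorem exists_tendsto_of_periodic {g : ℍ → ℂ} (hg : MDiff g)
    (hper : ∀ z : ℍ, g ((1 : ℝ) +ᵥ z) = g z)
    (h0 : Tendsto (fun z : ℍ => g z * Complex.exp (2 * π * Complex.I * z)) atImInfty (nhds 0)) :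
    ∃ l : ℂ, Tendsto g atImInfty (nhds l) ∧
      (l = 0 → IsBoundedAtImInfty (fun z : ℍ => g z / Complex.exp (2 * π * Complex.I * z))) := by
  obtain ⟨l, hl⟩ := aux13_exists_tendsto hg hper h0
  refine ⟨l, hl, ?_⟩
  intro h
  subst h
  exact aux13_isBoundedAtImInfty_div hg hper hl

end Fermat.Agent.S20
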