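import Fermat.Agent.S20.CuspDefs
import Fermat.Agent.S20.CuspAux
import Fermat.Agent.S20.LevelOne
import Fermat.Agent.S20.Division

/-!
# S20, module H2 (parts A, B): the limit at `i∞` of the twisted vector of conjugates

For a modular form `F` on `Gamma0 N` the twisted vector `cuspG N k F z = E(z) (ev_z F)` is
`1`-periodic, holomorphic and `o(1/q)`, hence has a limit `cuspLim N k F` at `i∞`.  The limit is
additive, compatible with multiplication by level one forms, and if it vanishes then `F` is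
divisible by the discriminant.
-/

set_option autoImplicit false

open UpperHalfPlane ModularForm CongruenceSubgroup Filter
open scoped MatrixGroups Manifold Real

namespace Fermat.Agent.S20

theorem cusp_finite (N : ℕ) [NeZero N] : Finite (Q N) :=
  Subgroup.finite_quotient_of_finiteIndex

theorem cuspTau_pow (N : ℕ) [NeZero N] : cuspTau N ^ N = 1 := by
  unfold cuspTau
  have h : (MulAction.toPerm ModularGroup.T : Equiv.Perm (Q N)) ^ N =
      MulAction.toPerm (ModularGroup.T ^ N) :=
    (map_pow (MulAction.toPermHom SL(2, ℤ) (Q N)) ModularGroup.T N).symm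
  rw [h]
  ext q
  induction q using QuotientGroup.induction_on with
  | H g =>
    show ((ModularGroup.T ^ N) • (QuotientGroup.mk g : Q N)) = QuotientGroup.mk g
    have h1 : (ModularGroup.T ^ N) • (QuotientGroup.mk g : Q N) =
        QuotientGroup.mk (ModularGroup.T ^ N * g) := rfl
    rw [h1, QuotientGroup.eq]
    have h2 : ModularGroup.T ^ (N : ℤ) ∈ Gamma N := by
      rw [Gamma_mem, ModularGroup.coe_T_zpow]
      simp
    rw [zpow_natCast] at h2
    have h3 := (Gamma_normal N).conj_mem _ (inv_mem h2) g⁻¹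
    have h4 : (ModularGroup.T ^ N * g)⁻¹ * g = g⁻¹ * (ModularGroup.T ^ N)⁻¹ * g⁻¹⁻¹ := by
      group
    rw [h4]
    rw [Gamma_mem] at h3
    rw [Gamma0_mem]
    exact h3.2.2.1

theorem cusp_mdiff_of_differentiable {f : ℂ → ℂ} (hf : Differentiable ℂ f) :
    MDiff (fun z : ℍ => f (z : ℂ)) := by
  intro z
  rw [UpperHalfPlane.mdifferentiableAt_iff]
  refine (hf (z : ℂ)).congr_of_eventuallyEq ?_
  have hz : {w : ℂ | 0 < w.im} ∈ nhds (z : ℂ) :=
    (isOpen_lt continuous_const Complex.continuous_im).mem_nhds z.im_pos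
  filter_upwards [hz] with w hw
  simp only [Function.comp_apply]
  rw [ofComplex_apply_of_im_pos hw]

set_option backward.isDefEq.respectTransparency false in
theorem cusp_denom_T (z : ℍ) : denom ModularGroup.T z = 1 := by
  simp [ModularGroup.T, ModularGroup.denom_apply]

/-- the values of the conjugates at `z + 1` -/
theorem cusp_ev_vadd {N : ℕ} {k : ℤ} {F : ℍ → ℂ} (hF : ∀ γ ∈ Gamma0 N, F ∣[k] γ = F) (z : ℍ) :
    ev N k F ((1 : ℝ) +ᵥ z) = twR (cuspTau N) (ev N k F z) := by
  funext q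
  rw [← UpperHalfPlane.modular_T_smul, ev_smul hF, twR_apply]
  rw [cusp_denom_T, one_zpow, one_mul]
  rfl

theorem cuspG_vadd {N : ℕ} [NeZero N] {k : ℤ} {F : ℍ → ℂ} (hF : ∀ γ ∈ Gamma0 N, F ∣[k] γ = F)
    (z : ℍ) : cuspG N k F ((1 : ℝ) +ᵥ z) = cuspG N k F z := by
  unfold cuspG
  rw [cusp_ev_vadd hF, UpperHalfPlane.coe_vadd]
  have h : (((1 : ℝ) : ℂ) + (z : ℂ)) = (z : ℂ) + 1 := by
    push_cast
    ring
  rw [h]
  exact twE_add_one_apply (cuspTau N) N (cuspTau_pow N) (z : ℂ) (ev N k F z)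

theorem cuspG_eq_sum (N : ℕ) [Fintype (Q N)] [DecidableEq (Q N)] (k : ℤ) (F : ℍ → ℂ) (z : ℍ)
    (q : Q N) :
    cuspG N k F z q = ∑ q' : Q N, ev N k F z q' *
      twE (cuspTau N) N (z : ℂ) (fun j => if q' = j then 1 else 0) q := by
  unfold cuspG
  rw [LinearMap.pi_apply_eq_sum_univ (twE (cuspTau N) N (z : ℂ)) (ev N k F z), Finset.sum_apply]
  rfl

theorem cuspG_mdiff {N : ℕ} [NeZero N] {k : ℤ} {F : ℍ → ℂ} (hF : MDiff F) (q : Q N) :
    MDiff (fun z => cuspG N k F z q) := by
  classical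
  have hfin := cusp_finite N
  let _ : Fintype (Q N) := Fintype.ofFinite _
  have h : (fun z => cuspG N k F z q) = ∑ q' : Q N, (fun z => ev N k F z q') *
      (fun z : ℍ => twE (cuspTau N) N (z : ℂ) (fun j => if q' = j then 1 else 0) q) := by
    funext z
    rw [Finset.sum_apply]
    exact cuspG_eq_sum N k F z q
  rw [h]
  refine Fermat.Agent.S23.SymAux.mdiff_finsetSum _ fun q' _ => ?_
  exact (ev_mdiff hF q').mul
    (cusp_mdiff_of_differentiable (twE_differentiable (cuspTau N) N _ q))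

theorem cusp_exists_bound {X : Type*} [Finite X] (f : X → ℍ → ℂ)
    (hf : ∀ x, IsBoundedAtImInfty (f x)) :
    ∃ B A : ℝ, ∀ z : ℍ, A ≤ z.im → ∀ x, ‖f x z‖ ≤ B := by
  classical
  have hfin := Fintype.ofFinite X
  choose M A h using fun x => (UpperHalfPlane.isBoundedAtImInfty_iff.mp (hf x))
  refine ⟨∑ x, |M x|, ∑ x, |A x|, fun z hz x => ?_⟩
  have h1 : A x ≤ z.im := le_trans (le_trans (le_abs_self _)
    (Finset.single_le_sum (fun i _ => abs_nonneg (A i)) (Finset.mem_univ x))) hz
  exact le_trans (h x z h1) (le_trans (le_abs_self _)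
    (Finset.single_le_sum (fun i _ => abs_nonneg (M i)) (Finset.mem_univ x)))

theorem cusp_tendsto_exp_im (c : ℝ) (N : ℕ) [NeZero N] :
    Tendsto (fun z : ℍ => c * Real.exp (-(2 * π * z.im / N))) atImInfty (nhds 0) := by
  have hN : (0 : ℝ) < N := Nat.cast_pos.mpr (Nat.pos_of_ne_zero (NeZero.ne N))
  have h1 : Tendsto (fun t : ℝ => c * Real.exp (-(2 * π * t / N))) atTop (nhds 0) := by
    have h2 : Tendsto (fun t : ℝ => -(2 * π * t / N)) atTop atBot := by
      have hc : 0 < 2 * π / N := by positivity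
      have h3 := tendsto_neg_atTop_atBot.comp (tendsto_id.const_mul_atTop hc)
      refine h3.congr fun t => ?_
      simp only [Function.comp_apply, id]
      ring
    have h4 := (Real.tendsto_exp_atBot.comp h2).const_mul c
    simpa using h4
  have him : Tendsto UpperHalfPlane.im atImInfty atTop := tendsto_comap
  exact h1.comp him

theorem cusp_norm_exp (z : ℍ) :
    ‖Complex.exp (2 * π * Complex.I * z)‖ = Real.exp (-(2 * π * z.im)) := by
  rw [Complex.norm_exp]
  congr 1
  have h : 2 * (π : ℂ) * Complex.I * z = ((2 * π : ℝ) : ℂ) * (Complex.I * z) := by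
    push_cast
    ring
  rw [h, Complex.re_ofReal_mul, Complex.I_mul_re, UpperHalfPlane.coe_im]
  ring

theorem cusp_exists_tendsto {N : ℕ} [NeZero N] {k : ℤ} {F : ℍ → ℂ} (hF : IsForm N k F)
    (q : Q N) :
    ∃ l : ℂ, Tendsto (fun z => cuspG N k F z q) atImInfty (nhds l) ∧
      (l = 0 → IsBoundedAtImInfty
        (fun z : ℍ => cuspG N k F z q / Complex.exp (2 * π * Complex.I * z))) := by
  have hfin := cusp_finite N
  refine exists_tendsto_of_periodic (cuspG_mdiff hF.mdiff q)
    (fun z => congrFun (cuspG_vadd (fun γ hγ => hF.slash_eq hγ) z) q) ?_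
  obtain ⟨B, A, hB⟩ := cusp_exists_bound (fun q' z => ev N k F z q') (fun q' => ev_bdd hF q')
  have hbound : ∀ z : ℍ, A ≤ z.im →
      ‖cuspG N k F z q * Complex.exp (2 * π * Complex.I * z)‖ ≤
        N * B * Real.exp (-(2 * π * z.im / N)) := by
    intro z hz
    have h1 := twE_norm_le (cuspTau N) N (z : ℂ) (by rw [UpperHalfPlane.coe_im]; exact z.im_pos.le)
      (ev N k F z) B (hB z hz) q
    rw [UpperHalfPlane.coe_im] at h1
    rw [norm_mul, cusp_norm_exp]
    have h2 : Real.exp (2 * π * z.im) * Real.exp (-(2 * π * z.im)) = 1 := by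
      rw [← Real.exp_add, add_neg_cancel, Real.exp_zero]
    calc ‖cuspG N k F z q‖ * Real.exp (-(2 * π * z.im))
        ≤ (N * (Real.exp (2 * π * z.im) * Real.exp (-(2 * π * z.im / N))) * B) *
            Real.exp (-(2 * π * z.im)) := mul_le_mul_of_nonneg_right h1 (Real.exp_pos _).le
      _ = N * B * Real.exp (-(2 * π * z.im / N)) := by
        linear_combination (N * B * Real.exp (-(2 * π * z.im / N))) * h2
  refine squeeze_zero_norm' ?_ (cusp_tendsto_exp_im (N * B) N)
  exact (UpperHalfPlane.atImInfty_mem _).mpr ⟨A, hbound⟩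

theorem cusp_exists_tendsto_vec {N : ℕ} [NeZero N] {k : ℤ} {F : ℍ → ℂ} (hF : IsForm N k F) :
    ∃ L : Q N → ℂ, Tendsto (cuspG N k F) atImInfty (nhds L) ∧
      ∀ q, L q = 0 → IsBoundedAtImInfty
        (fun z : ℍ => cuspG N k F z q / Complex.exp (2 * π * Complex.I * z)) := by
  choose l hl using fun q => cusp_exists_tendsto hF q
  exact ⟨l, tendsto_pi_nhds.mpr fun q => (hl q).1, fun q => (hl q).2⟩

theorem tendsto_cuspG {N : ℕ} [NeZero N] {k : ℤ} {F : ℍ → ℂ} (hF : IsForm N k F) :
    Tendsto (cuspG N k F) atImInfty (nhds (cuspLim N k F)) := by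
  obtain ⟨L, hL, -⟩ := cusp_exists_tendsto_vec hF
  unfold cuspLim
  rw [hL.limUnder_eq]
  exact hL

theorem cuspLim_eq_of_tendsto {N : ℕ} [NeZero N] {k : ℤ} {F : ℍ → ℂ} {L : Q N → ℂ}
    (hL : Tendsto (cuspG N k F) atImInfty (nhds L)) : cuspLim N k F = L :=
  hL.limUnder_eq

theorem cuspLim_zero (N : ℕ) [NeZero N] (k : ℤ) : cuspLim N k 0 = 0 := by
  apply cuspLim_eq_of_tendsto
  have h : cuspG N k 0 = fun _ => 0 := by
    funext z
    unfold cuspG
    rw [ev_zero, map_zero]
  rw [h]
  exact tendsto_const_nhds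

theorem cuspLim_add {N : ℕ} [NeZero N] {k : ℤ} {F G : ℍ → ℂ} (hF : IsForm N k F)
    (hG : IsForm N k G) : cuspLim N k (F + G) = cuspLim N k F + cuspLim N k G := by
  apply cuspLim_eq_of_tendsto
  have h : cuspG N k (F + G) = fun z => cuspG N k F z + cuspG N k G z := by
    funext z
    unfold cuspG
    rw [ev_add, map_add]
  rw [h]
  exact (tendsto_cuspG hF).add (tendsto_cuspG hG)

theorem cuspLim_sum {N : ℕ} [NeZero N] {k : ℤ} {ι : Type*} (s : Finset ι) {F : ι → ℍ → ℂ}
    (hF : ∀ a ∈ s, IsForm N k (F a)) :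
    cuspLim N k (∑ a ∈ s, F a) = ∑ a ∈ s, cuspLim N k (F a) := by
  classical
  induction s using Finset.induction_on with
  | empty => simp [cuspLim_zero]
  | insert a s ha ih =>
    rw [Finset.sum_insert ha, Finset.sum_insert ha,
      cuspLim_add (hF a (Finset.mem_insert_self a s))
        (IsForm.sum s fun i hi => hF i (Finset.mem_insert_of_mem hi)),
      ih fun i hi => hF i (Finset.mem_insert_of_mem hi)]

theorem cuspLim_levelOne_mul {N : ℕ} [NeZero N] {k l : ℤ} {p F : ℍ → ℂ} (hp : IsLevelOne l p)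
    {c : ℂ} (hc : Tendsto p atImInfty (nhds c)) (hF : IsForm N k F) :
    cuspLim N (l + k) (p * F) = c • cuspLim N k F := by
  apply cuspLim_eq_of_tendsto
  have h : cuspG N (l + k) (p * F) = fun z => p z • cuspG N k F z := by
    funext z
    unfold cuspG
    rw [ev_mul_levelOne hp, map_smul]
  rw [h]
  exact hc.smul (tendsto_cuspG hF)

/-- if the limit vanishes then `F` is divisible by the discriminant -/
theorem exists_eq_discriminant_mul_of_cuspLim_eq_zero {N : ℕ} [NeZero N] {k : ℤ} {F : ℍ → ℂ}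
    (hF : IsForm N k F) (h0 : cuspLim N k F = 0) :
    ∃ G : ℍ → ℂ, IsForm N (k - 12) G ∧ F = discriminant * G := by
  have hfin := cusp_finite N
  obtain ⟨L, hL, hLb⟩ := cusp_exists_tendsto_vec hF
  have hL0 : L = 0 := by
    rw [← cuspLim_eq_of_tendsto hL, h0]
  obtain ⟨B, A, hB⟩ := cusp_exists_bound
    (fun q z => cuspG N k F z q / Complex.exp (2 * π * Complex.I * z))
    (fun q => hLb q (by rw [hL0]; rfl))
  obtain ⟨c, C, hc, hcC⟩ := exists_discriminant_bounds
  obtain ⟨A', hA'⟩ := (UpperHalfPlane.atImInfty_mem _).mp hcC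
  have hN : (0 : ℝ) < N := Nat.cast_pos.mpr (Nat.pos_of_ne_zero (NeZero.ne N))
  have key : ∀ z : ℍ, A ≤ z.im → A' ≤ z.im → ∀ q, ‖ev N k F z q / discriminant z‖ ≤ N * B / c := by
    intro z hz hz' q
    have h1 : ∀ q', ‖cuspG N k F z q'‖ ≤ B * Real.exp (-(2 * π * z.im)) := by
      intro q'
      have h2 := hB z hz q'
      rw [norm_div, cusp_norm_exp, div_le_iff₀ (Real.exp_pos _)] at h2
      exact h2
    have h3 : ev N k F z = twE (cuspTau N) N (-(z : ℂ)) (cuspG N k F z) := by
      unfold cuspG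
      rw [← Module.End.mul_apply, twE_neg_mul (cuspTau N) N (cuspTau_pow N)]
      rfl
    have h4 := twE_neg_norm_le (cuspTau N) N (z : ℂ)
      (by rw [UpperHalfPlane.coe_im]; exact z.im_pos.le) (cuspG N k F z) _ h1 q
    rw [← h3] at h4
    have h5 := (hA' z hz').1
    have h6 : -2 * π * z.im = -(2 * π * z.im) := by ring
    rw [h6] at h5
    rw [norm_div, div_le_div_iff₀ (norm_pos_iff.mpr (discriminant_ne_zero z)) hc]
    have hB0 : 0 ≤ B * Real.exp (-(2 * π * z.im)) := (norm_nonneg _).trans (h1 q)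
    calc ‖ev N k F z q‖ * c ≤ (N * (B * Real.exp (-(2 * π * z.im)))) * c :=
          mul_le_mul_of_nonneg_right h4 hc.le
      _ = N * B * (c * Real.exp (-(2 * π * z.im))) := by ring
      _ ≤ N * B * ‖discriminant z‖ := by
          have hNB : 0 ≤ (N : ℝ) * B := by
            have h7 : 0 ≤ B := by
              have h8 := mul_nonneg hB0 (Real.exp_pos (2 * π * z.im)).le
              rw [mul_assoc, ← Real.exp_add, neg_add_cancel, Real.exp_zero, mul_one] at h8
              exact h8
            positivity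
          exact mul_le_mul_of_nonneg_left h5 hNB
  refine isForm_div_discriminant hF fun γ => ?_
  rw [UpperHalfPlane.isBoundedAtImInfty_iff]
  refine ⟨N * B / c, max A A', fun z hz => ?_⟩
  have h9 := key z (le_trans (le_max_left _ _) hz) (le_trans (le_max_right _ _) hz)
    (QuotientGroup.mk γ⁻¹)
  rw [ev_mk (fun γ hγ => hF.slash_eq hγ), inv_inv] at h9
  exact h9

end Fermat.Agent.S20
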