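import Mathlib
import Fermat.Agent.S20.CuspDefs
import Fermat.Agent.S20.DualCore
import Fermat.Agent.S20.LevelOne

/-!
S20, module H2: matrix form of the twist at the cusp `i∞`.

For a homogeneous basis `H` and a bijection `e : H.ι ≃ Q N`, the matrix `cmatG z` of the twisted
conjugates `cuspG` of the basis elements is `dualM z * (cmatE z)ᵀ`, where `cmatE z` is the matrix
of the twist `twE (cuspTau N) N z`; its determinant is an explicit exponential.
-/

set_option autoImplicit false
set_option linter.unusedSectionVars false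

open UpperHalfPlane ModularForm CongruenceSubgroup Filter
open scoped MatrixGroups Manifold

namespace Fermat.Agent.S20

section CMat

variable {N : ℕ} [NeZero N] (H : HomBasis N) [Fintype H.ι] [DecidableEq H.ι] (e : H.ι ≃ Q N)

/-- the basis of `Q N → ℂ` of indicator functions, indexed through `e` -/
noncomputable def cmatBasis : Module.Basis H.ι ℂ (Q N → ℂ) :=
  Module.Basis.ofEquivFun (LinearEquiv.funCongrLeft ℂ ℂ e)

theorem cmatBasis_repr (v : Q N → ℂ) (b : H.ι) : (cmatBasis H e).repr v b = v (e b) := by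
  simp [cmatBasis]

theorem cmatBasis_apply (b : H.ι) (x : Q N) :
    cmatBasis H e b x = if e.symm x = b then 1 else 0 := by
  simp [cmatBasis, Pi.single_apply]

theorem cmatBasis_norm_le (b : H.ι) (x : Q N) : ‖cmatBasis H e b x‖ ≤ 1 := by
  rw [cmatBasis_apply]
  split_ifs <;> simp

/-- the matrix of the twist `E(z)` -/
noncomputable def cmatE (z : ℂ) : Matrix H.ι H.ι ℂ :=
  LinearMap.toMatrix (cmatBasis H e) (cmatBasis H e) (twE (cuspTau N) N z)

/-- the matrix of twisted conjugates -/
noncomputable def cmatG (z : ℍ) : Matrix H.ι H.ι ℂ :=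
  Matrix.of fun a b => cuspG N (H.w a) (H.B a) z (e b)

/-- the limit matrix -/
noncomputable def cmatL : Matrix H.ι H.ι ℂ :=
  Matrix.of fun a b => cuspLim N (H.w a) (H.B a) (e b)

theorem cmatE_apply (z : ℂ) (b b' : H.ι) :
    cmatE H e z b b' = twE (cuspTau N) N z (cmatBasis H e b') (e b) := by
  rw [cmatE, LinearMap.toMatrix_apply, cmatBasis_repr]

theorem cmatG_apply (z : ℍ) (a b : H.ι) :
    cmatG H e z a b = cuspG N (H.w a) (H.B a) z (e b) := rfl

theorem cmatL_apply (a b : H.ι) : cmatL H e a b = cuspLim N (H.w a) (H.B a) (e b) := rfl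

theorem cmatE_mulVec (z : ℂ) (v : Q N → ℂ) (b : H.ι) :
    (cmatE H e z).mulVec (fun b' => v (e b')) b = twE (cuspTau N) N z v (e b) := by
  have h := LinearMap.toMatrix_mulVec_repr (cmatBasis H e) (cmatBasis H e)
    (twE (cuspTau N) N z) v
  have h1 : ((cmatBasis H e).repr v : H.ι → ℂ) = fun b' => v (e b') :=
    funext (cmatBasis_repr H e v)
  rw [h1] at h
  rw [cmatE, h, cmatBasis_repr]

/-- the matrix identity `G(z) = M(z) E(z)ᵀ` -/
theorem cmatG_eq (z : ℍ) : cmatG H e z = dualM H e z * (cmatE H e (z : ℂ)).transpose := by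
  ext a b
  rw [Matrix.mul_apply, cmatG_apply, cuspG_apply, ← cmatE_mulVec, Matrix.mulVec, dotProduct]
  refine Finset.sum_congr rfl fun b' _ => ?_
  rw [Matrix.transpose_apply, dualM_apply, mul_comm]

theorem cmatE_det (hτ : cuspTau N ^ N = 1) (z : ℂ) :
    (cmatE H e z).det = Complex.exp (-(Real.pi * Complex.I * z * ((Nat.card (Q N) : ℂ) -
      (Nat.card (MulAction.orbitRel.Quotient (Subgroup.zpowers (cuspTau N)) (Q N)) : ℂ)))) := by
  rw [cmatE, LinearMap.det_toMatrix]
  exact twE_det (cuspTau N) N hτ z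

theorem cmatE_add (hτ : cuspTau N ^ N = 1) (z w : ℂ) :
    cmatE H e (z + w) = cmatE H e z * cmatE H e w := by
  rw [cmatE, twE_add _ _ hτ, LinearMap.toMatrix_mul]
  rfl

theorem cmatE_zero : cmatE H e 0 = 1 := by
  rw [cmatE, twE_zero, LinearMap.toMatrix_one]

theorem cmatE_mul_neg (hτ : cuspTau N ^ N = 1) (z : ℂ) : cmatE H e z * cmatE H e (-z) = 1 := by
  rw [← cmatE_add H e hτ, add_neg_cancel, cmatE_zero]

theorem cmatE_neg_mul (hτ : cuspTau N ^ N = 1) (z : ℂ) : cmatE H e (-z) * cmatE H e z = 1 := by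
  rw [← cmatE_add H e hτ, neg_add_cancel, cmatE_zero]

theorem cmatE_norm_le (z : ℂ) (hz : 0 ≤ z.im) (b b' : H.ι) :
    ‖cmatE H e z b b'‖ ≤
      N * (Real.exp (2 * Real.pi * z.im) * Real.exp (-(2 * Real.pi * z.im / N))) := by
  rw [cmatE_apply]
  have h := twE_norm_le (cuspTau N) N z hz (cmatBasis H e b') 1
    (fun y => cmatBasis_norm_le H e b' y) (e b)
  rwa [mul_one] at h

/-- `G(z) → Λ` entrywise -/
theorem cmat_tendsto_G
    (hG : ∀ a, Tendsto (cuspG N (H.w a) (H.B a)) atImInfty (nhds (cuspLim N (H.w a) (H.B a)))) :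
    Tendsto (cmatG H e) atImInfty (nhds (cmatL H e)) := by
  refine tendsto_pi_nhds.mpr fun a => tendsto_pi_nhds.mpr fun b => ?_
  exact (tendsto_pi_nhds.mp (hG a)) (e b)

theorem cmatL_det_ne_zero
    (hli : LinearIndependent ℂ (fun a : H.ι => cuspLim N (H.w a) (H.B a))) :
    (cmatL H e).det ≠ 0 := by
  have h1 : LinearIndependent ℂ (cmatL H e).row :=
    hli.map' (LinearEquiv.funCongrLeft ℂ ℂ e).toLinearMap (LinearEquiv.ker _)
  have h2 := Matrix.linearIndependent_rows_iff_isUnit.mp h1
  exact ((Matrix.isUnit_iff_isUnit_det _).mp h2).ne_zero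

/-- `det M(z) * det E(z) → det Λ` -/
theorem cmat_tendsto_det
    (hG : ∀ a, Tendsto (cuspG N (H.w a) (H.B a)) atImInfty (nhds (cuspLim N (H.w a) (H.B a)))) :
    Tendsto (fun z : ℍ => (dualM H e z).det * (cmatE H e (z : ℂ)).det) atImInfty
      (nhds (cmatL H e).det) := by
  have h1 : Tendsto (fun z : ℍ => (cmatG H e z).det) atImInfty (nhds (cmatL H e).det) :=
    ((continuous_id.matrix_det).tendsto (cmatL H e)).comp (cmat_tendsto_G H e hG)
  have h2 : (fun z : ℍ => (cmatG H e z).det) =
      fun z : ℍ => (dualM H e z).det * (cmatE H e (z : ℂ)).det := by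
    funext z
    rw [cmatG_eq, Matrix.det_mul, Matrix.det_transpose]
  rwa [h2] at h1

/-- `Δ(z) E(z) → 0` entrywise -/
theorem cmat_tendsto_disc_smul_E :
    Tendsto (fun z : ℍ => discriminant z • cmatE H e (z : ℂ)) atImInfty (nhds 0) := by
  obtain ⟨c, C, hc, hbd⟩ := exists_discriminant_bounds
  have hN : (0 : ℝ) < N := Nat.cast_pos.mpr (Nat.pos_of_ne_zero (NeZero.ne N))
  refine tendsto_pi_nhds.mpr fun b => tendsto_pi_nhds.mpr fun b' => ?_
  have him : Tendsto (fun z : ℍ => z.im) atImInfty atTop := tendsto_comap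
  -- the dominating function
  have hdom : Tendsto (fun z : ℍ => C * N * Real.exp (-(2 * Real.pi / N) * z.im)) atImInfty
      (nhds 0) := by
    have h1 : Tendsto (fun z : ℍ => Real.exp (-(2 * Real.pi / N) * z.im)) atImInfty (nhds 0) := by
      refine Real.tendsto_exp_atBot.comp ?_
      exact Filter.Tendsto.const_mul_atTop_of_neg (by
        have : 0 < 2 * Real.pi / N := by positivity
        linarith) him
    simpa using h1.const_mul (C * N)
  refine squeeze_zero_norm' ?_ hdom
  filter_upwards [hbd] with z hz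
  show ‖discriminant z * cmatE H e (z : ℂ) b b'‖ ≤ _
  rw [norm_mul]
  have h2 := cmatE_norm_le H e (z : ℂ) z.im_pos.le b b'
  have h3 : (z : ℂ).im = z.im := rfl
  rw [h3] at h2
  have hC : 0 ≤ C := by
    have := hz.1.trans hz.2
    have hpos : 0 < Real.exp (-2 * Real.pi * z.im) := Real.exp_pos _
    by_contra hneg
    rw [not_le] at hneg
    have h4 : C * Real.exp (-2 * Real.pi * z.im) < 0 := mul_neg_of_neg_of_pos hneg hpos
    have h5 : 0 ≤ c * Real.exp (-2 * Real.pi * z.im) := by positivity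
    linarith
  calc ‖discriminant z‖ * ‖cmatE H e (z : ℂ) b b'‖
      ≤ (C * Real.exp (-2 * Real.pi * z.im)) *
          (N * (Real.exp (2 * Real.pi * z.im) * Real.exp (-(2 * Real.pi * z.im / N)))) :=
        mul_le_mul hz.2 h2 (norm_nonneg _) (by positivity)
    _ = C * N * Real.exp (-(2 * Real.pi / N) * z.im) := by
        have e1 : Real.exp (-2 * Real.pi * z.im) * Real.exp (2 * Real.pi * z.im) = 1 := by
          rw [← Real.exp_add]
          simp
        have e2 : -(2 * Real.pi * z.im / N) = -(2 * Real.pi / N) * z.im := by ring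
        rw [e2]
        calc C * Real.exp (-2 * Real.pi * z.im) *
            (N * (Real.exp (2 * Real.pi * z.im) * Real.exp (-(2 * Real.pi / N) * z.im)))
            = C * N * (Real.exp (-2 * Real.pi * z.im) * Real.exp (2 * Real.pi * z.im)) *
                Real.exp (-(2 * Real.pi / N) * z.im) := by ring
          _ = C * N * Real.exp (-(2 * Real.pi / N) * z.im) := by rw [e1, mul_one]

end CMat

end Fermat.Agent.S20
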