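import Mathlib
import Fermat.Agent.S20.Forms
import Fermat.Agent.S20.LevelOne
import Fermat.Agent.S20.DualCore

/-!
S20/S21 project, helper file for module H2: the determinant of the matrix of conjugates
`M z = [ev (B_a) z (e b)]` of a homogeneous basis.

* `detf_levelOne_nonvanishing`: a level one form without zeros on `ℍ` is `c Δ^m`.
* `detf_det_smul`: `det M (γ • z) = sign * denom ^ (∑ w) * det M z`.
* `detf_exists_det_sq_eq`: `(det M)^2 = c Δ^m` with `∑ w = 6 m` (given the linear independence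
  of the value vectors at every point).
-/

set_option autoImplicit false

open UpperHalfPlane ModularForm CongruenceSubgroup Filter
open scoped MatrixGroups Manifold

namespace Fermat.Agent.S20

open Fermat.Agent.S23.SymAux

/-! ### level one forms without zeros -/

/-- the inverse of a level one form without zeros which does not tend to `0` at `i∞` is a level
one form of the opposite weight -/
theorem detf_inv_levelOne {k : ℤ} {p : ℍ → ℂ} (hp : IsLevelOne k p) (hnz : ∀ z, p z ≠ 0)
    {c : ℂ} (hc : c ≠ 0) (hlim : Tendsto p atImInfty (nhds c)) :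
    IsLevelOne (-k) (fun z => (p z)⁻¹) := by
  refine isLevelOne_of ?_ ?_ ?_
  · have h1 : MDiff (fun _ : ℍ => (1 : ℂ)) := fun _ => mdifferentiableAt_const
    have h2 := hp.mdiff
    rw [UpperHalfPlane.mdifferentiable_iff] at h1 h2 ⊢
    refine (h2.inv fun w _ => hnz _).congr fun w _ => ?_
    simp
  · intro γ
    funext z
    have h := congrFun (hp.slash_eq γ) z
    rw [ModularForm.SL_slash_apply] at h ⊢
    rw [← h, mul_inv, ← zpow_neg]
  · have h := hlim.inv₀ hc
    exact h.isBigO_one ℝ

theorem detf_levelOne_nonvanishing {k : ℤ} {p : ℍ → ℂ} (hp : IsLevelOne k p)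
    (hnz : ∀ z, p z ≠ 0) :
    ∃ (m : ℕ) (c : ℂ), c ≠ 0 ∧ k = 12 * (m : ℤ) ∧ p = fun z => c * discriminant z ^ m := by
  have key : ∀ n : ℕ, ∀ (k : ℤ) (p : ℍ → ℂ), k < 12 * n → IsLevelOne k p → (∀ z, p z ≠ 0) →
      ∃ (m : ℕ) (c : ℂ), c ≠ 0 ∧ k = 12 * (m : ℤ) ∧ p = fun z => c * discriminant z ^ m := by
    intro n
    induction n with
    | zero =>
      intro k p hk hp hnz
      exact absurd (congrFun (hp.eq_zero_of_neg (by simpa using hk)) UpperHalfPlane.I)
        (hnz _)
    | succ n ih =>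
      intro k p hk hp hnz
      obtain ⟨c, hc⟩ := lvl_exists_tendsto hp
      by_cases hc0 : c = 0
      · subst hc0
        obtain ⟨q, hq, hpq⟩ := lvl_exists_eq_disc_mul hp hc
        have hqnz : ∀ z, q z ≠ 0 := by
          intro z hz
          apply hnz z
          rw [hpq, Pi.mul_apply, hz, mul_zero]
        obtain ⟨m, c', hc', hkm, hqm⟩ := ih (k - 12) q (by push_cast at hk ⊢; omega) hq hqnz
        refine ⟨m + 1, c', hc', by push_cast; omega, ?_⟩
        funext z
        rw [hpq, hqm, Pi.mul_apply]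
        ring
      · have hinv := detf_inv_levelOne hp hnz hc0 hc
        rcases lt_trichotomy k 0 with hneg | h0 | hpos
        · exact absurd (congrFun (hp.eq_zero_of_neg hneg) UpperHalfPlane.I) (hnz _)
        · subst h0
          obtain ⟨c', hc'⟩ := hp.const_of_zero
          refine ⟨0, c', ?_, by simp, ?_⟩
          · rintro rfl
            exact hnz UpperHalfPlane.I (by rw [hc'])
          · rw [hc']
            funext z
            simp
        · have h := congrFun (hinv.eq_zero_of_neg (by omega)) UpperHalfPlane.I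
          exact absurd (inv_eq_zero.mp h) (hnz _)
  obtain ⟨n, hn⟩ : ∃ n : ℕ, k < 12 * n := ⟨k.toNat + 1, by push_cast; omega⟩
  exact key n k p hn hp hnz

/-! ### boundedness of determinants -/

theorem detf_bdd_det {n : Type*} [Fintype n] [DecidableEq n] (A : ℍ → Matrix n n ℂ)
    (hA : ∀ i j, IsBoundedAtImInfty (fun z => A z i j)) :
    IsBoundedAtImInfty (fun z => (A z).det) := by
  have h : (fun z => (A z).det) =
      ∑ σ : Equiv.Perm n, ((fun _ : ℍ => (((Equiv.Perm.sign σ : ℤˣ) : ℤ) : ℂ)) *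
        ∏ i : n, (fun z => A z (σ i) i)) := by
    funext z
    rw [Matrix.det_apply, Finset.sum_apply]
    refine Finset.sum_congr rfl fun σ _ => ?_
    rw [Pi.mul_apply, Finset.prod_apply, Units.smul_def, zsmul_eq_mul]
  rw [h]
  refine isBoundedAtImInfty_finsetSum _ fun σ _ => ?_
  have hc : IsBoundedAtImInfty (fun _ : ℍ => (((Equiv.Perm.sign σ : ℤˣ) : ℤ) : ℂ)) :=
    Filter.const_boundedAtFilter _ _
  exact hc.mul (isBoundedAtImInfty_finsetProd _ fun i _ => hA (σ i) i)

theorem detf_prod_zpow {ι : Type*} (s : Finset ι) (x : ℂ) (hx : x ≠ 0) (w : ι → ℤ) :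
    ∏ i ∈ s, x ^ w i = x ^ ∑ i ∈ s, w i := by
  classical
  induction s using Finset.induction_on with
  | empty => simp
  | insert i t hi ih => rw [Finset.prod_insert hi, Finset.sum_insert hi, ih, zpow_add₀ hx]

/-! ### the determinant of the matrix of conjugates -/

set_option linter.unusedSectionVars false

section Core

variable {N : ℕ} [NeZero N] (H : HomBasis N) [Fintype H.ι] [DecidableEq H.ι] (e : H.ι ≃ Q N)

/-- the permutation of the index set induced by `γ⁻¹` -/
noncomputable def detfPerm (γ : SL(2, ℤ)) : Equiv.Perm H.ι :=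
  e.trans ((MulAction.toPerm γ⁻¹ : Equiv.Perm (Q N)).trans e.symm)

theorem detfPerm_apply (γ : SL(2, ℤ)) (b : H.ι) :
    detfPerm H e γ b = e.symm (γ⁻¹ • e b) := rfl

theorem detf_det_smul (γ : SL(2, ℤ)) (z : ℍ) :
    (dualM H e (γ • z)).det =
      denom γ z ^ (∑ a, H.w a) *
        ((((Equiv.Perm.sign (detfPerm H e γ) : ℤˣ) : ℤ) : ℂ) * (dualM H e z).det) := by
  have hd : denom γ z ≠ 0 := denom_ne_zero _ z
  have h1 : dualM H e (γ • z) =
      Matrix.of fun a b => denom γ z ^ (H.w a) *
        ((dualM H e z).submatrix id (detfPerm H e γ)) a b := by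
    ext a b
    rw [dualM_smul]
    rfl
  rw [h1, Matrix.det_mul_column, Matrix.det_permute', detf_prod_zpow _ _ hd]

theorem detf_det_sq_slash (γ : SL(2, ℤ)) :
    (fun z => (dualM H e z).det ^ 2) ∣[2 * ∑ a, H.w a] γ = fun z => (dualM H e z).det ^ 2 := by
  funext z
  have hd : denom γ z ≠ 0 := denom_ne_zero _ z
  rw [ModularForm.SL_slash_apply, detf_det_smul]
  have hs : ((((Equiv.Perm.sign (detfPerm H e γ) : ℤˣ) : ℤ) : ℂ)) ^ 2 = 1 := by
    rcases Int.units_eq_one_or (Equiv.Perm.sign (detfPerm H e γ)) with h | h <;> rw [h] <;> simp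
  have hz : denom γ z ^ (∑ a, H.w a) * denom γ z ^ (∑ a, H.w a) *
      denom γ z ^ (-(2 * ∑ a, H.w a)) = 1 := by
    rw [← zpow_add₀ hd, ← zpow_add₀ hd]
    have : ∑ a, H.w a + ∑ a, H.w a + -(2 * ∑ a, H.w a) = 0 := by ring
    rw [this, zpow_zero]
  linear_combination ((dualM H e z).det ^ 2) * hz +
    (denom γ z ^ (∑ a, H.w a)) ^ 2 * (dualM H e z).det ^ 2 *
      denom γ z ^ (-(2 * ∑ a, H.w a)) * hs

theorem detf_det_mdiff : MDiff (fun z => (dualM H e z).det) :=
  dual_mdiff_det (dualM H e) fun a b => ev_mdiff (H.isForm a).mdiff (e b)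

theorem detf_det_bdd : IsBoundedAtImInfty (fun z => (dualM H e z).det) :=
  detf_bdd_det (dualM H e) fun a b => ev_bdd (H.isForm a) (e b)

theorem detf_det_sq_isLevelOne :
    IsLevelOne (2 * ∑ a, H.w a) (fun z => (dualM H e z).det ^ 2) := by
  refine isLevelOne_of ?_ (detf_det_sq_slash H e) ?_
  · have h := (detf_det_mdiff H e).mul (detf_det_mdiff H e)
    have e1 : (fun z => (dualM H e z).det ^ 2) =
        (fun z => (dualM H e z).det) * (fun z => (dualM H e z).det) := by
      funext z
      rw [Pi.mul_apply, sq]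
    rw [e1]
    exact h
  · have h := (detf_det_bdd H e).mul (detf_det_bdd H e)
    have e1 : (fun z => (dualM H e z).det ^ 2) =
        (fun z => (dualM H e z).det) * (fun z => (dualM H e z).det) := by
      funext z
      rw [Pi.mul_apply, sq]
    rw [e1]
    exact h

theorem detf_exists_det_sq_eq
    (hli : ∀ z : ℍ, LinearIndependent ℂ (fun a : H.ι => ev N (H.w a) (H.B a) z)) :
    ∃ (m : ℕ) (c : ℂ), c ≠ 0 ∧ ∑ a, H.w a = 6 * (m : ℤ) ∧
      ∀ z : ℍ, (Matrix.of fun a b => ev N (H.w a) (H.B a) z (e b) : Matrix H.ι H.ι ℂ).det ^ 2 =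
        c * discriminant z ^ m := by
  obtain ⟨m, c, hc, hk, hp⟩ := detf_levelOne_nonvanishing (detf_det_sq_isLevelOne H e)
    (fun z => pow_ne_zero 2 (dual_det_ne_zero H e hli z))
  refine ⟨m, c, hc, by omega, fun z => ?_⟩
  exact congrFun hp z

theorem detf_ev_det_ne_zero
    (hli : ∀ z : ℍ, LinearIndependent ℂ (fun a : H.ι => ev N (H.w a) (H.B a) z)) (z : ℍ) :
    (Matrix.of fun a b => ev N (H.w a) (H.B a) z (e b) : Matrix H.ι H.ι ℂ).det ≠ 0 :=
  dual_det_ne_zero H e hli z

end Core

end Fermat.Agent.S20
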