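import Mathlib
import Fermat.Agent.S20.DetFormCore
import Fermat.Agent.S20.Fiber

/-!
S20/S21 project, helper file for module H2: the determinant of the matrix of conjugates of a
homogeneous basis never vanishes, and its square is `c Δ^m` with `∑ w = 6 m`.
-/

set_option autoImplicit false

open UpperHalfPlane ModularForm CongruenceSubgroup Filter
open scoped MatrixGroups Manifold

namespace Fermat.Agent.S20

theorem ev_det_ne_zero {N : ℕ} [NeZero N] (H : HomBasis N) [Fintype H.ι] [DecidableEq H.ι]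
    (e : H.ι ≃ Q N) (z : ℍ) :
    (Matrix.of fun a b => ev N (H.w a) (H.B a) z (e b) : Matrix H.ι H.ι ℂ).det ≠ 0 :=
  detf_ev_det_ne_zero H e (ev_linearIndependent H) z

theorem exists_det_sq_eq {N : ℕ} [NeZero N] (H : HomBasis N) [Fintype H.ι] [DecidableEq H.ι]
    (e : H.ι ≃ Q N) :
    ∃ (m : ℕ) (c : ℂ), c ≠ 0 ∧ ∑ a, H.w a = 6 * (m : ℤ) ∧
      ∀ z : ℍ, (Matrix.of fun a b => ev N (H.w a) (H.B a) z (e b) : Matrix H.ι H.ι ℂ).det ^ 2 =
        c * discriminant z ^ m :=
  detf_exists_det_sq_eq H e (ev_linearIndependent H)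

end Fermat.Agent.S20
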