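import Mathlib
import Fermat.Agent.S20.CuspMat
import Fermat.Agent.S20.CuspLim
import Fermat.Agent.S20.DetForm
import Fermat.Agent.S20.Fiber

/-!
S20, module H2, part (D1): the sum of the weights of a homogeneous basis is `6 (μ - ε_∞)`,
given the linear independence of the limit vectors at the cusp `i∞`.
-/

set_option autoImplicit false

open UpperHalfPlane ModularForm CongruenceSubgroup Filter
open scoped MatrixGroups Manifold

namespace Fermat.Agent.S20

/-- comparison of exponents: `d² = c Δ^m` and `d(z) exp(-π i z D) → L ≠ 0` force `m = D` -/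
theorem csum_exponent {d : ℍ → ℂ} {c L : ℂ} {m : ℕ} {D : ℤ} (hc : c ≠ 0) (hL : L ≠ 0)
    (hd : ∀ z : ℍ, d z ^ 2 = c * discriminant z ^ m)
    (hlim : Tendsto (fun z : ℍ => d z * Complex.exp (-(Real.pi * Complex.I * z * D)))
      atImInfty (nhds L)) :
    (m : ℤ) = D := by
  obtain ⟨c₁, C₁, hc₁, hbd⟩ := exists_discriminant_bounds
  have him : Tendsto (fun z : ℍ => z.im) atImInfty atTop := tendsto_comap
  have hexp : ∀ z : ℍ, ‖Complex.exp (-(Real.pi * Complex.I * z * D))‖ =
      Real.exp (Real.pi * D * z.im) := by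
    intro z
    rw [Complex.norm_exp]
    congr 1
    have h : -((Real.pi : ℂ) * Complex.I * z * D) =
        ((Real.pi * D : ℝ) : ℂ) * (-(Complex.I * z)) := by
      push_cast
      ring
    rw [h, Complex.re_ofReal_mul]
    congr 1
    simp
  have hf : Tendsto (fun z : ℍ => ‖c‖ * ‖discriminant z‖ ^ m *
      Real.exp (2 * Real.pi * D * z.im)) atImInfty (nhds (‖L‖ ^ 2)) := by
    have h1 := (hlim.norm).pow 2
    refine h1.congr fun z => ?_
    rw [norm_mul, hexp, mul_pow, ← norm_pow, hd, norm_mul, norm_pow, ← Real.exp_nat_mul]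
    congr 2
    push_cast
    ring
  have hLpos : 0 < ‖L‖ ^ 2 := by positivity
  have hcpos : 0 < ‖c‖ := norm_pos_iff.mpr hc
  have hy0 : ∀ᶠ z : ℍ in atImInfty, 0 ≤ z.im := him.eventually (eventually_ge_atTop 0)
  rcases lt_trichotomy (m : ℤ) D with hlt | heq | hgt
  · exfalso
    have hmD : (m : ℝ) + 1 ≤ (D : ℝ) := by exact_mod_cast hlt
    have hge : ∀ᶠ z : ℍ in atImInfty, ‖c‖ * c₁ ^ m * Real.exp (2 * Real.pi * z.im) ≤
        ‖c‖ * ‖discriminant z‖ ^ m * Real.exp (2 * Real.pi * D * z.im) := by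
      filter_upwards [hbd, hy0] with z hz hz0
      have h1 : (c₁ * Real.exp (-2 * Real.pi * z.im)) ^ m ≤ ‖discriminant z‖ ^ m :=
        pow_le_pow_left₀ (by positivity) hz.1 m
      have h2 : Real.exp (2 * Real.pi * z.im) ≤
          Real.exp (-2 * Real.pi * z.im) ^ m * Real.exp (2 * Real.pi * D * z.im) := by
        rw [← Real.exp_nat_mul, ← Real.exp_add, Real.exp_le_exp]
        have h3 : 0 ≤ ((D : ℝ) - m - 1) * z.im := mul_nonneg (by linarith) hz0
        have h4 : 0 < Real.pi := Real.pi_pos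
        nlinarith [mul_nonneg h4.le h3]
      calc ‖c‖ * c₁ ^ m * Real.exp (2 * Real.pi * z.im)
          ≤ ‖c‖ * c₁ ^ m * (Real.exp (-2 * Real.pi * z.im) ^ m *
              Real.exp (2 * Real.pi * D * z.im)) :=
            mul_le_mul_of_nonneg_left h2 (by positivity)
        _ = ‖c‖ * (c₁ * Real.exp (-2 * Real.pi * z.im)) ^ m *
              Real.exp (2 * Real.pi * D * z.im) := by
            rw [mul_pow]
            ring
        _ ≤ ‖c‖ * ‖discriminant z‖ ^ m * Real.exp (2 * Real.pi * D * z.im) := by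
            have h5 : 0 ≤ Real.exp (2 * Real.pi * D * z.im) := (Real.exp_pos _).le
            exact mul_le_mul_of_nonneg_right (mul_le_mul_of_nonneg_left h1 hcpos.le) h5
    have htop : Tendsto (fun z : ℍ => ‖c‖ * c₁ ^ m * Real.exp (2 * Real.pi * z.im))
        atImInfty atTop := by
      refine Filter.Tendsto.const_mul_atTop (by positivity) ?_
      exact Real.tendsto_exp_atTop.comp (him.const_mul_atTop (by positivity))
    have h6 := tendsto_atTop_mono' atImInfty hge htop
    exact not_tendsto_nhds_of_tendsto_atTop h6 _ hf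
  · exact heq
  · exfalso
    have hmD : (D : ℝ) + 1 ≤ (m : ℝ) := by exact_mod_cast hgt
    have hle : ∀ᶠ z : ℍ in atImInfty, ‖c‖ * ‖discriminant z‖ ^ m *
        Real.exp (2 * Real.pi * D * z.im) ≤
          ‖c‖ * C₁ ^ m * Real.exp (-(2 * Real.pi) * z.im) := by
      filter_upwards [hbd, hy0] with z hz hz0
      have hC : 0 ≤ C₁ := by
        have h7 := hz.1.trans hz.2
        have hpos : 0 < Real.exp (-2 * Real.pi * z.im) := Real.exp_pos _
        by_contra hneg
        rw [not_le] at hneg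
        have h8 : C₁ * Real.exp (-2 * Real.pi * z.im) < 0 := mul_neg_of_neg_of_pos hneg hpos
        have h9 : 0 ≤ c₁ * Real.exp (-2 * Real.pi * z.im) := by positivity
        linarith
      have h1 : ‖discriminant z‖ ^ m ≤ (C₁ * Real.exp (-2 * Real.pi * z.im)) ^ m :=
        pow_le_pow_left₀ (norm_nonneg _) hz.2 m
      have h2 : Real.exp (-2 * Real.pi * z.im) ^ m * Real.exp (2 * Real.pi * D * z.im) ≤
          Real.exp (-(2 * Real.pi) * z.im) := by
        rw [← Real.exp_nat_mul, ← Real.exp_add, Real.exp_le_exp]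
        have h3 : 0 ≤ ((m : ℝ) - D - 1) * z.im := mul_nonneg (by linarith) hz0
        have h4 : 0 < Real.pi := Real.pi_pos
        nlinarith [mul_nonneg h4.le h3]
      calc ‖c‖ * ‖discriminant z‖ ^ m * Real.exp (2 * Real.pi * D * z.im)
          ≤ ‖c‖ * (C₁ * Real.exp (-2 * Real.pi * z.im)) ^ m *
              Real.exp (2 * Real.pi * D * z.im) := by
            have h5 : 0 ≤ Real.exp (2 * Real.pi * D * z.im) := (Real.exp_pos _).le
            exact mul_le_mul_of_nonneg_right (mul_le_mul_of_nonneg_left h1 hcpos.le) h5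
        _ = ‖c‖ * C₁ ^ m * (Real.exp (-2 * Real.pi * z.im) ^ m *
              Real.exp (2 * Real.pi * D * z.im)) := by
            rw [mul_pow]
            ring
        _ ≤ ‖c‖ * C₁ ^ m * Real.exp (-(2 * Real.pi) * z.im) :=
            mul_le_mul_of_nonneg_left h2 (by positivity)
    have h0 : Tendsto (fun z : ℍ => ‖c‖ * C₁ ^ m * Real.exp (-(2 * Real.pi) * z.im))
        atImInfty (nhds 0) := by
      have h1 : Tendsto (fun z : ℍ => Real.exp (-(2 * Real.pi) * z.im)) atImInfty (nhds 0) := by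
        refine Real.tendsto_exp_atBot.comp ?_
        exact Filter.Tendsto.const_mul_atTop_of_neg (by
          have : 0 < 2 * Real.pi := by positivity
          linarith) him
      simpa using h1.const_mul (‖c‖ * C₁ ^ m)
    have h6 := le_of_tendsto_of_tendsto hf h0 hle
    linarith

/-- the orbits of the permutation `cuspTau N` are the orbits of the powers of `T` -/
theorem csum_card_orbits (N : ℕ) :
    Nat.card (MulAction.orbitRel.Quotient (Subgroup.zpowers (cuspTau N)) (Q N)) = epsInf N := by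
  unfold epsInf
  have hpow : ∀ (n : ℤ) (y : Q N), (cuspTau N ^ n) y = (ModularGroup.T ^ n) • y := by
    intro n y
    have h : cuspTau N ^ n = MulAction.toPermHom SL(2, ℤ) (Q N) (ModularGroup.T ^ n) := by
      rw [map_zpow]
      rfl
    rw [h]
    rfl
  refine Nat.card_congr (Quotient.congrRight fun x y => ?_)
  rw [MulAction.orbitRel_apply, MulAction.orbitRel_apply, MulAction.mem_orbit_iff,
    MulAction.mem_orbit_iff]
  constructor
  · rintro ⟨⟨g, hg⟩, rfl⟩
    obtain ⟨n, rfl⟩ := Subgroup.mem_zpowers_iff.mp hg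
    exact ⟨⟨ModularGroup.T ^ n, Subgroup.zpow_mem_zpowers _ n⟩, (hpow n y).symm⟩
  · rintro ⟨⟨g, hg⟩, rfl⟩
    obtain ⟨n, rfl⟩ := Subgroup.mem_zpowers_iff.mp hg
    exact ⟨⟨cuspTau N ^ n, Subgroup.zpow_mem_zpowers _ n⟩, hpow n y⟩

theorem csum_sum_weights_of {N : ℕ} [NeZero N] (H : HomBasis N) [Fintype H.ι]
    (hli : LinearIndependent ℂ (fun a : H.ι => cuspLim N (H.w a) (H.B a))) :
    ∑ a, H.w a = 6 * ((mu N : ℤ) - epsInf N) := by
  classical
  have hcard : Nat.card H.ι = Nat.card (Q N) := H.card_eq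
  obtain ⟨e⟩ : Nonempty (H.ι ≃ Q N) := Finite.card_eq.mp hcard
  obtain ⟨m, c, hc, hsum, hdet⟩ := exists_det_sq_eq H e
  have hτ := cuspTau_pow N
  have hG : ∀ a, Tendsto (cuspG N (H.w a) (H.B a)) atImInfty
      (nhds (cuspLim N (H.w a) (H.B a))) := fun a => tendsto_cuspG (H.isForm a)
  have hlim := cmat_tendsto_det H e hG
  have hL := cmatL_det_ne_zero H e hli
  have hD : ∃ D : ℤ, D = (Nat.card (Q N) : ℤ) - (Nat.card (MulAction.orbitRel.Quotient
      (Subgroup.zpowers (cuspTau N)) (Q N)) : ℤ) := ⟨_, rfl⟩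
  obtain ⟨D, hD⟩ := hD
  have hlim' : Tendsto (fun z : ℍ => (dualM H e z).det *
      Complex.exp (-(Real.pi * Complex.I * z * D))) atImInfty (nhds (cmatL H e).det) := by
    refine hlim.congr fun z => ?_
    rw [cmatE_det H e hτ, hD]
    push_cast
    rfl
  have hmD := csum_exponent hc hL (fun z => hdet z) hlim'
  rw [hsum, hmD, hD, csum_card_orbits N]
  rfl

end Fermat.Agent.S20
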