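import Mathlib
import Fermat.Agent.S20.CuspSumCore
import Fermat.Agent.S20.CuspIndep

/-!
S20, module H2, part (D1): the sum of the weights of a homogeneous basis is `6 (μ - ε_∞)`.
-/

set_option autoImplicit false

open UpperHalfPlane ModularForm CongruenceSubgroup Filter
open scoped MatrixGroups Manifold

namespace Fermat.Agent.S20

theorem sum_weights {N : ℕ} [NeZero N] (H : HomBasis N) [Fintype H.ι] :
    ∑ a, H.w a = 6 * ((mu N : ℤ) - epsInf N) :=
  csum_sum_weights_of H (cuspLim_linearIndependent H)

end Fermat.Agent.S20
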