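import Fermat.Agent.S20.Basis
import Fermat.Agent.S20.Fiber
import Fermat.Agent.S20.CuspLim
import Fermat.Agent.S20.CuspIndep
import Fermat.Agent.S20.CuspSum
import Fermat.Agent.S20.CuspInvCore
import Fermat.Agent.S20.DualCore
import Fermat.Agent.S20.CountCore

/-!
Final assembly of the dimension formula of the S20/S21 project:
`12 * dim S_2(Gamma0 N) = 12 + μ - 3 ε₂ - 4 ε₃ - 6 ε_∞`.
-/

set_option autoImplicit false

open UpperHalfPlane ModularForm CongruenceSubgroup Filter
open scoped MatrixGroups Manifold

namespace Fermat.Agent.S20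

theorem final_twelve_finrank_eq_genusNum (N : ℕ) [NeZero N] :
    12 * (Module.finrank ℂ (CuspForm (Gamma0 N) 2) : ℤ) = genusNum N := by
  classical
  obtain ⟨H⟩ := exists_homBasis N
  have hfin : Finite H.ι := H.finite
  let _ : Fintype H.ι := Fintype.ofFinite _
  have hcard : Nat.card H.ι = mu N := H.card_eq
  have hfinQ : Finite (Q N) := cusp_finite N
  obtain ⟨e⟩ : Nonempty (H.ι ≃ Q N) := Finite.card_eq.mp hcard
  have hli := fun z => ev_linearIndependent H z
  have hA := fun a => tendsto_cuspG (H.isForm a)
  have hC := cuspLim_linearIndependent H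
  have hH2 := cinv_tendsto_discriminant_smul_inv H e hli hA hC
  have hle := fun a => dual_weight_le_ten H e hli hH2 a
  have hfr := dual_finrank_cuspForm_two H e hli hH2
  exact count_core H hcard H.weight_even H.weight_nonneg hle H.card_weight_zero hli
    (fun a q => ev_I_perm (H.isForm a) q) rho (count_rho_eq rfl)
    (fun a q => ev_rho_perm (H.isForm a) q)
    (sum_weights H) (by rw [hfr, Nat.card_eq_fintype_card])

end Fermat.Agent.S20
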