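import Mathlib
import Fermat.Agent.S20.Defs
import Fermat.Agent.S24.Ree

/-!
# S20/S21, module L: the dimension bound for parabolic homomorphisms

`6 * dim Hom_par(Γ₀(N), ℂ) ≤ genusNum N`.

A homomorphism `φ : Γ → ℂ` gives a cocycle `Z g φ` of `G = SL(2, ℤ)` with values in the
permutation module `V = (G ⧸ Γ → ℂ)` (Shapiro).  For parabolic `φ` the values at `S`, `T`, `S * T`
lie in the ranges of `ρ g - 1`; modulo coboundaries this embeds `Hom_par` in the homology of the
complex `V → R_S × R_T × R_{ST} → V` of Scott's lemma, whose dimension is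
`|X| + 2 - cyc S - cyc T - cyc (S * T)`.
-/

set_option autoImplicit false

open CongruenceSubgroup ModularCurve ModularCurve.Period MulAction
open scoped MatrixGroups

namespace Fermat.Agent.S20

section Abstract

variable {G X : Type*} [Group G] [MulAction G X]

/-- The permutation representation on functions: `(hom_rho g v) x = v (g⁻¹ • x)`. -/
noncomputable def hom_rho (g : G) : (X → ℂ) →ₗ[ℂ] (X → ℂ) :=
  LinearMap.funLeft ℂ ℂ (fun x => g⁻¹ • x)

theorem hom_rho_apply (g : G) (v : X → ℂ) (x : X) : hom_rho g v x = v (g⁻¹ • x) := rfl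

theorem hom_rho_mul (g h : G) (v : X → ℂ) : hom_rho (g * h) v = hom_rho g (hom_rho h v) := by
  ext x
  simp only [hom_rho_apply, mul_inv_rev, mul_smul]

theorem hom_rho_one (v : X → ℂ) : hom_rho (1 : G) v = v := by
  ext x
  simp [hom_rho_apply]

theorem hom_rho_pow (g : G) (n : ℕ) (v : X → ℂ) : hom_rho (g ^ n) v = (hom_rho g ^ n) v := by
  induction n generalizing v with
  | zero => rw [pow_zero, pow_zero, hom_rho_one]; rfl
  | succ n ih => rw [pow_succ, hom_rho_mul, ih, pow_succ]; rfl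

theorem hom_rho_single [DecidableEq X] (g : G) (x : X) :
    hom_rho g (Pi.single x (1 : ℂ)) = Pi.single (g • x) (1 : ℂ) := by
  ext z
  simp only [hom_rho_apply, Pi.single_apply]
  by_cases h : z = g • x
  · rw [if_pos h, if_pos (by rw [h, inv_smul_smul])]
  · rw [if_neg h, if_neg (fun h' => h (by rw [← h', smul_inv_smul]))]

/-- The invariants of `hom_rho g` have dimension the number of orbits of `g`. -/
theorem hom_finrank_ker_rho_sub [Finite X] (g : G) :
    Module.finrank ℂ (LinearMap.ker (hom_rho (X := X) g - LinearMap.id)) =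
      Nat.card (orbitRel.Quotient (Subgroup.zpowers g) X) := by
  classical
  let _ : Fintype X := Fintype.ofFinite X
  let _ : Fintype (orbitRel.Quotient (Subgroup.zpowers g) X) := Fintype.ofFinite _
  set π : X → orbitRel.Quotient (Subgroup.zpowers g) X := Quotient.mk'' with hπ
  have hπ_iff : ∀ x y, π x = π y ↔ ∃ k : Subgroup.zpowers g, k • y = x := fun x y => by
    rw [hπ, Quotient.eq'']
    exact orbitRel_apply
  have hsurj : Function.Surjective π := Quotient.mk''_surjective
  set L : (orbitRel.Quotient (Subgroup.zpowers g) X → ℂ) →ₗ[ℂ] (X → ℂ) :=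
    LinearMap.funLeft ℂ ℂ π with hL
  have hLinj : Function.Injective L := LinearMap.funLeft_injective_of_surjective ℂ ℂ π hsurj
  have hrange : LinearMap.range L = LinearMap.ker (hom_rho (X := X) g - LinearMap.id) := by
    ext f
    rw [LinearMap.mem_ker]
    constructor
    · rintro ⟨h, rfl⟩
      ext x
      have hx : π (g⁻¹ • x) = π x :=
        (hπ_iff _ _).mpr ⟨⟨g⁻¹, Subgroup.inv_mem _ (Subgroup.mem_zpowers g)⟩, rfl⟩
      simp only [LinearMap.sub_apply, LinearMap.id_apply, Pi.sub_apply, Pi.zero_apply,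
        hom_rho_apply, hL, LinearMap.funLeft_apply, hx, sub_self]
    · intro hf
      have hf' : ∀ x, f (g⁻¹ • x) = f x := fun x => by
        have := congrFun hf x
        simpa [hom_rho_apply, sub_eq_zero] using this
      have hσ : ∀ x, f (g • x) = f x := fun x => by
        have := hf' (g • x)
        rw [inv_smul_smul] at this
        exact this.symm
      have hz : ∀ i : ℤ, ∀ x, f ((g ^ i) • x) = f x := by
        intro i
        induction i using Int.induction_on with
        | zero => intro x; simp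
        | succ i ih =>
          intro x
          rw [zpow_add_one, mul_smul, ih, hσ]
        | pred i ih =>
          intro x
          rw [zpow_sub_one, mul_smul, ih, hf']
      refine ⟨Quotient.lift f (fun a b hab => ?_), ?_⟩
      · obtain ⟨⟨k, hk⟩, rfl⟩ := (orbitRel_apply (G := Subgroup.zpowers g)).mp hab
        obtain ⟨i, rfl⟩ := Subgroup.mem_zpowers_iff.mp hk
        exact hz i b
      · ext x
        rfl
  rw [← hrange, LinearMap.finrank_range_of_inj hLinj, Module.finrank_fintype_fun_eq_card,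
    Nat.card_eq_fintype_card]

/-- Rank–nullity for `hom_rho g - 1`. -/
theorem hom_finrank_range_rho_sub [Finite X] (g : G) :
    Module.finrank ℂ (LinearMap.range (hom_rho (X := X) g - LinearMap.id)) +
      Nat.card (orbitRel.Quotient (Subgroup.zpowers g) X) = Nat.card X := by
  classical
  let _ : Fintype X := Fintype.ofFinite X
  have h := LinearMap.finrank_range_add_finrank_ker (hom_rho (X := X) g - LinearMap.id)
  rw [hom_finrank_ker_rho_sub, Module.finrank_fintype_fun_eq_card] at h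
  rw [Nat.card_eq_fintype_card (α := X)]
  exact h

/-- If `c + ρ c + ⋯ + ρ^(n-1) c = 0` with `n > 0`, then `c` lies in the range of `ρ - 1`. -/
theorem hom_mem_range_of_sum_pow {V : Type*} [AddCommGroup V] [Module ℂ V] (ρ : V →ₗ[ℂ] V)
    (n : ℕ) (hn : 0 < n) (c : V) (hc : ∑ i ∈ Finset.range n, (ρ ^ i) c = 0) :
    c ∈ LinearMap.range (ρ - LinearMap.id) := by
  have hi : ∀ i : ℕ, (ρ ^ i) c - c ∈ LinearMap.range (ρ - LinearMap.id) := by
    intro i
    induction i with
    | zero => simp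
    | succ i ih =>
      have h1 : (ρ ^ (i + 1)) c - c =
          (ρ - LinearMap.id : V →ₗ[ℂ] V) ((ρ ^ i) c) + ((ρ ^ i) c - c) := by
        rw [pow_succ', LinearMap.sub_apply, LinearMap.id_apply, Module.End.mul_apply]
        abel
      rw [h1]
      exact Submodule.add_mem _ ⟨_, rfl⟩ ih
  have hsum : ∑ i ∈ Finset.range n, ((ρ ^ i) c - c) ∈ LinearMap.range (ρ - LinearMap.id) :=
    Submodule.sum_mem _ fun i _ => hi i
  rw [Finset.sum_sub_distrib, hc, zero_sub, Finset.sum_const, Finset.card_range] at hsum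
  have h2 : (n : ℂ) • c ∈ LinearMap.range (ρ - LinearMap.id) := by
    have := Submodule.neg_mem _ hsum
    rw [neg_neg] at this
    rwa [Nat.cast_smul_eq_nsmul]
  have hn0 : (n : ℂ) ≠ 0 := Nat.cast_ne_zero.mpr hn.ne'
  have h3 := Submodule.smul_mem _ ((n : ℂ)⁻¹) h2
  rwa [smul_smul, inv_mul_cancel₀ hn0, one_smul] at h3

/-- Scott's lemma as an upper bound: a space `E` of cocycles (modulo coboundaries) of
`G = ⟨s, t⟩` with values in the permutation module of a transitive `G`-set `X`, whose values at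
`s`, `t`, `s * t` are "parabolic", has dimension at most
`|X| + 2 - cyc s - cyc t - cyc (s * t)`. -/
theorem hom_finrank_add_le {G X E : Type*} [Group G] [MulAction G X] [Finite X]
    [IsPretransitive G X] [AddCommGroup E] [Module ℂ E] (s t : G)
    (hgen : Subgroup.closure {s, t} = ⊤) (Z : G → E →ₗ[ℂ] (X → ℂ))
    (hZ : ∀ g h e, Z (g * h) e = Z g e + hom_rho g (Z h e))
    (hs : ∃ n, 0 < n ∧ ∀ e, Z (s ^ n) e = 0)
    (ht : ∃ n, 0 < n ∧ ∀ e, Z (t ^ n) e = 0)
    (hu : ∃ n, 0 < n ∧ ∀ e, Z ((s * t) ^ n) e = 0)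
    (hinj : ∀ e (v : X → ℂ), (∀ g, Z g e = hom_rho g v - v) → e = 0) :
    Module.Finite ℂ E ∧
      Module.finrank ℂ E + Nat.card (orbitRel.Quotient (Subgroup.zpowers s) X)
        + Nat.card (orbitRel.Quotient (Subgroup.zpowers t) X)
        + Nat.card (orbitRel.Quotient (Subgroup.zpowers (s * t)) X) ≤ Nat.card X + 2 := by
  classical
  let _ : Fintype X := Fintype.ofFinite X
  -- basic cocycle facts
  have hZ1 : ∀ e, Z 1 e = 0 := by
    intro e
    have h := hZ 1 1 e
    rw [mul_one, hom_rho_one] at h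
    exact add_eq_left.mp h.symm
  have hZpow : ∀ g (n : ℕ) e,
      Z (g ^ n) e = ∑ i ∈ Finset.range n, (hom_rho (X := X) g ^ i) (Z g e) := by
    intro g n e
    induction n with
    | zero => simp [hZ1]
    | succ n ih => rw [pow_succ, hZ, ih, Finset.sum_range_succ, hom_rho_pow]
  have hmem : ∀ g, (∃ n, 0 < n ∧ ∀ e, Z (g ^ n) e = 0) →
      ∀ e, Z g e ∈ LinearMap.range (hom_rho (X := X) g - LinearMap.id) := by
    rintro g ⟨n, hn, h⟩ e
    exact hom_mem_range_of_sum_pow _ n hn _ (by rw [← hZpow, h])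
  -- a cocycle that is a coboundary on the generators is a coboundary
  have hcob : ∀ e (w : X → ℂ), Z s e = hom_rho s w - w → Z t e = hom_rho t w - w →
      ∀ g, Z g e = hom_rho g w - w := by
    intro e w h1 h2 g
    have hg : g ∈ Subgroup.closure ({s, t} : Set G) := by
      rw [hgen]
      trivial
    induction hg using Subgroup.closure_induction with
    | mem z hz =>
      rcases hz with rfl | rfl
      · exact h1
      · exact h2
    | one => rw [hZ1, hom_rho_one, sub_self]
    | mul a b _ _ ha hb =>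
      rw [hZ, ha, hb, hom_rho_mul, map_sub]
      abel
    | inv a _ ha =>
      have h0 := hZ a⁻¹ a e
      rw [inv_mul_cancel, hZ1, ha, map_sub, ← hom_rho_mul, inv_mul_cancel, hom_rho_one] at h0
      have h3 : Z a⁻¹ e = -(w - hom_rho a⁻¹ w) := eq_neg_of_add_eq_zero_left h0.symm
      rw [h3]
      abel
  -- invariant functions are constant
  have hconst : ∀ v : X → ℂ, hom_rho s v = v → hom_rho t v = v →
      v ∈ Submodule.span ℂ {(fun _ => (1 : ℂ) : X → ℂ)} := by
    intro v h1 h2
    have hinv : ∀ g : G, hom_rho g v = v := by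
      intro g
      have hg : g ∈ Subgroup.closure ({s, t} : Set G) := by
        rw [hgen]
        trivial
      induction hg using Subgroup.closure_induction with
      | mem z hz =>
        rcases hz with rfl | rfl
        · exact h1
        · exact h2
      | one => exact hom_rho_one v
      | mul a b _ _ ha hb => rw [hom_rho_mul, hb, ha]
      | inv a _ ha =>
        conv_lhs => rw [← ha]
        rw [← hom_rho_mul, inv_mul_cancel, hom_rho_one]
    rcases isEmpty_or_nonempty X with hX | ⟨⟨x0⟩⟩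
    · have : v = 0 := funext fun x => (hX.false x).elim
      rw [this]
      exact Submodule.zero_mem _
    · have hv : v = v x0 • (fun _ => (1 : ℂ) : X → ℂ) := by
        ext y
        obtain ⟨g, rfl⟩ := MulAction.exists_smul_eq G x0 y
        have := congrFun (hinv g) (g • x0)
        rw [hom_rho_apply, inv_smul_smul] at this
        simp [← this]
      rw [hv]
      exact Submodule.smul_mem _ _ (Submodule.mem_span_singleton_self _)
  have hfin : Module.Finite ℂ E := by
    let f : E →ₗ[ℂ] (X → ℂ) × (X → ℂ) := (Z s).prod (Z t)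
    have hf : Function.Injective f := by
      rw [← LinearMap.ker_eq_bot, LinearMap.ker_eq_bot']
      intro e he
      have h1 : Z s e = 0 := congrArg Prod.fst he
      have h2 : Z t e = 0 := congrArg Prod.snd he
      refine hinj e 0 (hcob e 0 ?_ ?_)
      · rw [h1]
        simp
      · rw [h2]
        simp
    exact FiniteDimensional.of_injective f hf
  refine ⟨hfin, ?_⟩
  set A : G → (X → ℂ) →ₗ[ℂ] (X → ℂ) := fun g => hom_rho g - LinearMap.id with hA
  have hAa : ∀ g v, A g v = hom_rho g v - v := fun g v => rfl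
  have hms : ∀ e, Z s e ∈ LinearMap.range (A s) := hmem s hs
  have hmt : ∀ e, Z t e ∈ LinearMap.range (A t) := hmem t ht
  have hmu : ∀ e, Z (s * t) e ∈ LinearMap.range (A (s * t)) := hmem (s * t) hu
  let Θ : (E × (X → ℂ)) →ₗ[ℂ]
      (LinearMap.range (A s) × LinearMap.range (A t) × LinearMap.range (A (s * t))) :=
    (LinearMap.codRestrict (LinearMap.range (A s))
        ((Z s).comp (LinearMap.fst ℂ E (X → ℂ)) + (A s).comp (LinearMap.snd ℂ E (X → ℂ)))
        (fun w => Submodule.add_mem _ (hms w.1) ⟨w.2, rfl⟩)).prod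
      ((LinearMap.codRestrict (LinearMap.range (A t))
        ((Z t).comp (LinearMap.fst ℂ E (X → ℂ)) + (A t).comp (LinearMap.snd ℂ E (X → ℂ)))
        (fun w => Submodule.add_mem _ (hmt w.1) ⟨w.2, rfl⟩)).prod
      (LinearMap.codRestrict (LinearMap.range (A (s * t)))
        ((Z (s * t)).comp (LinearMap.fst ℂ E (X → ℂ)) +
          (A (s * t)).comp (LinearMap.snd ℂ E (X → ℂ)))
        (fun w => Submodule.add_mem _ (hmu w.1) ⟨w.2, rfl⟩)))
  have hΘ1 : ∀ w, ((Θ w).1 : X → ℂ) = Z s w.1 + A s w.2 := fun w => rfl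
  have hΘ2 : ∀ w, ((Θ w).2.1 : X → ℂ) = Z t w.1 + A t w.2 := fun w => rfl
  have hΘ3 : ∀ w, ((Θ w).2.2 : X → ℂ) = Z (s * t) w.1 + A (s * t) w.2 := fun w => rfl
  let δ : (LinearMap.range (A s) × LinearMap.range (A t) × LinearMap.range (A (s * t))) →ₗ[ℂ]
      (X → ℂ) :=
    (LinearMap.range (A s)).subtype.coprod
      (((hom_rho s).comp (LinearMap.range (A t)).subtype).coprod
        (-(LinearMap.range (A (s * t))).subtype))
  have hδ : ∀ w, δ w = (w.1 : X → ℂ) + (hom_rho s (w.2.1 : X → ℂ) + -(w.2.2 : X → ℂ)) :=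
    fun w => rfl
  have hδΘ : ∀ w, δ (Θ w) = 0 := by
    intro w
    rw [hδ, hΘ1, hΘ2, hΘ3, hZ s t, hAa, hAa, hAa, hom_rho_mul, map_add, map_sub]
    abel
  have hrange_le : LinearMap.range Θ ≤ LinearMap.ker δ := by
    rintro _ ⟨w, rfl⟩
    exact hδΘ w
  have hrnδ := LinearMap.finrank_range_add_finrank_ker δ
  have hrnΘ := LinearMap.finrank_range_add_finrank_ker Θ
  rw [Module.finrank_prod, Module.finrank_fintype_fun_eq_card] at hrnΘ
  rw [Module.finrank_prod, Module.finrank_prod] at hrnδ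
  have h1 : Module.finrank ℂ (LinearMap.range Θ) ≤ Module.finrank ℂ (LinearMap.ker δ) :=
    Submodule.finrank_mono hrange_le
  -- the kernel of `Θ` consists of constant functions
  have hkerΘ : Module.finrank ℂ (LinearMap.ker Θ) ≤ 1 := by
    have hle : LinearMap.ker Θ ≤
        Submodule.span ℂ {((0 : E), (fun _ => (1 : ℂ) : X → ℂ))} := by
      intro w hw
      rw [LinearMap.mem_ker] at hw
      have hw1 : Z s w.1 + A s w.2 = 0 := by
        rw [← hΘ1, hw]
        rfl
      have hw2 : Z t w.1 + A t w.2 = 0 := by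
        rw [← hΘ2, hw]
        rfl
      have hw1' : Z s w.1 = hom_rho s (-w.2) - -w.2 := by
        rw [eq_neg_of_add_eq_zero_left hw1, hAa, map_neg]
        abel
      have hw2' : Z t w.1 = hom_rho t (-w.2) - -w.2 := by
        rw [eq_neg_of_add_eq_zero_left hw2, hAa, map_neg]
        abel
      have he : w.1 = 0 := hinj w.1 (-w.2) (hcob w.1 (-w.2) hw1' hw2')
      rw [he, map_zero, zero_add, hAa, sub_eq_zero] at hw1 hw2
      obtain ⟨c, hc⟩ := Submodule.mem_span_singleton.mp (hconst w.2 hw1 hw2)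
      refine Submodule.mem_span_singleton.mpr ⟨c, ?_⟩
      refine Prod.ext ?_ ?_
      · simp [he]
      · simpa using hc
    exact (Submodule.finrank_mono hle).trans
      ((finrank_span_le_card _).trans (by simp))
  -- the range of `δ` has codimension at most one
  have hrangeδ : Fintype.card X ≤ Module.finrank ℂ (LinearMap.range δ) + 1 := by
    rcases isEmpty_or_nonempty X with hX | ⟨⟨x0⟩⟩
    · rw [Fintype.card_eq_zero]
      exact Nat.zero_le _
    have hR1 : LinearMap.range (A s) ≤ LinearMap.range δ := by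
      intro w hw
      refine ⟨(⟨w, hw⟩, 0, 0), ?_⟩
      rw [hδ]
      simp
    have hR2 : LinearMap.range (A t) ≤ LinearMap.range δ := by
      intro w hw
      refine ⟨(⟨-A s w, ⟨-w, by rw [map_neg]⟩⟩, ⟨w, hw⟩, 0), ?_⟩
      rw [hδ]
      simp only [hAa, Submodule.coe_zero, neg_zero, add_zero]
      abel
    have hstep : ∀ g : G, LinearMap.range (A g) ≤ LinearMap.range δ →
        ∀ x, (Pi.single (g • x) (1 : ℂ) - Pi.single x (1 : ℂ) : X → ℂ) ∈ LinearMap.range δ := by
      intro g hg x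
      apply hg
      refine ⟨Pi.single x (1 : ℂ), ?_⟩
      rw [hAa, hom_rho_single]
    have hcl : ∀ g : G, ∀ x,
        (Pi.single (g • x) (1 : ℂ) - Pi.single x (1 : ℂ) : X → ℂ) ∈ LinearMap.range δ := by
      intro g
      have hg : g ∈ Subgroup.closure ({s, t} : Set G) := by
        rw [hgen]
        trivial
      induction hg using Subgroup.closure_induction with
      | mem z hz =>
        rcases hz with rfl | rfl
        · exact hstep _ hR1
        · exact hstep _ hR2
      | one => intro x; simp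
      | mul a b _ _ iha ihb =>
        intro x
        have h := Submodule.add_mem _ (iha (b • x)) (ihb x)
        rw [mul_smul]
        convert h using 1
        abel
      | inv a _ ih =>
        intro x
        have h := Submodule.neg_mem _ (ih (a⁻¹ • x))
        rw [smul_inv_smul] at h
        convert h using 1
        abel
    have htop : (⊤ : Submodule ℂ (X → ℂ)) ≤
        LinearMap.range δ ⊔ Submodule.span ℂ {(Pi.single x0 (1 : ℂ) : X → ℂ)} := by
      rw [← (Pi.basisFun ℂ X).span_eq, Submodule.span_le]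
      rintro _ ⟨x, rfl⟩
      rw [Pi.basisFun_apply]
      obtain ⟨g, rfl⟩ := MulAction.exists_smul_eq G x0 x
      have h := hcl g x0
      have h2 : (Pi.single (g • x0) (1 : ℂ) : X → ℂ) =
          (Pi.single (g • x0) (1 : ℂ) - Pi.single x0 (1 : ℂ)) + Pi.single x0 (1 : ℂ) := by abel
      rw [SetLike.mem_coe, h2]
      exact Submodule.add_mem _ (Submodule.mem_sup_left h)
        (Submodule.mem_sup_right (Submodule.mem_span_singleton_self _))
    have h3 := Submodule.finrank_mono htop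
    rw [finrank_top, Module.finrank_fintype_fun_eq_card] at h3
    have h4 := Submodule.finrank_add_le_finrank_add_finrank (LinearMap.range δ)
      (Submodule.span ℂ {(Pi.single x0 (1 : ℂ) : X → ℂ)})
    have h5 : Module.finrank ℂ (Submodule.span ℂ {(Pi.single x0 (1 : ℂ) : X → ℂ)}) ≤ 1 :=
      (finrank_span_le_card _).trans (by simp)
    omega
  have e1 := hom_finrank_range_rho_sub (X := X) s
  have e2 := hom_finrank_range_rho_sub (X := X) t
  have e3 := hom_finrank_range_rho_sub (X := X) (s * t)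
  rw [Nat.card_eq_fintype_card (α := X)] at e1 e2 e3 ⊢
  have e1' : Module.finrank ℂ (LinearMap.range (A s)) +
      Nat.card (orbitRel.Quotient (Subgroup.zpowers s) X) = Fintype.card X := e1
  have e2' : Module.finrank ℂ (LinearMap.range (A t)) +
      Nat.card (orbitRel.Quotient (Subgroup.zpowers t) X) = Fintype.card X := e2
  have e3' : Module.finrank ℂ (LinearMap.range (A (s * t))) +
      Nat.card (orbitRel.Quotient (Subgroup.zpowers (s * t)) X) = Fintype.card X := e3
  omega

end Abstract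

section Cocycle

variable {G : Type*} [Group G] (Γ : Subgroup G)

/-- `h(g, y) = (g • y).out⁻¹ * g * y.out ∈ Γ` for a coset `y ∈ G ⧸ Γ`. -/
noncomputable def hom_h (g : G) (y : G ⧸ Γ) : Γ :=
  ⟨(g • y).out⁻¹ * g * y.out, by
    have h1 : (((g • y).out : G) : G ⧸ Γ) = ((g * y.out : G) : G ⧸ Γ) := by
      rw [QuotientGroup.out_eq']
      conv_lhs => rw [← QuotientGroup.out_eq' y]
      rfl
    have h2 := QuotientGroup.eq.mp h1
    rwa [← mul_assoc] at h2⟩

theorem hom_h_coe (g : G) (y : G ⧸ Γ) :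
    ((hom_h Γ g y : Γ) : G) = (g • y).out⁻¹ * g * y.out := rfl

theorem hom_h_mul (g₁ g₂ : G) (y : G ⧸ Γ) :
    hom_h Γ (g₁ * g₂) y = hom_h Γ g₁ (g₂ • y) * hom_h Γ g₂ y := by
  apply Subtype.ext
  simp only [hom_h_coe, Subgroup.coe_mul, mul_smul]
  group

/-- The cocycle of `G` with values in functions on `G ⧸ Γ` attached to a homomorphism
`φ : Γ → ℂ`: `Z g φ x = φ (h(g, g⁻¹ • x))`. -/
noncomputable def hom_Z (g : G) : (Additive Γ →+ ℂ) →ₗ[ℂ] (G ⧸ Γ → ℂ) where
  toFun φ := fun x => φ (Additive.ofMul (hom_h Γ g (g⁻¹ • x)))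
  map_add' _ _ := rfl
  map_smul' _ _ := rfl

theorem hom_Z_apply (g : G) (φ : Additive Γ →+ ℂ) (x : G ⧸ Γ) :
    hom_Z Γ g φ x = φ (Additive.ofMul (hom_h Γ g (g⁻¹ • x))) := rfl

theorem hom_Z_mul (g₁ g₂ : G) (φ : Additive Γ →+ ℂ) :
    hom_Z Γ (g₁ * g₂) φ = hom_Z Γ g₁ φ + hom_rho g₁ (hom_Z Γ g₂ φ) := by
  ext x
  rw [Pi.add_apply, hom_rho_apply, hom_Z_apply, hom_Z_apply, hom_Z_apply, hom_h_mul, ofMul_mul,
    map_add]
  have e1 : g₂ • (g₁ * g₂)⁻¹ • x = g₁⁻¹ • x := by
    rw [smul_smul]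
    congr 1
    group
  have e2 : (g₁ * g₂)⁻¹ • x = g₂⁻¹ • g₁⁻¹ • x := by
    rw [mul_inv_rev, mul_smul]
  rw [e1, e2]

/-- At the base coset the cocycle recovers the homomorphism. -/
theorem hom_Z_base (γ : Γ) (φ : Additive Γ →+ ℂ) :
    hom_Z Γ (γ : G) φ ((1 : G) : G ⧸ Γ) = φ (Additive.ofMul γ) := by
  have hfix : ∀ δ : Γ, (δ : G) • (((1 : G) : G ⧸ Γ)) = ((1 : G) : G ⧸ Γ) := by
    intro δ
    change (((δ : G) * 1 : G) : G ⧸ Γ) = ((1 : G) : G ⧸ Γ)
    rw [QuotientGroup.eq]
    simp
  have hfix' : (γ : G)⁻¹ • (((1 : G) : G ⧸ Γ)) = ((1 : G) : G ⧸ Γ) := hfix γ⁻¹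
  have hk : (((1 : G) : G ⧸ Γ)).out ∈ Γ := by
    have h1 : (((((1 : G) : G ⧸ Γ)).out : G) : G ⧸ Γ) = ((1 : G) : G ⧸ Γ) :=
      QuotientGroup.out_eq' _
    have h2 := QuotientGroup.eq.mp h1.symm
    simpa using h2
  set k : Γ := ⟨_, hk⟩ with hkdef
  have hval : hom_h Γ (γ : G) ((1 : G) : G ⧸ Γ) = k⁻¹ * γ * k := by
    apply Subtype.ext
    rw [hom_h_coe, hfix γ]
    rfl
  rw [hom_Z_apply, hfix', hval, ofMul_mul, ofMul_mul, ofMul_inv, map_add, map_add, map_neg]
  ring

/-- If `g` acts trivially on the cosets and `φ` kills all conjugates of `g` in `Γ`, then the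
cocycle vanishes at `g`. -/
theorem hom_Z_eq_zero (g : G) (hg : ∀ x : G ⧸ Γ, g • x = x) (φ : Additive Γ →+ ℂ)
    (hφ : ∀ (k : G) (hk : k⁻¹ * g * k ∈ Γ), φ (Additive.ofMul (⟨k⁻¹ * g * k, hk⟩ : Γ)) = 0) :
    hom_Z Γ g φ = 0 := by
  ext x
  have hx : g⁻¹ • x = x := by
    rw [inv_smul_eq_iff, hg]
  have hval : ((hom_h Γ g x : Γ) : G) = x.out⁻¹ * g * x.out := by
    rw [hom_h_coe, hg]
  have hmem : x.out⁻¹ * g * x.out ∈ Γ := hval ▸ (hom_h Γ g x).2
  have heq : hom_h Γ g x = ⟨_, hmem⟩ := Subtype.ext hval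
  rw [hom_Z_apply, hx, heq, hφ x.out hmem]
  rfl

end Cocycle

section Orbits

variable {G X : Type*} [Group G] [MulAction G X]

/-- The orbits of `g` are the cycles of the permutation it induces. -/
theorem hom_cyc_toPerm (g : G) :
    Fermat.Agent.S24.cyc (MulAction.toPermHom G X g) =
      Nat.card (orbitRel.Quotient (Subgroup.zpowers g) X) := by
  unfold Fermat.Agent.S24.cyc orbitRel.Quotient
  have hset : orbitRel (Subgroup.zpowers (MulAction.toPermHom G X g)) X =
      orbitRel (Subgroup.zpowers g) X := by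
    ext x y
    rw [Fermat.Agent.S24.cyc_rel_iff, orbitRel_apply]
    constructor
    · rintro ⟨i, hi⟩
      refine ⟨⟨g ^ i, ⟨i, rfl⟩⟩, ?_⟩
      rw [← hi, ← map_zpow]
      rfl
    · rintro ⟨⟨k, hk⟩, rfl⟩
      obtain ⟨i, rfl⟩ := Subgroup.mem_zpowers_iff.mp hk
      refine ⟨i, ?_⟩
      rw [← map_zpow]
      rfl
  rw [hset]

/-- Orbit count of an element whose `p`-th power acts trivially (`p` prime). -/
theorem hom_mul_card_orbits [Finite X] (g : G) (p : ℕ) (hp : p.Prime)
    (hg : ∀ x : X, g ^ p • x = x) :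
    p * Nat.card (orbitRel.Quotient (Subgroup.zpowers g) X) =
      Nat.card X + (p - 1) * Nat.card {x : X // g • x = x} := by
  classical
  let _ : Fintype X := Fintype.ofFinite X
  have h := Fermat.Agent.S24.mul_cyc_of_pow_prime_eq_one (MulAction.toPermHom G X g) p hp (by
    rw [← map_pow]
    ext x
    exact hg x)
  rw [hom_cyc_toPerm] at h
  rw [h, Nat.card_eq_fintype_card, Nat.card_eq_fintype_card, Fintype.card_subtype]
  rfl

end Orbits

section Modular

open Matrix ModularGroup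

theorem hom_trace_conj (k g : SL(2, ℤ)) :
    ((k⁻¹ * g * k : SL(2, ℤ)) : Matrix (Fin 2) (Fin 2) ℤ).trace =
      (g : Matrix (Fin 2) (Fin 2) ℤ).trace := by
  have h : ((k⁻¹ * g * k : SL(2, ℤ)) : Matrix (Fin 2) (Fin 2) ℤ) =
      (k⁻¹ : SL(2, ℤ)).1 * g.1 * k.1 := rfl
  have h2 : k.1 * (k⁻¹ : SL(2, ℤ)).1 = 1 := congrArg Subtype.val (mul_inv_cancel k)
  rw [h, Matrix.trace_mul_cycle, h2, one_mul]

theorem hom_S_sq : (S : SL(2, ℤ)) ^ 2 = -1 := by decide

theorem hom_ST_cube : ((S : SL(2, ℤ)) * T) ^ 3 = -1 := by decide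

theorem hom_trace_neg_one :
    ((-1 : SL(2, ℤ)) : Matrix (Fin 2) (Fin 2) ℤ).trace ^ 2 = 4 := by decide

theorem hom_trace_T_pow (n : ℕ) :
    ((T ^ n : SL(2, ℤ)) : Matrix (Fin 2) (Fin 2) ℤ).trace ^ 2 = 4 := by
  rw [← zpow_natCast, coe_T_zpow, Matrix.trace_fin_two]
  norm_num

theorem hom_neg_one_smul (N : ℕ) (x : Q N) : (-1 : SL(2, ℤ)) • x = x := by
  induction x using QuotientGroup.induction_on with
  | H k =>
    change (((-1 : SL(2, ℤ)) * k : SL(2, ℤ)) : Q N) = (k : Q N)
    rw [QuotientGroup.eq, Gamma0_mem]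
    have : (-1 * k)⁻¹ * k = (-1 : SL(2, ℤ)) := by
      rw [neg_one_mul, ← neg_inv, neg_mul, inv_mul_cancel]
    rw [this]
    simp

/-- The dimension bound in terms of orbit counts. -/
theorem hom_parabolic_bound (N : ℕ) [NeZero N] :
    Module.Finite ℂ (parabolicHoms ℂ (Gamma0 N) ℂ) ∧
      Module.finrank ℂ (parabolicHoms ℂ (Gamma0 N) ℂ)
        + Nat.card (orbitRel.Quotient (Subgroup.zpowers (S : SL(2, ℤ))) (Q N))
        + Nat.card (orbitRel.Quotient (Subgroup.zpowers (T : SL(2, ℤ))) (Q N))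
        + Nat.card (orbitRel.Quotient (Subgroup.zpowers ((S : SL(2, ℤ)) * T)) (Q N)) ≤
          Nat.card (Q N) + 2 := by
  have hfinX : Finite (Q N) := Subgroup.finite_quotient_of_finiteIndex
  let Z : SL(2, ℤ) → ↥(parabolicHoms ℂ (Gamma0 N) ℂ) →ₗ[ℂ] (Q N → ℂ) :=
    fun g => (hom_Z (Gamma0 N) g).comp (parabolicHoms ℂ (Gamma0 N) ℂ).subtype
  have hZa : ∀ g e, Z g e = hom_Z (Gamma0 N) g (e : Additive (Gamma0 N) →+ ℂ) := fun g e => rfl
  -- vanishing at elements acting trivially with trace `±2`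
  have hvan : ∀ g : SL(2, ℤ), (∀ x : Q N, g • x = x) →
      (g : Matrix (Fin 2) (Fin 2) ℤ).trace ^ 2 = 4 → ∀ e, Z g e = 0 := by
    intro g hg htr e
    rw [hZa]
    refine hom_Z_eq_zero (Gamma0 N) g hg _ fun k hk => ?_
    refine (mem_parabolicHoms_iff.mp e.2) ⟨_, hk⟩ ?_
    rw [hom_trace_conj]
    exact htr
  refine hom_finrank_add_le (S : SL(2, ℤ)) T SpecialLinearGroup.SL2Z_generators Z ?_ ?_ ?_ ?_ ?_
  · intro g h e
    rw [hZa, hZa, hZa, hom_Z_mul]
  · refine ⟨2, two_pos, hvan _ ?_ ?_⟩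
    · rw [hom_S_sq]
      exact hom_neg_one_smul N
    · rw [hom_S_sq]
      exact hom_trace_neg_one
  · have hpos : 0 < orderOf (MulAction.toPermHom SL(2, ℤ) (Q N) T) := orderOf_pos _
    refine ⟨_, hpos, hvan _ ?_ (hom_trace_T_pow _)⟩
    intro x
    have h1 : MulAction.toPermHom SL(2, ℤ) (Q N)
        (T ^ orderOf (MulAction.toPermHom SL(2, ℤ) (Q N) T)) = 1 := by
      rw [map_pow, pow_orderOf_eq_one]
    have h2 := congrArg (fun σ : Equiv.Perm (Q N) => σ x) h1
    exact h2
  · refine ⟨3, by norm_num, hvan _ ?_ ?_⟩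
    · rw [hom_ST_cube]
      exact hom_neg_one_smul N
    · rw [hom_ST_cube]
      exact hom_trace_neg_one
  · intro e v h
    apply Subtype.ext
    refine AddMonoidHom.ext fun a => ?_
    have h1 := congrFun (h ((Additive.toMul a : Gamma0 N) : SL(2, ℤ))) ((1 : SL(2, ℤ)) : Q N)
    rw [hZa, hom_Z_base, Pi.sub_apply, hom_rho_apply] at h1
    have hfix : ((Additive.toMul a : Gamma0 N) : SL(2, ℤ))⁻¹ • (((1 : SL(2, ℤ)) : Q N)) =
        ((1 : SL(2, ℤ)) : Q N) := by
      change ((((Additive.toMul a : Gamma0 N) : SL(2, ℤ))⁻¹ * 1 : SL(2, ℤ)) : Q N) = _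
      rw [QuotientGroup.eq]
      simp
    rw [hfix, sub_self] at h1
    exact h1

theorem finite_parabolicHoms (N : ℕ) [NeZero N] :
    Module.Finite ℂ (parabolicHoms ℂ (Gamma0 N) ℂ) :=
  (hom_parabolic_bound N).1

theorem six_finrank_parabolicHoms_le (N : ℕ) [NeZero N] :
    6 * (Module.finrank ℂ (parabolicHoms ℂ (Gamma0 N) ℂ) : ℤ) ≤ genusNum N := by
  have hfinX : Finite (Q N) := Subgroup.finite_quotient_of_finiteIndex
  have h := (hom_parabolic_bound N).2
  have h2 : 2 * Nat.card (orbitRel.Quotient (Subgroup.zpowers (S : SL(2, ℤ))) (Q N)) =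
      Nat.card (Q N) + (2 - 1) * Nat.card {x : Q N // (S : SL(2, ℤ)) • x = x} :=
    hom_mul_card_orbits (X := Q N) (S : SL(2, ℤ)) 2 Nat.prime_two (fun x => by
      rw [hom_S_sq]
      exact hom_neg_one_smul N x)
  have h3 : 3 * Nat.card (orbitRel.Quotient (Subgroup.zpowers ((S : SL(2, ℤ)) * T)) (Q N)) =
      Nat.card (Q N) + (3 - 1) * Nat.card {x : Q N // ((S : SL(2, ℤ)) * T) • x = x} :=
    hom_mul_card_orbits (X := Q N) ((S : SL(2, ℤ)) * T) 3 Nat.prime_three (fun x => by
      rw [hom_ST_cube]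
      exact hom_neg_one_smul N x)
  unfold genusNum mu eps2 eps3 epsInf
  omega

end Modular

end Fermat.Agent.S20
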