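import Mathlib
import Fermat.Agent.S20.Period

/-!
# S20/S21, module N: injectivity of the period map on the `±`-eigenspaces of the involution

If `(1 + ι) P(f) = 0` (or `(1 - ι) P(f) = 0`) for a weight-2 cusp form `f` on `Gamma0 N`, then
`f = 0`.  With `F` the canonical primitive and `G z = conj (F (-conj z))`, both `F + εG` and
`i (F - εG)` change by purely imaginary constants under `Gamma0 N`, so the absolute values of
their exponentials are `Gamma0 N`-invariant; a maximum modulus argument on the `q^(1/N)`-discs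
of all the conjugates (`periodInj_exp_const`) shows that they are constant, hence `F' = f = 0`.
-/

set_option autoImplicit false

open UpperHalfPlane ModularForm CongruenceSubgroup Filter Topology ModularCurve ModularCurve.Period
open scoped MatrixGroups

namespace Fermat.Agent.S20

open Fermat.Agent.S22

/-! ### Part 1: a maximum modulus principle on `Gamma0 N \ ℍ` -/

theorem periodInj_conj_T_mem (N : ℕ) (δ : SL(2, ℤ)) :
    δ * ModularGroup.T ^ (N : ℤ) * δ⁻¹ ∈ Gamma0 N := by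
  have h1 : ModularGroup.T ^ (N : ℤ) ∈ Gamma N := by
    rw [Gamma_mem, ModularGroup.coe_T_zpow]
    simp
  have h2 := (Gamma_normal N).conj_mem _ h1 δ
  rw [Gamma_mem] at h2
  rw [Gamma0_mem]
  exact h2.2.2.1

theorem periodInj_tendsto_vadd (x : ℝ) :
    Tendsto (fun w : ℍ => x +ᵥ w) atImInfty atImInfty := by
  rw [atImInfty, tendsto_comap_iff]
  have : (UpperHalfPlane.im ∘ fun w : ℍ => x +ᵥ w) = UpperHalfPlane.im := by
    funext w
    simp [UpperHalfPlane.vadd_im]
  rw [this]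
  exact tendsto_comap

theorem periodInj_periodic (N : ℕ) (u : ℍ → ℂ)
    (hinv : ∀ γ ∈ Gamma0 N, ∃ c : ℂ, c.re = 0 ∧ ∀ z : ℍ, u (γ • z) - u z = c)
    (hlim : ∀ δ : SL(2, ℤ), ∃ L : ℂ, Tendsto (fun w : ℍ => u (δ • w)) atImInfty (𝓝 L))
    (δ : SL(2, ℤ)) (w : ℍ) : u (δ • ((N : ℝ) +ᵥ w)) = u (δ • w) := by
  obtain ⟨c, -, hc⟩ := hinv _ (periodInj_conj_T_mem N δ)
  obtain ⟨L, hL⟩ := hlim δ
  have key : ∀ w : ℍ, u (δ • ((N : ℝ) +ᵥ w)) - u (δ • w) = c := by
    intro w
    have h1 := hc (δ • w)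
    have h2 : (δ * ModularGroup.T ^ (N : ℤ) * δ⁻¹) • δ • w = δ • ((N : ℝ) +ᵥ w) := by
      rw [mul_smul, mul_smul, inv_smul_smul, UpperHalfPlane.modular_T_zpow_smul]
      simp
    rwa [h2] at h1
  have h1 : Tendsto (fun w : ℍ => u (δ • ((N : ℝ) +ᵥ w)) - u (δ • w)) atImInfty (𝓝 (L - L)) :=
    (hL.comp (periodInj_tendsto_vadd N)).sub hL
  have h2 : Tendsto (fun _ : ℍ => c) atImInfty (𝓝 (L - L)) := h1.congr key
  have h3 : c = L - L := tendsto_nhds_unique tendsto_const_nhds h2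
  have := key w
  rw [h3, sub_self] at this
  exact sub_eq_zero.mp this

theorem periodInj_differentiableOn_cuspFunction {h : ℝ} (hh : 0 < h) {Φ : ℂ → ℂ}
    (hper : Function.Periodic Φ (h : ℂ)) (hdiff : ∀ z : ℂ, 0 < z.im → DifferentiableAt ℂ Φ z)
    (hbd : BoundedAtFilter (comap Complex.im atTop) Φ) :
    DifferentiableOn ℂ (Function.Periodic.cuspFunction h Φ) (Metric.ball 0 1) := by
  intro q hq
  apply DifferentiableAt.differentiableWithinAt
  rcases eq_or_ne q 0 with rfl | hq0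
  · exact Function.Periodic.differentiableAt_cuspFunction_zero hh hper
      ((tendsto_comap.eventually (eventually_gt_atTop 0)).mono hdiff) hbd
  · have hq1 : ‖q‖ < 1 := by simpa using hq
    have him : 0 < (Function.Periodic.invQParam h q).im := by
      rw [Function.Periodic.im_invQParam]
      have hlog : Real.log ‖q‖ < 0 := Real.log_neg (norm_pos_iff.mpr hq0) hq1
      have : -h / (2 * Real.pi) < 0 := by
        apply div_neg_of_neg_of_pos (by linarith) (by positivity)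
      exact mul_pos_of_neg_of_neg this hlog
    have := Function.Periodic.differentiableAt_cuspFunction hh.ne' hper (hdiff _ him)
    rwa [Function.Periodic.qParam_right_inv hh.ne' hq0] at this

theorem periodInj_exp_const (N : ℕ) [NeZero N] (u : ℍ → ℂ)
    (hdiff : ∀ τ : ℍ, DifferentiableAt ℂ (u ∘ ofComplex) ↑τ)
    (hinv : ∀ γ ∈ Gamma0 N, ∃ c : ℂ, c.re = 0 ∧ ∀ z : ℍ, u (γ • z) - u z = c)
    (hlim : ∀ δ : SL(2, ℤ), ∃ L : ℂ, Tendsto (fun w : ℍ => u (δ • w)) atImInfty (𝓝 L)) :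
    ∃ C : ℂ, ∀ z : ℍ, Complex.exp (u z) = C := by
  have hN : (0 : ℝ) < N := Nat.cast_pos.mpr (NeZero.pos N)
  -- the conjugates, as functions on `ℂ`
  set Hc : SL(2, ℤ) → ℂ → ℂ := fun δ z => Complex.exp (u (δ • ofComplex z)) with hHc
  have hper : ∀ δ, Function.Periodic (Hc δ) ((N : ℝ) : ℂ) := by
    intro δ z
    simp only [hHc]
    by_cases hz : 0 < z.im
    · have hz' : 0 < (z + ((N : ℝ) : ℂ)).im := by simpa using hz
      have e : ofComplex (z + ((N : ℝ) : ℂ)) = (N : ℝ) +ᵥ ofComplex z := by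
        rw [ofComplex_apply_of_im_pos hz', ofComplex_apply_of_im_pos hz]
        apply UpperHalfPlane.ext
        rw [UpperHalfPlane.coe_vadd]
        show z + ((N : ℝ) : ℂ) = ((N : ℝ) : ℂ) + z
        ring
      rw [e, periodInj_periodic N u hinv hlim δ]
    · have hz1 : z.im ≤ 0 := not_lt.mp hz
      have hz2 : (z + ((N : ℝ) : ℂ)).im ≤ 0 := by simpa using hz1
      rw [ofComplex_apply_eq_of_im_nonpos hz2 hz1]
  have hHdiff : ∀ δ (z : ℂ), 0 < z.im → DifferentiableAt ℂ (Hc δ) z := by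
    intro δ z hz
    have h1 : DifferentiableAt ℂ (u ∘ ofComplex) (mob δ z) := by
      have := hdiff (δ • ⟨z, hz⟩)
      rwa [← mob_coe] at this
    have h2 : DifferentiableAt ℂ (fun z' => Complex.exp ((u ∘ ofComplex) (mob δ z'))) z :=
      (h1.comp z (hasDerivAt_mob δ hz).differentiableAt).cexp
    refine h2.congr_of_eventuallyEq ?_
    filter_upwards [(isOpen_lt continuous_const Complex.continuous_im).mem_nhds hz] with z' hz'
    simp only [hHc, Function.comp_apply]
    rw [ofComplex_apply_of_im_pos hz']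
    have e : mob δ z' = ((δ • (⟨z', hz'⟩ : ℍ) : ℍ) : ℂ) := mob_coe δ ⟨z', hz'⟩
    rw [e, ofComplex_apply]
  have hHbd : ∀ δ, BoundedAtFilter (comap Complex.im atTop) (Hc δ) := by
    intro δ
    obtain ⟨L, hL⟩ := hlim δ
    have h1 : Tendsto (Hc δ) (comap Complex.im atTop) (𝓝 (Complex.exp L)) :=
      (Complex.continuous_exp.tendsto L).comp (hL.comp tendsto_comap_im_ofComplex)
    exact h1.isBigO_one ℝ
  have hcd : ∀ δ, DifferentiableOn ℂ (Function.Periodic.cuspFunction N (Hc δ))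
      (Metric.ball 0 1) := fun δ =>
    periodInj_differentiableOn_cuspFunction hN (hper δ) (hHdiff δ) (hHbd δ)
  -- radius
  set r : ℝ := Real.exp (-Real.pi / N) with hr
  have hr0 : 0 ≤ r := (Real.exp_pos _).le
  have hr1 : r < 1 := by
    rw [hr, Real.exp_lt_one_iff]
    exact div_neg_of_neg_of_pos (by linarith [Real.pi_pos]) hN
  -- coset representatives
  set s : (SL(2, ℤ) ⧸ Gamma0 N) → SL(2, ℤ) := fun q => (q.out)⁻¹ with hs
  have hmaxq : ∀ q : SL(2, ℤ) ⧸ Gamma0 N, ∃ x ∈ Metric.closedBall (0 : ℂ) r, ∀ y ∈ Metric.closedBall (0 : ℂ) r,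
      ‖Function.Periodic.cuspFunction N (Hc (s q)) y‖
        ≤ ‖Function.Periodic.cuspFunction N (Hc (s q)) x‖ := by
    intro q
    have hcont : ContinuousOn (fun y => ‖Function.Periodic.cuspFunction N (Hc (s q)) y‖)
        (Metric.closedBall (0 : ℂ) r) :=
      ((hcd (s q)).continuousOn.mono (Metric.closedBall_subset_ball hr1)).norm
    obtain ⟨x, hx, hmax⟩ := (isCompact_closedBall (0 : ℂ) r).exists_isMaxOn
      ⟨0, Metric.mem_closedBall_self hr0⟩ hcont
    exact ⟨x, hx, fun y hy => hmax hy⟩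
  choose x hx hxmax using hmaxq
  have hfin : Finite (SL(2, ℤ) ⧸ Gamma0 N) := inferInstance
  obtain ⟨q₀, hq₀⟩ := Finite.exists_max
    (fun q : SL(2, ℤ) ⧸ Gamma0 N => ‖Function.Periodic.cuspFunction N (Hc (s q)) (x q)‖)
  -- the global bound
  have claim : ∀ z : ℍ, ‖Complex.exp (u z)‖
      ≤ ‖Function.Periodic.cuspFunction N (Hc (s q₀)) (x q₀)‖ := by
    intro z
    obtain ⟨g, hg⟩ := ModularGroup.exists_one_half_le_im_smul z
    set w : ℍ := g • z with hw
    set q : SL(2, ℤ) ⧸ Gamma0 N := QuotientGroup.mk g with hq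
    have hmem : (q.out)⁻¹ * g ∈ Gamma0 N := QuotientGroup.eq.mp (QuotientGroup.out_eq' q)
    have hγ : ((q.out)⁻¹ * g)⁻¹ ∈ Gamma0 N := inv_mem hmem
    obtain ⟨c, hc0, hc⟩ := hinv _ hγ
    have hz : ((q.out)⁻¹ * g)⁻¹ • (s q • w) = z := by
      rw [hs, hw, ← mul_smul, ← mul_smul]
      have : ((q.out)⁻¹ * g)⁻¹ * (q.out)⁻¹ * g = 1 := by group
      rw [this, one_smul]
    have h1 := hc (s q • w)
    rw [hz] at h1
    have h2 : u z = u (s q • w) + c := by linear_combination h1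
    have h3 : ‖Complex.exp (u z)‖ = ‖Hc (s q) (w : ℂ)‖ := by
      simp only [hHc]
      rw [ofComplex_apply, Complex.norm_exp, Complex.norm_exp, h2, Complex.add_re, hc0, add_zero]
    have h4 : Hc (s q) (w : ℂ)
        = Function.Periodic.cuspFunction N (Hc (s q)) (Function.Periodic.qParam N (w : ℂ)) :=
      (Function.Periodic.eq_cuspFunction hN.ne' (hper (s q)) (w : ℂ)).symm
    have h5 : Function.Periodic.qParam N (w : ℂ) ∈ Metric.closedBall (0 : ℂ) r := by
      rw [mem_closedBall_zero_iff, Function.Periodic.norm_qParam, hr]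
      apply Real.exp_le_exp.mpr
      have him : (1 : ℝ) / 2 ≤ (w : ℂ).im := hg
      rw [div_le_div_iff_of_pos_right hN]
      nlinarith [Real.pi_pos]
    rw [h3, h4]
    exact (hxmax q _ h5).trans (hq₀ q)
  -- maximum modulus principle for the cusp function of the maximising conjugate
  set h₀ := Function.Periodic.cuspFunction N (Hc (s q₀)) with hh₀
  have hx₀ : x q₀ ∈ Metric.ball (0 : ℂ) 1 := Metric.closedBall_subset_ball hr1 (hx q₀)
  have hne : ∀ y ∈ Metric.ball (0 : ℂ) 1, y ≠ 0 → ‖h₀ y‖ ≤ ‖h₀ (x q₀)‖ := by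
    intro y hy hy0
    have hy1 : ‖y‖ < 1 := by simpa using hy
    have him : 0 < (Function.Periodic.invQParam N y).im := by
      rw [Function.Periodic.im_invQParam]
      have hlog : Real.log ‖y‖ < 0 := Real.log_neg (norm_pos_iff.mpr hy0) hy1
      have : -(N : ℝ) / (2 * Real.pi) < 0 := by
        apply div_neg_of_neg_of_pos (by linarith) (by positivity)
      exact mul_pos_of_neg_of_neg this hlog
    have e1 : h₀ y = Hc (s q₀) (Function.Periodic.invQParam N y) := by
      have := Function.Periodic.eq_cuspFunction hN.ne' (hper (s q₀))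
        (Function.Periodic.invQParam N y)
      rwa [Function.Periodic.qParam_right_inv hN.ne' hy0] at this
    rw [e1]
    simp only [hHc]
    exact claim _
  have hmaxOn : IsMaxOn (norm ∘ h₀) (Metric.ball (0 : ℂ) 1) (x q₀) := by
    intro y hy
    show ‖h₀ y‖ ≤ ‖h₀ (x q₀)‖
    rcases eq_or_ne y 0 with rfl | hy0
    · have hcont : ContinuousAt h₀ 0 :=
        ((hcd (s q₀)).differentiableAt (Metric.ball_mem_nhds 0 one_pos)).continuousAt
      have ht : Tendsto (fun y => ‖h₀ y‖) (𝓝[≠] (0 : ℂ)) (𝓝 ‖h₀ 0‖) :=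
        (hcont.norm.tendsto).mono_left nhdsWithin_le_nhds
      refine le_of_tendsto ht ?_
      have hball : Metric.ball (0 : ℂ) 1 ∈ 𝓝[≠] (0 : ℂ) :=
        mem_nhdsWithin_of_mem_nhds (Metric.ball_mem_nhds 0 one_pos)
      filter_upwards [hball, self_mem_nhdsWithin] with y hy hy0
      exact hne y hy hy0
    · exact hne y hy hy0
  have hconst := Complex.eqOn_of_isPreconnected_of_isMaxOn_norm
    (convex_ball (0 : ℂ) 1).isPreconnected Metric.isOpen_ball (hcd (s q₀)) hx₀ hmaxOn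
  refine ⟨h₀ (x q₀), fun z => ?_⟩
  set w : ℍ := (s q₀)⁻¹ • z with hw
  have hz : s q₀ • w = z := by rw [hw, smul_inv_smul]
  have h1 : Complex.exp (u z) = Hc (s q₀) (w : ℂ) := by
    simp only [hHc]
    rw [ofComplex_apply, hz]
  have h2 : Hc (s q₀) (w : ℂ) = h₀ (Function.Periodic.qParam N (w : ℂ)) :=
    (Function.Periodic.eq_cuspFunction hN.ne' (hper (s q₀)) (w : ℂ)).symm
  have h3 : Function.Periodic.qParam N (w : ℂ) ∈ Metric.ball (0 : ℂ) 1 := by
    rw [mem_ball_zero_iff]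
    exact Function.Periodic.norm_qParam_lt_one hN w.im_pos
  rw [h1, h2]
  exact hconst h3

theorem periodInj_deriv_eq_zero (N : ℕ) [NeZero N] (u : ℍ → ℂ)
    (hdiff : ∀ τ : ℍ, DifferentiableAt ℂ (u ∘ ofComplex) ↑τ)
    (hinv : ∀ γ ∈ Gamma0 N, ∃ c : ℂ, c.re = 0 ∧ ∀ z : ℍ, u (γ • z) - u z = c)
    (hlim : ∀ δ : SL(2, ℤ), ∃ L : ℂ, Tendsto (fun w : ℍ => u (δ • w)) atImInfty (𝓝 L))
    (τ : ℍ) : deriv (u ∘ ofComplex) ↑τ = 0 := by
  obtain ⟨C, hC⟩ := periodInj_exp_const N u hdiff hinv hlim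
  have h1 : HasDerivAt (fun z => Complex.exp ((u ∘ ofComplex) z))
      (Complex.exp ((u ∘ ofComplex) ↑τ) * deriv (u ∘ ofComplex) ↑τ) ↑τ :=
    (hdiff τ).hasDerivAt.cexp
  have h2 : (fun z => Complex.exp ((u ∘ ofComplex) z)) =ᶠ[𝓝 (τ : ℂ)] fun _ => C := by
    filter_upwards with z
    exact hC _
  have h3 : HasDerivAt (fun _ : ℂ => C)
      (Complex.exp ((u ∘ ofComplex) ↑τ) * deriv (u ∘ ofComplex) ↑τ) ↑τ :=
    h1.congr_of_eventuallyEq h2.symm
  have h4 := h3.unique (hasDerivAt_const (τ : ℂ) C)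
  rcases mul_eq_zero.mp h4 with h | h
  · exact absurd h (Complex.exp_ne_zero _)
  · exact h

/-! ### Part 2: the anti-holomorphic involution `z ↦ -conj z` -/

/-- `z ↦ -conj z` on the upper half plane. -/
def periodInj_sig (z : ℍ) : ℍ :=
  ⟨-(starRingEnd ℂ) (z : ℂ), by
    have := z.im_pos
    simpa using this⟩

theorem periodInj_sig_coe (z : ℍ) :
    ((periodInj_sig z : ℍ) : ℂ) = -(starRingEnd ℂ) (z : ℂ) := rfl

theorem periodInj_sig_im (z : ℍ) : (periodInj_sig z).im = z.im := by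
  show (-(starRingEnd ℂ) (z : ℂ)).im = (z : ℂ).im
  simp

theorem periodInj_tendsto_sig : Tendsto periodInj_sig atImInfty atImInfty := by
  rw [atImInfty, tendsto_comap_iff]
  have : (UpperHalfPlane.im ∘ periodInj_sig) = UpperHalfPlane.im := by
    funext w
    exact periodInj_sig_im w
  rw [this]
  exact tendsto_comap

theorem periodInj_sig_smul (γ : SL(2, ℤ)) (z : ℍ) :
    periodInj_sig (γ • z) = jConjSL γ • periodInj_sig z := by
  apply UpperHalfPlane.ext
  rw [periodInj_sig_coe, UpperHalfPlane.coe_specialLinearGroup_apply,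
    UpperHalfPlane.coe_specialLinearGroup_apply, periodInj_sig_coe]
  simp only [jConjSL_coe, jConjMat_apply_zero_zero, jConjMat_apply_zero_one,
    jConjMat_apply_one_zero, jConjMat_apply_one_one, map_div₀, map_add, map_mul]
  simp only [algebraMap_int_eq, eq_intCast, Int.cast_neg, Complex.conj_ofReal,
    Complex.ofReal_neg]
  rw [← neg_div]
  congr 1 <;> ring

theorem periodInj_hasDerivAt_conj (F : ℍ → ℂ) (f' : ℂ) (τ : ℍ)
    (hF : HasDerivAt (F ∘ ofComplex) f' ↑(periodInj_sig τ)) :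
    HasDerivAt ((fun z : ℍ => (starRingEnd ℂ) (F (periodInj_sig z))) ∘ ofComplex)
      (-(starRingEnd ℂ) f') ↑τ := by
  have h1 : HasDerivAt (F ∘ ofComplex) f' (-(starRingEnd ℂ) (τ : ℂ)) := hF
  have h2 : HasDerivAt ((F ∘ ofComplex) ∘ Neg.neg) (f' * (-1)) ((starRingEnd ℂ) (τ : ℂ)) :=
    HasDerivAt.comp ((starRingEnd ℂ) (τ : ℂ)) h1 (hasDerivAt_neg _)
  have h3 := h2.conj_conj
  rw [Complex.conj_conj] at h3
  have e : (starRingEnd ℂ) (f' * (-1)) = -(starRingEnd ℂ) f' := by simp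
  rw [e] at h3
  refine h3.congr_of_eventuallyEq ?_
  filter_upwards [(isOpen_lt continuous_const Complex.continuous_im).mem_nhds τ.im_pos] with z hz
  simp only [Function.comp_apply]
  have hz' : 0 < (-(starRingEnd ℂ) z).im := by simpa using hz
  rw [ofComplex_apply_of_im_pos hz, ofComplex_apply_of_im_pos hz']
  rfl

/-! ### Part 3: injectivity of the period map on the `±`-eigenspaces -/

theorem periodInj_core (N : ℕ) [NeZero N] (f : CuspForm (Gamma0 N) 2) (ε : ℂ)
    (hε : ε = 1 ∨ ε = -1)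
    (h : ∀ γ : Gamma0 N, periodMap N f (Additive.ofMul (jConjGamma0 N γ))
      = -ε * periodMap N f (Additive.ofMul γ)) : f = 0 := by
  have hε2 : ε * ε = 1 := by rcases hε with rfl | rfl <;> norm_num
  have hεc : (starRingEnd ℂ) ε = ε := by rcases hε with rfl | rfl <;> simp
  set F := periodPrim f with hFdef
  set G : ℍ → ℂ := fun z => (starRingEnd ℂ) (F (periodInj_sig z)) with hGdef
  -- derivatives
  have hFd : ∀ τ : ℍ, HasDerivAt (F ∘ ofComplex) (f τ) ↑τ := period_hasDerivAt f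
  have hGd : ∀ τ : ℍ, HasDerivAt (G ∘ ofComplex)
      (-(starRingEnd ℂ) (f (periodInj_sig τ))) ↑τ := fun τ =>
    periodInj_hasDerivAt_conj F _ τ (hFd (periodInj_sig τ))
  -- equivariance
  have hFe : ∀ (γ : SL(2, ℤ)) (hγ : γ ∈ Gamma0 N) (z : ℍ),
      F (γ • z) - F z = periodMap N f (Additive.ofMul (⟨γ, hγ⟩ : Gamma0 N)) := fun γ hγ z =>
    (period_periodMap_apply f ⟨γ, hγ⟩ z).symm
  have hGe : ∀ (γ : SL(2, ℤ)) (hγ : γ ∈ Gamma0 N) (z : ℍ),
      G (γ • z) - G z
        = -ε * (starRingEnd ℂ) (periodMap N f (Additive.ofMul (⟨γ, hγ⟩ : Gamma0 N))) := by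
    intro γ hγ z
    simp only [hGdef]
    rw [periodInj_sig_smul, ← map_sub]
    have h1 := hFe (jConjSL γ) (jConjSL_mem_Gamma0 hγ) (periodInj_sig z)
    have h2 := h ⟨γ, hγ⟩
    have h3 : (jConjGamma0 N ⟨γ, hγ⟩ : Gamma0 N) = ⟨jConjSL γ, jConjSL_mem_Gamma0 hγ⟩ := rfl
    rw [h3] at h2
    rw [h1, h2, map_mul, map_neg, hεc]
  -- limits at the cusps
  have hFl : ∀ δ : SL(2, ℤ), ∃ L : ℂ, Tendsto (fun w : ℍ => F (δ • w)) atImInfty (𝓝 L) :=
    period_tendsto_smul f
  have hGl : ∀ δ : SL(2, ℤ), ∃ L : ℂ, Tendsto (fun w : ℍ => G (δ • w)) atImInfty (𝓝 L) := by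
    intro δ
    obtain ⟨L, hL⟩ := hFl (jConjSL δ)
    refine ⟨(starRingEnd ℂ) L, ?_⟩
    have h1 : Tendsto (fun w : ℍ => F (jConjSL δ • periodInj_sig w)) atImInfty (𝓝 L) :=
      hL.comp periodInj_tendsto_sig
    have h2 := (Complex.continuous_conj.tendsto L).comp h1
    refine h2.congr fun w => ?_
    simp only [hGdef, Function.comp_apply]
    rw [periodInj_sig_smul]
  -- first combination: `F + ε G`
  have key1 : ∀ τ : ℍ, f τ + ε * (-(starRingEnd ℂ) (f (periodInj_sig τ))) = 0 := by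
    intro τ
    have hd : HasDerivAt ((fun z : ℍ => F z + ε * G z) ∘ ofComplex)
        (f τ + ε * (-(starRingEnd ℂ) (f (periodInj_sig τ)))) ↑τ :=
      (hFd τ).add ((hGd τ).const_mul ε)
    have h0 := periodInj_deriv_eq_zero N (fun z : ℍ => F z + ε * G z)
      (fun τ' => ((hFd τ').add ((hGd τ').const_mul ε)).differentiableAt)
      (fun γ hγ => ⟨periodMap N f (Additive.ofMul (⟨γ, hγ⟩ : Gamma0 N))
          - (starRingEnd ℂ) (periodMap N f (Additive.ofMul (⟨γ, hγ⟩ : Gamma0 N))), by simp,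
        fun z => by
          have e1 := hFe γ hγ z
          have e2 := hGe γ hγ z
          linear_combination e1 + ε * e2
            - (starRingEnd ℂ) (periodMap N f (Additive.ofMul (⟨γ, hγ⟩ : Gamma0 N))) * hε2⟩)
      (fun δ => by
        obtain ⟨L₁, hL₁⟩ := hFl δ
        obtain ⟨L₂, hL₂⟩ := hGl δ
        exact ⟨L₁ + ε * L₂, hL₁.add (hL₂.const_mul ε)⟩) τ
    rw [hd.deriv] at h0
    exact h0
  -- second combination: `I * (F - ε G)`
  have key2 : ∀ τ : ℍ,
      Complex.I * (f τ - ε * (-(starRingEnd ℂ) (f (periodInj_sig τ)))) = 0 := by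
    intro τ
    have hd : HasDerivAt ((fun z : ℍ => Complex.I * (F z - ε * G z)) ∘ ofComplex)
        (Complex.I * (f τ - ε * (-(starRingEnd ℂ) (f (periodInj_sig τ))))) ↑τ :=
      ((hFd τ).sub ((hGd τ).const_mul ε)).const_mul Complex.I
    have h0 := periodInj_deriv_eq_zero N (fun z : ℍ => Complex.I * (F z - ε * G z))
      (fun τ' => (((hFd τ').sub ((hGd τ').const_mul ε)).const_mul Complex.I).differentiableAt)
      (fun γ hγ => ⟨Complex.I * (periodMap N f (Additive.ofMul (⟨γ, hγ⟩ : Gamma0 N))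
          + (starRingEnd ℂ) (periodMap N f (Additive.ofMul (⟨γ, hγ⟩ : Gamma0 N)))), by simp,
        fun z => by
          have e1 := hFe γ hγ z
          have e2 := hGe γ hγ z
          linear_combination Complex.I * e1 - Complex.I * ε * e2
            + Complex.I * (starRingEnd ℂ) (periodMap N f (Additive.ofMul (⟨γ, hγ⟩ : Gamma0 N)))
              * hε2⟩)
      (fun δ => by
        obtain ⟨L₁, hL₁⟩ := hFl δ
        obtain ⟨L₂, hL₂⟩ := hGl δ
        exact ⟨Complex.I * (L₁ - ε * L₂), (hL₁.sub (hL₂.const_mul ε)).const_mul Complex.I⟩) τ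
    rw [hd.deriv] at h0
    exact h0
  apply DFunLike.ext
  intro τ
  have h1 := key1 τ
  have h2 : f τ - ε * (-(starRingEnd ℂ) (f (periodInj_sig τ))) = 0 := by
    rcases mul_eq_zero.mp (key2 τ) with h | h
    · exact absurd h Complex.I_ne_zero
    · exact h
  have h3 : (2 : ℂ) * f τ = 0 := by linear_combination h1 + h2
  have h4 : f τ = 0 := by
    rcases mul_eq_zero.mp h3 with h | h
    · exact absurd h two_ne_zero
    · exact h
  rw [h4]
  rfl

/-- injectivity of `(1 + ι) ∘ periodMap` -/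
theorem eq_zero_of_periodMap_add_charInvolution (N : ℕ) [NeZero N] (f : CuspForm (Gamma0 N) 2)
    (h : periodMap N f + charInvolution N ℂ ℂ (periodMap N f) = 0) : f = 0 := by
  refine periodInj_core N f 1 (Or.inl rfl) fun γ => ?_
  have h1 := DFunLike.congr_fun h (Additive.ofMul γ)
  rw [AddMonoidHom.add_apply, charInvolution_apply, toMul_ofMul, AddMonoidHom.zero_apply] at h1
  linear_combination h1

/-- injectivity of `(1 - ι) ∘ periodMap` -/
theorem eq_zero_of_periodMap_sub_charInvolution (N : ℕ) [NeZero N] (f : CuspForm (Gamma0 N) 2)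
    (h : periodMap N f - charInvolution N ℂ ℂ (periodMap N f) = 0) : f = 0 := by
  refine periodInj_core N f (-1) (Or.inr rfl) fun γ => ?_
  have h1 := DFunLike.congr_fun h (Additive.ofMul γ)
  rw [AddMonoidHom.sub_apply, charInvolution_apply, toMul_ofMul, AddMonoidHom.zero_apply] at h1
  linear_combination -h1

end Fermat.Agent.S20
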