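import Mathlib
import Fermat.Agent.S20.Defs
import Fermat.Agent.S24.CosetsIndex
import Fermat.Agent.S24.CosetsCusps

/-!
# S20, module K (Comb): the coset counts of `Γ₀(N)`

`mu`, `eps2`, `eps3`, `epsInf` are the arithmetic functions `dedekindPsi`, `nuTwo`, `nuThree`,
`cuspCount` (proved in `Fermat/Agent/S24/Cosets*.lean`).
-/

set_option autoImplicit false

open UpperHalfPlane ModularForm CongruenceSubgroup Filter ModularCurve
open scoped MatrixGroups Manifold

namespace Fermat.Agent.S20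

theorem mu_eq_dedekindPsi (N : ℕ) [NeZero N] : mu N = dedekindPsi N :=
  Fermat.Agent.S24.card_cosets N

theorem eps2_eq_nuTwo (N : ℕ) [NeZero N] : eps2 N = nuTwo N :=
  Fermat.Agent.S24.card_fixed_S N

theorem eps3_eq_nuThree (N : ℕ) [NeZero N] : eps3 N = nuThree N :=
  Fermat.Agent.S24.card_fixed_ST N

theorem epsInf_eq_cuspCount (N : ℕ) [NeZero N] : epsInf N = cuspCount N :=
  Fermat.Agent.S24.card_orbits_T N (NeZero.ne N)

/-- `genusNum N = 12 + ψ - 3 ν₂ - 4 ν₃ - 6 c`. -/
theorem genusNum_eq (N : ℕ) [NeZero N] :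
    genusNum N = 12 + (dedekindPsi N : ℤ) - 3 * (nuTwo N : ℤ) - 4 * (nuThree N : ℤ)
      - 6 * (cuspCount N : ℤ) := by
  rw [genusNum, mu_eq_dedekindPsi, eps2_eq_nuTwo, eps3_eq_nuThree, epsInf_eq_cuspCount]

/-- `genusNum N = 12 * genusFormula N`. -/
theorem genusNum_eq_genusFormula (N : ℕ) [NeZero N] :
    (genusNum N : ℚ) = 12 * genusFormula N := by
  rw [genusNum_eq, genusFormula]
  push_cast
  ring

end Fermat.Agent.S20
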