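import Fermat.Agent.S20.BasisCore
import Fermat.Agent.S20.LevelOne
import Fermat.Agent.S20.Division

/-!
Module E of the S20/S21 project: existence of a homogeneous basis of `⊕_k M_k(Gamma0 N)` over
`⊕_k M_k(SL(2, ℤ))`.
-/

set_option autoImplicit false

open UpperHalfPlane ModularForm CongruenceSubgroup Filter
open scoped MatrixGroups Manifold

namespace Fermat.Agent.S20

theorem exists_homBasis (N : ℕ) [NeZero N] : Nonempty (HomBasis N) :=
  exists_homBasis_of N (fun hk _ hp => isLevelOne_decomp hk hp)
    (fun hF hvan => isForm_div isLevelOne_E₄ one_ne_zero tendsto_E₄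
      (fun _ h => deriv_E₄_ne_zero h) hF hvan)

end Fermat.Agent.S20
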