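import Mathlib
import Fermat.Agent.S20.Forms
import Fermat.Agent.S23.Division

/-!
Module E (core) of the S20/S21 project: existence of a homogeneous basis of
`⊕_k M_k(Gamma0 N)` over `⊕_k M_k(SL(2, ℤ))`, assuming the decomposition of level one forms
(`p = E₄ r + E₆ s` in positive weight) and the division of forms on `Gamma0 N` by `E₄`.
-/

set_option autoImplicit false

open UpperHalfPlane ModularForm CongruenceSubgroup Filter
open scoped MatrixGroups Manifold

namespace Fermat.Agent.S20

namespace BasisAux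

variable (N : ℕ)

/-- decomposable forms of weight `k`: `E₄ R + E₆ S` -/
def dec (k : ℤ) : Submodule ℂ (ModularForm (Gamma0 N) k) where
  carrier := {f | ∃ R S : ℍ → ℂ, IsForm N (k - 4) R ∧ IsForm N (k - 6) S ∧
    (⇑f : ℍ → ℂ) = ⇑E₄ * R + ⇑E₆ * S}
  zero_mem' := ⟨0, 0, isForm_zero _ _, isForm_zero _ _, by simp⟩
  add_mem' := by
    rintro f g ⟨R, S, hR, hS, hf⟩ ⟨R', S', hR', hS', hg⟩
    refine ⟨R + R', S + S', hR.add hR', hS.add hS', ?_⟩
    rw [FunLike.coe_add, hf, hg]
    ring
  smul_mem' := by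
    rintro c f ⟨R, S, hR, hS, hf⟩
    obtain ⟨r, rfl⟩ := hR
    obtain ⟨s, rfl⟩ := hS
    refine ⟨⇑(c • r), ⇑(c • s), ⟨c • r, rfl⟩, ⟨c • s, rfl⟩, ?_⟩
    funext z
    have h := congrFun hf z
    simp only [Pi.add_apply, Pi.mul_apply] at h
    simp only [smul_apply, Pi.add_apply, Pi.mul_apply, smul_eq_mul, h]
    ring

/-- a complement of the decomposable forms -/
noncomputable def compl (k : ℤ) : Submodule ℂ (ModularForm (Gamma0 N) k) :=
  (Submodule.exists_isCompl (dec N k)).choose

theorem isCompl_dec_compl (k : ℤ) : IsCompl (dec N k) (compl N k) :=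
  (Submodule.exists_isCompl (dec N k)).choose_spec

/-- index set of a basis of the complement in weight `k` -/
abbrev Idx (k : ℕ) : Type := ↥(Module.Basis.ofVectorSpaceIndex ℂ (compl N (k : ℤ)))

/-- the basis of the complement in weight `k` -/
noncomputable def bas (k : ℕ) : Module.Basis (Idx N k) ℂ (compl N (k : ℤ)) :=
  Module.Basis.ofVectorSpace ℂ _

/-- the index type of the homogeneous basis -/
abbrev I : Type := Σ k : ℕ, Idx N k

noncomputable instance instDecEqI : DecidableEq (I N) := Classical.decEq _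

/-- weights -/
def wt (a : I N) : ℤ := (a.1 : ℤ)

/-- the basis functions -/
noncomputable def Bf (a : I N) : ℍ → ℂ :=
  ⇑((bas N a.1 a.2 : compl N (a.1 : ℤ)) : ModularForm (Gamma0 N) (a.1 : ℤ))

theorem isForm_Bf (a : I N) : IsForm N (wt N a) (Bf N a) := ⟨_, rfl⟩

theorem wt_nonneg (a : I N) : 0 ≤ wt N a := Int.natCast_nonneg _

/-- `F` is a combination of the basis functions with level one coefficients, in weight `k` -/
def Rep (k : ℤ) (F : ℍ → ℂ) : Prop :=
  ∃ (s : Finset (I N)) (p : I N → ℍ → ℂ), (∀ a ∈ s, IsLevelOne (k - wt N a) (p a)) ∧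
    F = ∑ a ∈ s, p a * Bf N a

variable {N}

theorem rep_zero (k : ℤ) : Rep N k 0 := ⟨∅, fun _ => 0, by simp, by simp⟩

theorem Rep.cast {k l : ℤ} {F : ℍ → ℂ} (hF : Rep N k F) (h : k = l) : Rep N l F := h ▸ hF

/-- extending the index set of a combination by zero coefficients -/
theorem sum_ite_union (s s' : Finset (I N)) (f : I N → ℍ → ℂ) :
    ∑ a ∈ s ∪ s', (if a ∈ s then f a else 0) * Bf N a = ∑ a ∈ s, f a * Bf N a := by
  classical
  rw [← Finset.sum_subset (Finset.subset_union_left (s₂ := s'))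
    (fun x _ hx => by simp [hx])]
  exact Finset.sum_congr rfl fun a ha => by simp [ha]

theorem sum_ite_union' (s s' : Finset (I N)) (f : I N → ℍ → ℂ) :
    ∑ a ∈ s' ∪ s, (if a ∈ s then f a else 0) * Bf N a = ∑ a ∈ s, f a * Bf N a := by
  rw [Finset.union_comm]
  exact sum_ite_union s s' f

theorem isLevelOne_ite {k : ℤ} (s : Finset (I N)) (f : I N → ℍ → ℂ)
    (hf : ∀ a ∈ s, IsLevelOne (k - wt N a) (f a)) (a : I N) :
    IsLevelOne (k - wt N a) (if a ∈ s then f a else 0) := by
  split_ifs with h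
  · exact hf a h
  · exact isLevelOne_zero _

theorem Rep.add {k : ℤ} {F G : ℍ → ℂ} (hF : Rep N k F) (hG : Rep N k G) : Rep N k (F + G) := by
  classical
  obtain ⟨s1, p1, h1, rfl⟩ := hF
  obtain ⟨s2, p2, h2, rfl⟩ := hG
  refine ⟨s1 ∪ s2, fun a => (if a ∈ s1 then p1 a else 0) + (if a ∈ s2 then p2 a else 0), ?_, ?_⟩
  · intro a _
    exact (isLevelOne_ite s1 p1 h1 a).add (isLevelOne_ite s2 p2 h2 a)
  · simp only [add_mul, Finset.sum_add_distrib]
    rw [sum_ite_union, sum_ite_union']

theorem Rep.levelOne_mul {k l : ℤ} {q F : ℍ → ℂ} (hq : IsLevelOne l q) (hF : Rep N k F) :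
    Rep N (l + k) (q * F) := by
  obtain ⟨s, p, h, rfl⟩ := hF
  refine ⟨s, fun a => q * p a, fun a ha => (hq.mul (h a ha)).cast (by ring), ?_⟩
  rw [Finset.mul_sum]
  exact Finset.sum_congr rfl fun a _ => (mul_assoc _ _ _).symm

theorem Rep.smul {k : ℤ} {F : ℍ → ℂ} (c : ℂ) (hF : Rep N k F) : Rep N k (c • F) := by
  have h := (Rep.levelOne_mul (isLevelOne_const c) hF).cast (zero_add k)
  have e : (fun _ : ℍ => c) * F = c • F := by
    funext z
    simp
  rwa [e] at h

theorem rep_Bf (a : I N) : Rep N (wt N a) (Bf N a) := by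
  classical
  refine ⟨{a}, fun _ => 1, fun b hb => ?_, by simp⟩
  rw [Finset.mem_singleton.mp hb]
  exact isLevelOne_one.cast (sub_self _).symm

theorem rep_of_mem_compl (n : ℕ) (c : compl N (n : ℤ)) :
    Rep N (n : ℤ) (⇑(c : ModularForm (Gamma0 N) (n : ℤ))) := by
  have hc : c ∈ Submodule.span ℂ (Set.range (bas N n)) := by
    rw [(bas N n).span_eq]
    exact Submodule.mem_top
  induction hc using Submodule.span_induction with
  | mem x hx =>
    obtain ⟨i, rfl⟩ := hx
    exact rep_Bf (⟨n, i⟩ : I N)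
  | zero => exact rep_zero _
  | add x y _ _ hx hy => exact hx.add hy
  | smul a x _ hx => exact hx.smul a

/-- generation: every modular form on `Gamma0 N` is a combination of the basis functions -/
theorem rep_of_isForm [NeZero N] : ∀ (n : ℕ) (k : ℤ), k < n → ∀ F : ℍ → ℂ, IsForm N k F →
    Rep N k F := by
  intro n
  induction n with
  | zero =>
    intro k hk F hF
    rw [hF.eq_zero_of_neg (by simpa using hk)]
    exact rep_zero k
  | succ n ih =>
    intro k hk F hF
    by_cases hkn : k < n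
    · exact ih k hkn F hF
    · have hk' : k = (n : ℤ) := by push_cast at hk; omega
      subst hk'
      obtain ⟨f, rfl⟩ := hF
      have htop := (isCompl_dec_compl N (n : ℤ)).sup_eq_top
      have hf : f ∈ dec N (n : ℤ) ⊔ compl N (n : ℤ) := htop ▸ Submodule.mem_top
      obtain ⟨d, hd, c, hc, rfl⟩ := Submodule.mem_sup.mp hf
      obtain ⟨R, S, hR, hS, hdRS⟩ := hd
      have hR' := ih ((n : ℤ) - 4) (by omega) R hR
      have hS' := ih ((n : ℤ) - 6) (by omega) S hS
      have h1 : Rep N (n : ℤ) (⇑E₄ * R) :=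
        (Rep.levelOne_mul isLevelOne_E₄ hR').cast (by ring)
      have h2 : Rep N (n : ℤ) (⇑E₆ * S) :=
        (Rep.levelOne_mul isLevelOne_E₆ hS').cast (by ring)
      have h3 := rep_of_mem_compl n (⟨c, hc⟩ : compl N (n : ℤ))
      have e : (⇑(d + c) : ℍ → ℂ) = ⇑E₄ * R + ⇑E₆ * S + ⇑c := by
        rw [FunLike.coe_add, hdRS]
      rw [e]
      exact (h1.add h2).add h3

/-- the basis forms of weight `n` are independent modulo decomposable forms -/
theorem top_ind (n : ℕ) (t : Finset (Idx N n)) (c : Idx N n → ℂ)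
    (h : (∑ i ∈ t, c i • ((bas N n i : compl N (n : ℤ)) : ModularForm (Gamma0 N) (n : ℤ)))
      ∈ dec N (n : ℤ)) : ∀ i ∈ t, c i = 0 := by
  have hy : (∑ i ∈ t, c i • ((bas N n i : compl N (n : ℤ)) : ModularForm (Gamma0 N) (n : ℤ)))
      = ((∑ i ∈ t, c i • bas N n i : compl N (n : ℤ)) : ModularForm (Gamma0 N) (n : ℤ)) := by
    simp
  have hmem : ((∑ i ∈ t, c i • bas N n i : compl N (n : ℤ)) : ModularForm (Gamma0 N) (n : ℤ))
      ∈ compl N (n : ℤ) := Subtype.property _
  have h0 := Submodule.disjoint_def.mp (isCompl_dec_compl N (n : ℤ)).disjoint _ (hy ▸ h) hmem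
  have h1 : (∑ i ∈ t, c i • bas N n i : compl N (n : ℤ)) = 0 := Subtype.ext h0
  exact linearIndependent_iff'.mp (bas N n).linearIndependent t c h1

theorem E₄_fun_ne_zero : (⇑E₄ : ℍ → ℂ) ≠ 0 := by
  intro h
  have h2 : E₄ = 0 := DFunLike.coe_injective h
  exact EisensteinSeries.E_ne_zero (by norm_num : 3 ≤ 4) (by decide) h2

theorem E₆_ne_zero_of_E₄_eq_zero {z : ℍ} (hz : E₄ z = 0) : E₆ z ≠ 0 := by
  intro h6
  have h := discriminant_eq_E₄_cube_sub_E₆_sq z
  rw [hz, h6] at h
  exact discriminant_ne_zero z (by rw [h]; norm_num)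

/-- independence: a combination of the basis functions with level one coefficients vanishes
only if all coefficients vanish -/
theorem ind_aux [NeZero N]
    (hdecomp : ∀ {k : ℤ}, 0 < k → ∀ {p : ℍ → ℂ}, IsLevelOne k p →
      ∃ r s : ℍ → ℂ, IsLevelOne (k - 4) r ∧ IsLevelOne (k - 6) s ∧ p = ⇑E₄ * r + ⇑E₆ * s)
    (hdiv : ∀ {k : ℤ} {F : ℍ → ℂ}, IsForm N k F → (∀ z : ℍ, E₄ z = 0 → F z = 0) →
      ∃ G : ℍ → ℂ, IsForm N (k - 4) G ∧ F = ⇑E₄ * G) :
    ∀ (n : ℕ) (k : ℤ), k < n → ∀ (s : Finset (I N)) (p : I N → ℍ → ℂ),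
      (∀ a ∈ s, IsLevelOne (k - wt N a) (p a)) → ∑ a ∈ s, p a * Bf N a = 0 →
      ∀ a ∈ s, p a = 0 := by
  intro n
  induction n with
  | zero =>
    intro k hk s p hp _ a ha
    have := wt_nonneg N a
    exact (hp a ha).eq_zero_of_neg (by push_cast at hk; omega)
  | succ n ih =>
    intro k hk s p hp hsum
    by_cases hkn : k < n
    · exact ih k hkn s p hp hsum
    · have hk' : k = (n : ℤ) := by push_cast at hk; omega
      subst hk'
      -- decomposition of the coefficients
      have key : ∀ a ∈ s, ∃ (c : ℂ) (r t : ℍ → ℂ), (a.1 ≠ n → c = 0) ∧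
          IsLevelOne ((n : ℤ) - wt N a - 4) r ∧ IsLevelOne ((n : ℤ) - wt N a - 6) t ∧
          p a = (fun _ => c) + (⇑E₄ * r + ⇑E₆ * t) := by
        intro a ha
        have hw : wt N a = (a.1 : ℤ) := rfl
        rcases lt_trichotomy a.1 n with h | h | h
        · have hpos : 0 < (n : ℤ) - wt N a := by rw [hw]; omega
          obtain ⟨r, t, hr, ht, e⟩ := hdecomp hpos (hp a ha)
          refine ⟨0, r, t, fun _ => rfl, hr, ht, ?_⟩
          rw [e]
          funext z
          simp
        · have h0 : (n : ℤ) - wt N a = 0 := by rw [hw]; omega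
          obtain ⟨c, hc⟩ := ((hp a ha).cast h0).const_of_zero
          refine ⟨c, 0, 0, fun h' => absurd h h', isLevelOne_zero _, isLevelOne_zero _, ?_⟩
          rw [hc]
          funext z
          simp
        · have hneg : (n : ℤ) - wt N a < 0 := by rw [hw]; omega
          have e := (hp a ha).eq_zero_of_neg hneg
          refine ⟨0, 0, 0, fun _ => rfl, isLevelOne_zero _, isLevelOne_zero _, ?_⟩
          rw [e]
          funext z
          simp
      choose! c r t hc hr ht hpe using key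
      set R : ℍ → ℂ := ∑ a ∈ s, r a * Bf N a with hRdef
      set S : ℍ → ℂ := ∑ a ∈ s, t a * Bf N a with hSdef
      set Cst : ℍ → ℂ := ∑ a ∈ s, (fun _ : ℍ => c a) * Bf N a with hCdef
      have hrel : Cst + (⇑E₄ * R + ⇑E₆ * S) = 0 := by
        rw [← hsum, hCdef, hRdef, hSdef, Finset.mul_sum, Finset.mul_sum,
          ← Finset.sum_add_distrib, ← Finset.sum_add_distrib]
        refine Finset.sum_congr rfl fun a ha => ?_
        rw [hpe a ha]
        ring
      have hR : IsForm N ((n : ℤ) - 4) R := IsForm.sum s fun a ha =>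
        ((hr a ha).isForm.mul (isForm_Bf N a)).cast (by ring)
      have hS : IsForm N ((n : ℤ) - 6) S := IsForm.sum s fun a ha =>
        ((ht a ha).isForm.mul (isForm_Bf N a)).cast (by ring)
      -- the constants vanish
      have hinj : Function.Injective (Sigma.mk n : Idx N n → I N) := sigma_mk_injective
      set t0 : Finset (Idx N n) := s.preimage (Sigma.mk n) hinj.injOn with ht0
      have hC1 : Cst = ∑ i ∈ t0, (fun _ : ℍ => c ⟨n, i⟩) * Bf N ⟨n, i⟩ := by
        rw [hCdef, ht0]
        symm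
        apply Finset.sum_preimage (Sigma.mk n) s hinj.injOn
          (fun a => (fun _ : ℍ => c a) * Bf N a)
        intro a ha hnot
        have hne : a.1 ≠ n := by
          intro h
          apply hnot
          obtain ⟨k, i⟩ := a
          simp only at h
          subst h
          exact ⟨i, rfl⟩
        rw [hc a ha hne]
        funext z
        simp
      have hC2 : Cst = ⇑(∑ i ∈ t0, c ⟨n, i⟩ •
          ((bas N n i : compl N (n : ℤ)) : ModularForm (Gamma0 N) (n : ℤ))) := by
        rw [hC1]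
        funext z
        simp [Bf, Finset.sum_apply]
      have hdecmem : (∑ i ∈ t0, c ⟨n, i⟩ •
          ((bas N n i : compl N (n : ℤ)) : ModularForm (Gamma0 N) (n : ℤ))) ∈ dec N (n : ℤ) := by
        refine ⟨-R, -S, hR.neg, hS.neg, ?_⟩
        rw [← hC2]
        linear_combination hrel
      have hc0 := top_ind n t0 (fun i => c ⟨n, i⟩) hdecmem
      have hcz : ∀ a ∈ s, c a = 0 := by
        intro a ha
        by_cases h : a.1 = n
        · obtain ⟨k, i⟩ := a
          simp only at h
          subst h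
          exact hc0 i (by rw [ht0, Finset.mem_preimage]; exact ha)
        · exact hc a ha h
      have hCst0 : Cst = 0 := by
        rw [hCdef]
        refine Finset.sum_eq_zero fun a ha => ?_
        rw [hcz a ha]
        funext z
        simp
      have hrel2 : ⇑E₄ * R + ⇑E₆ * S = 0 := by
        rw [hCst0, zero_add] at hrel
        exact hrel
      -- division by `E₄`
      have hvan : ∀ z : ℍ, E₄ z = 0 → S z = 0 := by
        intro z hz
        have h1 := congrFun hrel2 z
        simp only [Pi.add_apply, Pi.mul_apply, hz, zero_mul, zero_add, Pi.zero_apply] at h1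
        exact (mul_eq_zero.mp h1).resolve_left (E₆_ne_zero_of_E₄_eq_zero hz)
      obtain ⟨S', hS', hSS'⟩ := hdiv hS hvan
      have hRS' : R + ⇑E₆ * S' = 0 := by
        apply Fermat.Agent.S23.eq_zero_of_mul_eq_zero_of_mdiff (d := ⇑E₄)
          (hR.mdiff.add (isLevelOne_E₆.mdiff.mul hS'.mdiff)) isLevelOne_E₄.mdiff E₄_fun_ne_zero
        intro z
        have h1 := congrFun hrel2 z
        rw [hSS'] at h1
        simp only [Pi.add_apply, Pi.mul_apply, Pi.zero_apply] at h1 ⊢
        linear_combination h1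
      obtain ⟨s', q, hq, hS'rep⟩ :=
        rep_of_isForm n ((n : ℤ) - 6 - 4) (by omega) S' hS'
      -- induction hypothesis in weights `n - 6` and `n - 4`
      have i6 := ih ((n : ℤ) - 6) (by omega) (s ∪ s')
        (fun a => (if a ∈ s then t a else 0) - ⇑E₄ * (if a ∈ s' then q a else 0))
        (fun a _ => (isLevelOne_ite s t (fun b hb => (ht b hb).cast (by ring)) a).sub
          ((isLevelOne_E₄.mul (isLevelOne_ite s' q hq a)).cast (by ring)))
        (by
          simp only [sub_mul, Finset.sum_sub_distrib, mul_assoc]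
          rw [← Finset.mul_sum, sum_ite_union, sum_ite_union', ← hS'rep, ← hSdef, hSS', sub_self])
      have i4 := ih ((n : ℤ) - 4) (by omega) (s ∪ s')
        (fun a => (if a ∈ s then r a else 0) + ⇑E₆ * (if a ∈ s' then q a else 0))
        (fun a _ => (isLevelOne_ite s r (fun b hb => (hr b hb).cast (by ring)) a).add
          ((isLevelOne_E₆.mul (isLevelOne_ite s' q hq a)).cast (by ring)))
        (by
          simp only [add_mul, Finset.sum_add_distrib, mul_assoc]
          rw [← Finset.mul_sum, sum_ite_union, sum_ite_union', ← hS'rep, ← hRdef, hRS'])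
      intro a ha
      have ha' : a ∈ s ∪ s' := Finset.mem_union_left _ ha
      have e6 := i6 a ha'
      have e4 := i4 a ha'
      simp only [ha, if_true] at e6 e4
      rw [hpe a ha, hcz a ha]
      have e0 : (fun _ : ℍ => (0 : ℂ)) = 0 := rfl
      rw [e0, zero_add]
      linear_combination (⇑E₄ : ℍ → ℂ) * e4 + (⇑E₆ : ℍ → ℂ) * e6

end BasisAux

/-- Existence of a homogeneous basis, assuming the decomposition of level one forms of positive
weight and the division by `E₄`. -/
theorem exists_homBasis_of (N : ℕ) [NeZero N]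
    (hdecomp : ∀ {k : ℤ}, 0 < k → ∀ {p : ℍ → ℂ}, IsLevelOne k p →
      ∃ r s : ℍ → ℂ, IsLevelOne (k - 4) r ∧ IsLevelOne (k - 6) s ∧ p = ⇑E₄ * r + ⇑E₆ * s)
    (hdiv : ∀ {k : ℤ} {F : ℍ → ℂ}, IsForm N k F → (∀ z : ℍ, E₄ z = 0 → F z = 0) →
      ∃ G : ℍ → ℂ, IsForm N (k - 4) G ∧ F = ⇑E₄ * G) :
    Nonempty (HomBasis N) :=
  ⟨{ ι := BasisAux.I N
     w := BasisAux.wt N
     B := BasisAux.Bf N
     isForm := BasisAux.isForm_Bf N
     gen := fun k F hF => by
       obtain ⟨n, hn⟩ : ∃ n : ℕ, k < n := ⟨(k + 1).toNat, by omega⟩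
       exact BasisAux.rep_of_isForm n k hn F hF
     ind := fun k s p hp hsum => by
       obtain ⟨n, hn⟩ : ∃ n : ℕ, k < n := ⟨(k + 1).toNat, by omega⟩
       exact BasisAux.ind_aux hdecomp hdiv n k hn s p hp hsum }⟩

end Fermat.Agent.S20
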