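import Fermat.Agent.S20.CuspInvCore
import Fermat.Agent.S20.Fiber
import Fermat.Agent.S20.CuspLim
import Fermat.Agent.S20.CuspIndep

/-!
Module H2 (D2) of the S20/S21 project: `Δ(z) • (M z)⁻¹ → 0` at `i∞` for the matrix of conjugates
of a homogeneous basis.  The mathematics is in `CuspInvCore.lean`; here the inputs from Fiber,
CuspLim and CuspIndep are plugged in.
-/

set_option autoImplicit false

open UpperHalfPlane ModularForm CongruenceSubgroup Filter
open scoped MatrixGroups Manifold

namespace Fermat.Agent.S20

theorem tendsto_discriminant_smul_inv {N : ℕ} [NeZero N] (H : HomBasis N) [Fintype H.ι]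
    [DecidableEq H.ι] (e : H.ι ≃ Q N) :
    Tendsto (fun z : ℍ => discriminant z •
      (Matrix.of fun a b => ev N (H.w a) (H.B a) z (e b) : Matrix H.ι H.ι ℂ)⁻¹) atImInfty (nhds 0) :=
  cinv_tendsto_discriminant_smul_inv H e (ev_linearIndependent H)
    (fun a => tendsto_cuspG (H.isForm a)) (cuspLim_linearIndependent H)

end Fermat.Agent.S20
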