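import Fermat.Agent.S20.CuspSum
import Fermat.Agent.S20.CuspInv

/-!
# S20, module H2: behaviour at the cusp `i∞`

The two statements of the module live in the imported files:

* `Fermat.Agent.S20.sum_weights` (`CuspSum.lean`): the weights of a homogeneous basis add up to
  `6 (μ - ε_∞)`;
* `Fermat.Agent.S20.tendsto_discriminant_smul_inv` (`CuspInv.lean`): `Δ(z) • M(z)⁻¹ → 0` at
  `i∞` for the matrix `M(z)` of the values of the conjugates of a homogeneous basis.
-/
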