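import Fermat.Agent.S20.CuspLim

/-!
# S20, module H2: two leaf lemmas for `sum_weights`

* `cexp_card_orbits`: the orbits of `zpowers (cuspTau N)` on the cosets are the orbits of
  `zpowers T`, so their number is `epsInf N`;
* `cexp_exponent`: comparison of exponents from the asymptotics at `i∞`.
-/

set_option autoImplicit false

open UpperHalfPlane ModularForm CongruenceSubgroup Filter
open scoped MatrixGroups Manifold Real

namespace Fermat.Agent.S20

theorem cexp_cuspTau_zpow (N : ℕ) (k : ℤ) (q : Q N) :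
    (cuspTau N ^ k) q = (ModularGroup.T ^ k) • q := by
  unfold cuspTau
  have h : (MulAction.toPerm ModularGroup.T : Equiv.Perm (Q N)) ^ k =
      MulAction.toPerm (ModularGroup.T ^ k) :=
    (map_zpow (MulAction.toPermHom SL(2, ℤ) (Q N)) ModularGroup.T k).symm
  rw [h]
  rfl

/-- the number of orbits of `zpowers (cuspTau N)` is `epsInf N` -/
theorem cexp_card_orbits (N : ℕ) :
    Nat.card (MulAction.orbitRel.Quotient (Subgroup.zpowers (cuspTau N)) (Q N)) = epsInf N := by
  unfold epsInf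
  refine Nat.card_congr (Quotient.congrRight fun a b => ?_)
  rw [MulAction.orbitRel_apply, MulAction.orbitRel_apply]
  constructor
  · rintro ⟨⟨g, hg⟩, rfl⟩
    obtain ⟨k, rfl⟩ := Subgroup.mem_zpowers_iff.mp hg
    exact ⟨⟨ModularGroup.T ^ k, Subgroup.zpow_mem_zpowers _ k⟩, (cexp_cuspTau_zpow N k b).symm⟩
  · rintro ⟨⟨g, hg⟩, rfl⟩
    obtain ⟨k, rfl⟩ := Subgroup.mem_zpowers_iff.mp hg
    exact ⟨⟨cuspTau N ^ k, Subgroup.zpow_mem_zpowers _ k⟩, cexp_cuspTau_zpow N k b⟩

theorem cexp_tendsto_exp_neg (c κ : ℝ) (hκ : 0 < κ) :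
    Tendsto (fun z : ℍ => c * Real.exp (-(κ * z.im))) atImInfty (nhds 0) := by
  have h1 : Tendsto (fun t : ℝ => c * Real.exp (-(κ * t))) atTop (nhds 0) := by
    have h2 : Tendsto (fun t : ℝ => -(κ * t)) atTop atBot :=
      tendsto_neg_atTop_atBot.comp (tendsto_id.const_mul_atTop hκ)
    have h4 := (Real.tendsto_exp_atBot.comp h2).const_mul c
    simpa using h4
  have him : Tendsto UpperHalfPlane.im atImInfty atTop := tendsto_comap
  exact h1.comp him

theorem cexp_tendsto_exp_pos (c κ : ℝ) (hc : 0 < c) (hκ : 0 < κ) :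
    Tendsto (fun z : ℍ => c * Real.exp (κ * z.im)) atImInfty atTop := by
  have h1 : Tendsto (fun t : ℝ => c * Real.exp (κ * t)) atTop atTop :=
    (Real.tendsto_exp_atTop.comp (tendsto_id.const_mul_atTop hκ)).const_mul_atTop hc
  have him : Tendsto UpperHalfPlane.im atImInfty atTop := tendsto_comap
  exact h1.comp him

theorem cexp_norm (z : ℍ) (a b : ℕ) :
    ‖Complex.exp (-(π * Complex.I * z * ((a : ℂ) - b))) ^ 2‖ =
      Real.exp (2 * π * z.im * ((a : ℝ) - b)) := by
  rw [norm_pow, Complex.norm_exp, ← Real.exp_nat_mul]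
  congr 1
  have h : -((π : ℂ) * Complex.I * z * ((a : ℂ) - b)) =
      ((-(π * ((a : ℝ) - b)) : ℝ) : ℂ) * (Complex.I * z) := by
    push_cast
    ring
  rw [h, Complex.re_ofReal_mul, Complex.I_mul_re, UpperHalfPlane.coe_im]
  push_cast
  ring

/-- comparison of exponents: if `c Δ(z)^m exp(-πi z (a - b))²` has a nonzero limit at `i∞`
then `m = a - b`. -/
theorem cexp_exponent (m a b : ℕ) (c L : ℂ) (hc : c ≠ 0) (hL : L ≠ 0)
    (h : Tendsto (fun z : ℍ => c * discriminant z ^ m *
      Complex.exp (-(π * Complex.I * z * ((a : ℂ) - b))) ^ 2) atImInfty (nhds L)) :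
    (m : ℤ) = a - b := by
  obtain ⟨c₁, C₁, hc₁, hb⟩ := exists_discriminant_bounds
  have hnorm : ∀ z : ℍ, ‖c * discriminant z ^ m *
      Complex.exp (-(π * Complex.I * z * ((a : ℂ) - b))) ^ 2‖ =
      ‖c‖ * ‖discriminant z‖ ^ m * Real.exp (2 * π * z.im * ((a : ℝ) - b)) := by
    intro z
    rw [norm_mul, norm_mul, norm_pow, cexp_norm]
  have hpow : ∀ (K : ℝ) (z : ℍ), (K * Real.exp (-2 * π * z.im)) ^ m =
      K ^ m * Real.exp (-(2 * π * z.im * m)) := by
    intro K z
    rw [mul_pow, ← Real.exp_nat_mul]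
    congr 2
    ring
  have hn := h.norm
  by_contra hne
  rcases lt_or_gt_of_ne (Ne.symm hne) with hlt | hgt
  · -- `a - b < m`: the upper bound tends to zero
    have hκ : (0 : ℝ) < 2 * π * ((m : ℝ) - ((a : ℝ) - b)) := by
      have h1 : ((a : ℤ) - b : ℤ) + 1 ≤ m := by omega
      have h2 : ((a : ℝ) - b) + 1 ≤ m := by exact_mod_cast h1
      have := Real.pi_pos
      nlinarith
    -- upper bound tends to zero, so `L = 0`
    have hupper : ∀ᶠ z : ℍ in atImInfty, ‖c * discriminant z ^ m *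
        Complex.exp (-(π * Complex.I * z * ((a : ℂ) - b))) ^ 2‖ ≤
        ‖c‖ * C₁ ^ m * Real.exp (-(2 * π * ((m : ℝ) - ((a : ℝ) - b)) * z.im)) := by
      filter_upwards [hb] with z hz
      rw [hnorm]
      have h3 : ‖discriminant z‖ ^ m ≤ C₁ ^ m * Real.exp (-(2 * π * z.im * m)) := by
        rw [← hpow]
        exact pow_le_pow_left₀ (norm_nonneg _) hz.2 m
      calc ‖c‖ * ‖discriminant z‖ ^ m * Real.exp (2 * π * z.im * ((a : ℝ) - b))
          ≤ ‖c‖ * (C₁ ^ m * Real.exp (-(2 * π * z.im * m))) *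
              Real.exp (2 * π * z.im * ((a : ℝ) - b)) := by
            gcongr
        _ = ‖c‖ * C₁ ^ m * (Real.exp (-(2 * π * z.im * m)) *
              Real.exp (2 * π * z.im * ((a : ℝ) - b))) := by ring
        _ = ‖c‖ * C₁ ^ m * Real.exp (-(2 * π * ((m : ℝ) - ((a : ℝ) - b)) * z.im)) := by
            rw [← Real.exp_add]
            congr 2
            ring
    have hzero : Tendsto (fun z : ℍ => c * discriminant z ^ m *
        Complex.exp (-(π * Complex.I * z * ((a : ℂ) - b))) ^ 2) atImInfty (nhds 0) :=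
      squeeze_zero_norm' hupper (cexp_tendsto_exp_neg (‖c‖ * C₁ ^ m) _ hκ)
    exact hL (tendsto_nhds_unique h hzero)
  · -- `m < a - b`: the lower bound tends to infinity
    have hκ : (0 : ℝ) < 2 * π * (((a : ℝ) - b) - m) := by
      have h1 : (m : ℤ) + 1 ≤ (a : ℤ) - b := by omega
      have h2 : (m : ℝ) + 1 ≤ (a : ℝ) - b := by exact_mod_cast h1
      have := Real.pi_pos
      nlinarith
    have hcpos : 0 < ‖c‖ * c₁ ^ m := mul_pos (norm_pos_iff.mpr hc) (pow_pos hc₁ m)
    have hlower : ∀ᶠ z : ℍ in atImInfty,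
        ‖c‖ * c₁ ^ m * Real.exp (2 * π * (((a : ℝ) - b) - m) * z.im) ≤
        ‖c * discriminant z ^ m * Complex.exp (-(π * Complex.I * z * ((a : ℂ) - b))) ^ 2‖ := by
      filter_upwards [hb] with z hz
      rw [hnorm]
      have h3 : c₁ ^ m * Real.exp (-(2 * π * z.im * m)) ≤ ‖discriminant z‖ ^ m := by
        rw [← hpow]
        exact pow_le_pow_left₀ (mul_nonneg hc₁.le (Real.exp_pos _).le) hz.1 m
      have he : Real.exp (2 * π * (((a : ℝ) - b) - m) * z.im) =
          Real.exp (-(2 * π * z.im * m)) * Real.exp (2 * π * z.im * ((a : ℝ) - b)) := by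
        rw [← Real.exp_add]
        congr 1
        ring
      calc ‖c‖ * c₁ ^ m * Real.exp (2 * π * (((a : ℝ) - b) - m) * z.im)
          = ‖c‖ * (c₁ ^ m * Real.exp (-(2 * π * z.im * m))) *
              Real.exp (2 * π * z.im * ((a : ℝ) - b)) := by
            rw [he]
            ring
        _ ≤ ‖c‖ * ‖discriminant z‖ ^ m * Real.exp (2 * π * z.im * ((a : ℝ) - b)) := by
            gcongr
    have htop := tendsto_atTop_mono' atImInfty hlower (cexp_tendsto_exp_pos _ _ hcpos hκ)
    exact not_tendsto_nhds_of_tendsto_atTop htop _ hn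

end Fermat.Agent.S20
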