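import Mathlib
import Fermat.Agent.S20.DualCore
import Fermat.Agent.S20.Fiber
import Fermat.Agent.S20.CuspInv

/-!
Module I (Dual) of the S20/S21 project: the weights of a homogeneous basis are at most ten, and
the dimension of the space of cusp forms of weight two is the number of basis elements of weight
ten.  The mathematics is in `DualCore.lean`; here the inputs from the modules F (Fiber) and
H2 (Cusp) are plugged in.
-/

set_option autoImplicit false

open UpperHalfPlane ModularForm CongruenceSubgroup Filter
open scoped MatrixGroups Manifold

namespace Fermat.Agent.S20

/-- an identification of the index set of a homogeneous basis with the set of cosets -/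
theorem dual_exists_equiv {N : ℕ} [NeZero N] (H : HomBasis N) : Nonempty (H.ι ≃ Q N) := by
  have := H.finite
  have : Finite (Q N) := inferInstance
  exact Finite.card_eq.mp H.card_eq

theorem HomBasis.weight_le_ten {N : ℕ} [NeZero N] (H : HomBasis N) (a : H.ι) : H.w a ≤ 10 := by
  classical
  have := H.finite
  let _ : Fintype H.ι := Fintype.ofFinite _
  obtain ⟨e⟩ := dual_exists_equiv H
  exact dual_weight_le_ten H e (ev_linearIndependent H) (tendsto_discriminant_smul_inv H e) a

theorem finrank_cuspForm_two {N : ℕ} [NeZero N] (H : HomBasis N) :
    Module.finrank ℂ (CuspForm (Gamma0 N) 2) = Nat.card {a : H.ι // H.w a = 10} := by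
  classical
  have := H.finite
  let _ : Fintype H.ι := Fintype.ofFinite _
  obtain ⟨e⟩ := dual_exists_equiv H
  rw [dual_finrank_cuspForm_two H e (ev_linearIndependent H) (tendsto_discriminant_smul_inv H e),
    Nat.card_eq_fintype_card]

end Fermat.Agent.S20
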