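import Mathlib

/-!
# S20, module H1: the twisting operator of a permutation of finite order

Pure finite linear algebra.  For a permutation `τ` of `X` with `τ ^ N = 1`, the permutation
operator `R = twR τ` on `X → ℂ` has the spectral projectors `twPi τ N s` (`s < N`) and we put
`twE τ N z = Σ_{s<N} exp (-2πi s z / N) • twPi τ N s`.  Then `E(z+w) = E(z) E(w)`, `E(0) = 1`,
`E(z+1) ∘ R = E(z)`, `det E(z) = exp (-πi z (|X| - #orbits of τ))`, and `E(z)` has the obvious
growth bounds.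
-/

set_option autoImplicit false

open Finset

namespace Fermat.Agent.S20

section Twist

variable {X : Type*}

/-- The permutation operator `(R v) x = v (τ⁻¹ x)`. -/
noncomputable def twR (τ : Equiv.Perm X) : Module.End ℂ (X → ℂ) :=
  LinearMap.funLeft ℂ ℂ (⇑(τ⁻¹ : Equiv.Perm X))

@[simp] theorem twR_apply (τ : Equiv.Perm X) (v : X → ℂ) (x : X) : twR τ v x = v (τ⁻¹ x) := rfl

theorem twR_mul (σ τ : Equiv.Perm X) : twR (σ * τ) = twR σ * twR τ := by
  ext v x
  simp [mul_inv_rev]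

theorem twR_one : twR (1 : Equiv.Perm X) = 1 := by
  ext v x
  simp

/-- `ζ = exp (2πi/N)`. -/
noncomputable def twZ (N : ℕ) : ℂ := Complex.exp (2 * Real.pi * Complex.I / N)

theorem twZ_prim (N : ℕ) [NeZero N] : IsPrimitiveRoot (twZ N) N :=
  Complex.isPrimitiveRoot_exp N (NeZero.ne N)

theorem twZ_ne_zero (N : ℕ) : twZ N ≠ 0 := Complex.exp_ne_zero _

theorem twZ_pow (N : ℕ) [NeZero N] : twZ N ^ N = 1 := (twZ_prim N).pow_eq_one

/-- The spectral projector onto the `ζ^s`-eigenspace of `twR τ`. -/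
noncomputable def twPi (τ : Equiv.Perm X) (N s : ℕ) : Module.End ℂ (X → ℂ) :=
  (N : ℂ)⁻¹ • ∑ j ∈ range N, ((twZ N)⁻¹ ^ (s * j)) • twR (τ ^ j)

/-- the scalar `exp (-2πi s z / N)` -/
noncomputable def twA (N s : ℕ) (z : ℂ) : ℂ :=
  Complex.exp (-(2 * Real.pi * Complex.I * s * z / N))

/-- The twisting operator `E(z) = Σ_{s<N} exp (-2πi s z / N) Π_s`. -/
noncomputable def twE (τ : Equiv.Perm X) (N : ℕ) (z : ℂ) : Module.End ℂ (X → ℂ) :=
  ∑ s ∈ range N, twA N s z • twPi τ N s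

/-! ### characters -/

theorem tw_geom (N : ℕ) [NeZero N] (x : ℂ) (hx : x ^ N = 1) :
    ∑ j ∈ range N, x ^ j = if x = 1 then (N : ℂ) else 0 := by
  split_ifs with h
  · subst h
    simp
  · have h1 := geom_sum_mul x N
    rw [hx, sub_self] at h1
    rcases mul_eq_zero.mp h1 with h2 | h2
    · exact h2
    · exact absurd (sub_eq_zero.mp h2) h

theorem tw_zinv_pow (N : ℕ) [NeZero N] : (twZ N)⁻¹ ^ N = 1 := by
  rw [inv_pow, twZ_pow, inv_one]

/-- orthogonality: `Σ_{j<N} ξ^{t j} ζ^{s j} = N δ_{s t}` for `s, t < N`. -/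
theorem tw_orth (N : ℕ) [NeZero N] {s t : ℕ} (hs : s < N) (ht : t < N) :
    ∑ j ∈ range N, (twZ N)⁻¹ ^ (t * j) * twZ N ^ (s * j) = if t = s then (N : ℂ) else 0 := by
  have h1 : ∀ j : ℕ, (twZ N)⁻¹ ^ (t * j) * twZ N ^ (s * j) = ((twZ N)⁻¹ ^ t * twZ N ^ s) ^ j := by
    intro j
    rw [mul_pow, ← pow_mul, ← pow_mul]
  simp_rw [h1]
  rw [tw_geom N _ (by rw [mul_pow, ← pow_mul, ← pow_mul, mul_comm t N, mul_comm s N, pow_mul,
    pow_mul, tw_zinv_pow, twZ_pow, one_pow, one_pow, one_mul])]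
  have h2 : (twZ N)⁻¹ ^ t * twZ N ^ s = 1 ↔ t = s := by
    rw [inv_pow, inv_mul_eq_one₀ (pow_ne_zero _ (twZ_ne_zero N))]
    constructor
    · intro h
      exact (twZ_prim N).pow_inj ht hs h
    · intro h
      rw [h]
  simp only [h2]

/-! ### spectral relations -/

theorem twR_pow (τ : Equiv.Perm X) (j : ℕ) : twR (τ ^ j) = twR τ ^ j := by
  induction j with
  | zero => simp [twR_one]
  | succ j ih => rw [pow_succ, twR_mul, ih, pow_succ]

theorem tw_sum_shift {M : Type*} [AddCommGroup M] (f : ℕ → M) (N : ℕ) (h : f N = f 0) :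
    ∑ j ∈ range N, f (j + 1) = ∑ j ∈ range N, f j := by
  have h1 := Finset.sum_range_succ' f N
  have h2 := Finset.sum_range_succ f N
  rw [h2, h] at h1
  exact (add_right_cancel h1).symm

/-- `R Π_s = ζ^s Π_s` -/
theorem twR_mul_twPi (τ : Equiv.Perm X) (N : ℕ) [NeZero N] (hτ : τ ^ N = 1) (s : ℕ) :
    twR τ * twPi τ N s = twZ N ^ s • twPi τ N s := by
  unfold twPi
  rw [mul_smul_comm, smul_comm (twZ N ^ s) ((N : ℂ)⁻¹)]
  congr 1
  rw [Finset.mul_sum, Finset.smul_sum]
  have h1 : ∀ j, twR τ * ((twZ N)⁻¹ ^ (s * j) • twR (τ ^ j)) =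
      (twZ N ^ s * (twZ N)⁻¹ ^ (s * (j + 1))) • twR (τ ^ (j + 1)) := by
    intro j
    have hc : (twZ N)⁻¹ ^ (s * j) = twZ N ^ s * (twZ N)⁻¹ ^ (s * (j + 1)) := by
      rw [mul_add, mul_one, pow_add, mul_comm ((twZ N)⁻¹ ^ (s * j)), ← mul_assoc,
        inv_pow (twZ N) s, mul_inv_cancel₀ (pow_ne_zero _ (twZ_ne_zero N)), one_mul]
    rw [mul_smul_comm, ← twR_mul, ← pow_succ', ← hc]
  have h2 : ∀ j, twZ N ^ s • ((twZ N)⁻¹ ^ (s * j) • twR (τ ^ j)) =
      (twZ N ^ s * (twZ N)⁻¹ ^ (s * j)) • twR (τ ^ j) := by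
    intro j
    rw [smul_smul]
  simp_rw [h1, h2]
  apply tw_sum_shift (fun j => (twZ N ^ s * (twZ N)⁻¹ ^ (s * j)) • twR (τ ^ j))
  show (twZ N ^ s * (twZ N)⁻¹ ^ (s * N)) • twR (τ ^ N) =
    (twZ N ^ s * (twZ N)⁻¹ ^ (s * 0)) • twR (τ ^ 0)
  rw [hτ, pow_zero, mul_zero, pow_zero, mul_comm s N, pow_mul, tw_zinv_pow, one_pow]

theorem twPi_sum (τ : Equiv.Perm X) (N : ℕ) [NeZero N] : ∑ s ∈ range N, twPi τ N s = 1 := by
  unfold twPi
  rw [← Finset.smul_sum, Finset.sum_comm]
  simp_rw [← Finset.sum_smul]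
  have h : ∀ j ∈ range N, (∑ s ∈ range N, (twZ N)⁻¹ ^ (s * j)) • twR (τ ^ j) =
      if j = 0 then (N : ℂ) • (1 : Module.End ℂ (X → ℂ)) else 0 := by
    intro j hj
    have hj' := Finset.mem_range.mp hj
    have h3 := tw_orth N (s := 0) (t := j) (Nat.pos_of_ne_zero (NeZero.ne N)) hj'
    simp only [zero_mul, pow_zero, mul_one] at h3
    rw [show ∑ s ∈ range N, (twZ N)⁻¹ ^ (s * j) = ∑ s ∈ range N, (twZ N)⁻¹ ^ (j * s) from
      Finset.sum_congr rfl (fun s _ => by rw [mul_comm]), h3]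
    split_ifs with h0
    · subst h0
      simp [twR_one]
    · simp
  rw [Finset.sum_congr rfl h, Finset.sum_ite_eq' (range N) 0,
    if_pos (Finset.mem_range.mpr (Nat.pos_of_ne_zero (NeZero.ne N))), smul_smul,
    inv_mul_cancel₀ (Nat.cast_ne_zero.mpr (NeZero.ne N)), one_smul]

/-- on the `ζ^s`-eigenspace of `R`, `Π_t` acts as `δ_{s t}` -/
theorem twPi_apply_of_eigen (τ : Equiv.Perm X) (N : ℕ) [NeZero N] {s t : ℕ} (hs : s < N)
    (ht : t < N) (w : X → ℂ) (hw : twR τ w = twZ N ^ s • w) :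
    twPi τ N t w = if t = s then w else 0 := by
  have h1 : ∀ j : ℕ, twR (τ ^ j) w = twZ N ^ (s * j) • w := by
    intro j
    rw [twR_pow]
    induction j with
    | zero => simp
    | succ j ih =>
      rw [pow_succ', Module.End.mul_apply, ih, map_smul, hw, smul_smul, mul_add, mul_one,
        pow_add]
  unfold twPi
  rw [LinearMap.smul_apply, LinearMap.sum_apply]
  simp_rw [LinearMap.smul_apply, h1, smul_smul]
  rw [← Finset.sum_smul, tw_orth N hs ht]
  split_ifs with h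
  · rw [smul_smul, inv_mul_cancel₀ (Nat.cast_ne_zero.mpr (NeZero.ne N)), one_smul]
  · rw [zero_smul, smul_zero]

theorem twPi_mul_twPi (τ : Equiv.Perm X) (N : ℕ) [NeZero N] (hτ : τ ^ N = 1) {s t : ℕ}
    (hs : s < N) (ht : t < N) :
    twPi τ N t * twPi τ N s = if t = s then twPi τ N s else 0 := by
  ext v : 1
  rw [Module.End.mul_apply, twPi_apply_of_eigen τ N hs ht (twPi τ N s v)]
  · split_ifs <;> rfl
  · have h := congrArg (fun f : Module.End ℂ (X → ℂ) => f v) (twR_mul_twPi τ N hτ s)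
    simpa using h

/-! ### the twisting operator -/

theorem twA_add (N s : ℕ) (z w : ℂ) : twA N s (z + w) = twA N s z * twA N s w := by
  unfold twA
  rw [← Complex.exp_add]
  congr 1
  ring

theorem twA_zero (N s : ℕ) : twA N s 0 = 1 := by
  unfold twA
  simp

theorem twA_add_one (N : ℕ) [NeZero N] (s : ℕ) (z : ℂ) :
    twA N s (z + 1) * twZ N ^ s = twA N s z := by
  unfold twA twZ
  rw [← Complex.exp_nat_mul, ← Complex.exp_add]
  congr 1
  have hN : (N : ℂ) ≠ 0 := Nat.cast_ne_zero.mpr (NeZero.ne N)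
  field_simp
  ring

theorem twA_differentiable (N s : ℕ) : Differentiable ℂ (twA N s) := by
  unfold twA
  fun_prop

theorem twA_norm (N s : ℕ) (z : ℂ) :
    ‖twA N s z‖ = Real.exp (2 * Real.pi * s * z.im / N) := by
  unfold twA
  rw [Complex.norm_exp]
  congr 1
  have h : -(2 * (Real.pi : ℂ) * Complex.I * s * z / N) =
      ((2 * Real.pi * s / N : ℝ) : ℂ) * (-(Complex.I * z)) := by
    push_cast
    ring
  rw [h, Complex.re_ofReal_mul, Complex.neg_re, Complex.I_mul_re]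
  ring

theorem twE_add (τ : Equiv.Perm X) (N : ℕ) [NeZero N] (hτ : τ ^ N = 1) (z w : ℂ) :
    twE τ N (z + w) = twE τ N z * twE τ N w := by
  unfold twE
  rw [Finset.sum_mul]
  refine Finset.sum_congr rfl fun s hs => ?_
  rw [Finset.mul_sum, Finset.sum_eq_single s]
  · rw [smul_mul_smul_comm, twPi_mul_twPi τ N hτ (Finset.mem_range.mp hs) (Finset.mem_range.mp hs),
      if_pos rfl, twA_add]
  · intro t ht hts
    rw [smul_mul_smul_comm, twPi_mul_twPi τ N hτ (Finset.mem_range.mp ht) (Finset.mem_range.mp hs),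
      if_neg (Ne.symm hts), smul_zero]
  · intro h
    exact absurd hs h

theorem twE_zero (τ : Equiv.Perm X) (N : ℕ) [NeZero N] : twE τ N 0 = 1 := by
  unfold twE
  simp_rw [twA_zero, one_smul]
  exact twPi_sum τ N

theorem twE_mul_neg (τ : Equiv.Perm X) (N : ℕ) [NeZero N] (hτ : τ ^ N = 1) (z : ℂ) :
    twE τ N z * twE τ N (-z) = 1 := by
  rw [← twE_add τ N hτ, add_neg_cancel, twE_zero]

theorem twE_neg_mul (τ : Equiv.Perm X) (N : ℕ) [NeZero N] (hτ : τ ^ N = 1) (z : ℂ) :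
    twE τ N (-z) * twE τ N z = 1 := by
  rw [← twE_add τ N hτ, neg_add_cancel, twE_zero]

theorem twPi_mul_twR (τ : Equiv.Perm X) (N : ℕ) [NeZero N] (hτ : τ ^ N = 1) (s : ℕ) :
    twPi τ N s * twR τ = twZ N ^ s • twPi τ N s := by
  rw [← twR_mul_twPi τ N hτ s]
  unfold twPi
  rw [smul_mul_assoc, mul_smul_comm, Finset.sum_mul, Finset.mul_sum]
  congr 1
  refine Finset.sum_congr rfl fun j _ => ?_
  rw [smul_mul_assoc, mul_smul_comm, ← twR_mul, ← twR_mul, ← pow_succ, ← pow_succ']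

/-- `E(z+1) ∘ R = E(z)` -/
theorem twE_add_one_mul (τ : Equiv.Perm X) (N : ℕ) [NeZero N] (hτ : τ ^ N = 1) (z : ℂ) :
    twE τ N (z + 1) * twR τ = twE τ N z := by
  unfold twE
  rw [Finset.sum_mul]
  refine Finset.sum_congr rfl fun s _ => ?_
  rw [smul_mul_assoc, twPi_mul_twR τ N hτ, smul_smul, twA_add_one]

theorem twE_add_one_apply (τ : Equiv.Perm X) (N : ℕ) [NeZero N] (hτ : τ ^ N = 1) (z : ℂ)
    (v : X → ℂ) : twE τ N (z + 1) (twR τ v) = twE τ N z v := by
  rw [← twE_add_one_mul τ N hτ z]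
  rfl

theorem twE_apply (τ : Equiv.Perm X) (N : ℕ) (z : ℂ) (v : X → ℂ) (x : X) :
    twE τ N z v x = ∑ s ∈ range N, twA N s z * twPi τ N s v x := by
  unfold twE
  rw [LinearMap.sum_apply, Finset.sum_apply]
  rfl

theorem twE_differentiable (τ : Equiv.Perm X) (N : ℕ) (v : X → ℂ) (x : X) :
    Differentiable ℂ (fun z => twE τ N z v x) := by
  simp_rw [twE_apply]
  refine Differentiable.fun_sum fun s _ => ?_
  exact (twA_differentiable N s).mul_const _

theorem tw_norm_zinv (N : ℕ) : ‖(twZ N)⁻¹‖ = 1 := by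
  rw [norm_inv, twZ, Complex.norm_exp]
  have h : (2 * (Real.pi : ℂ) * Complex.I / N).re = 0 := by
    have h' : 2 * (Real.pi : ℂ) * Complex.I / N = ((2 * Real.pi / N : ℝ) : ℂ) * Complex.I := by
      push_cast
      ring
    rw [h', Complex.re_ofReal_mul, Complex.I_re, mul_zero]
  rw [h, Real.exp_zero, inv_one]

theorem twPi_norm_le (τ : Equiv.Perm X) (N : ℕ) [NeZero N] (s : ℕ) (v : X → ℂ) (B : ℝ)
    (hB : ∀ y, ‖v y‖ ≤ B) (x : X) : ‖twPi τ N s v x‖ ≤ B := by
  unfold twPi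
  rw [LinearMap.smul_apply, Pi.smul_apply, LinearMap.sum_apply, Finset.sum_apply, norm_smul,
    norm_inv, Complex.norm_natCast]
  have hN : (0 : ℝ) < N := Nat.cast_pos.mpr (Nat.pos_of_ne_zero (NeZero.ne N))
  rw [inv_mul_le_iff₀ hN]
  refine (norm_sum_le _ _).trans ?_
  have h1 : ∀ j ∈ range N, ‖((twZ N)⁻¹ ^ (s * j) • twR (τ ^ j)) v x‖ ≤ B := by
    intro j _
    rw [LinearMap.smul_apply, Pi.smul_apply, norm_smul, norm_pow, tw_norm_zinv, one_pow, one_mul]
    exact hB _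
  refine (Finset.sum_le_sum h1).trans ?_
  rw [Finset.sum_const, Finset.card_range, nsmul_eq_mul]

theorem twE_norm_le (τ : Equiv.Perm X) (N : ℕ) [NeZero N] (z : ℂ) (hz : 0 ≤ z.im) (v : X → ℂ)
    (B : ℝ) (hB : ∀ y, ‖v y‖ ≤ B) (x : X) :
    ‖twE τ N z v x‖ ≤ N * (Real.exp (2 * Real.pi * z.im) * Real.exp (-(2 * Real.pi * z.im / N)))
      * B := by
  have hN : (0 : ℝ) < N := Nat.cast_pos.mpr (Nat.pos_of_ne_zero (NeZero.ne N))
  have hB0 : 0 ≤ B := (norm_nonneg _).trans (hB x)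
  rw [twE_apply]
  refine (norm_sum_le _ _).trans ?_
  have h1 : ∀ s ∈ range N, ‖twA N s z * twPi τ N s v x‖ ≤
      Real.exp (2 * Real.pi * z.im) * Real.exp (-(2 * Real.pi * z.im / N)) * B := by
    intro s hs
    have hs' : s + 1 ≤ N := Finset.mem_range.mp hs
    rw [norm_mul, twA_norm, ← Real.exp_add]
    refine mul_le_mul ?_ (twPi_norm_le τ N s v B hB x) (norm_nonneg _) (Real.exp_pos _).le
    rw [Real.exp_le_exp]
    have h2 : (s : ℝ) + 1 ≤ N := by exact_mod_cast hs'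
    have h3 : 2 * Real.pi * z.im + -(2 * Real.pi * z.im / N) - 2 * Real.pi * s * z.im / N =
        2 * Real.pi * z.im * ((N - 1 - s) / N) := by
      field_simp
      ring
    have h4 : 0 ≤ 2 * Real.pi * z.im * ((N - 1 - s) / N) := by
      have := Real.pi_pos
      have h5 : 0 ≤ ((N : ℝ) - 1 - s) / N := div_nonneg (by linarith) hN.le
      positivity
    linarith
  refine (Finset.sum_le_sum h1).trans ?_
  rw [Finset.sum_const, Finset.card_range, nsmul_eq_mul]
  exact le_of_eq (by ring)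

theorem twE_neg_norm_le (τ : Equiv.Perm X) (N : ℕ) [NeZero N] (z : ℂ) (hz : 0 ≤ z.im)
    (v : X → ℂ) (B : ℝ) (hB : ∀ y, ‖v y‖ ≤ B) (x : X) : ‖twE τ N (-z) v x‖ ≤ N * B := by
  have hN : (0 : ℝ) < N := Nat.cast_pos.mpr (Nat.pos_of_ne_zero (NeZero.ne N))
  have hB0 : 0 ≤ B := (norm_nonneg _).trans (hB x)
  rw [twE_apply]
  refine (norm_sum_le _ _).trans ?_
  have h1 : ∀ s ∈ range N, ‖twA N s (-z) * twPi τ N s v x‖ ≤ B := by
    intro s _
    rw [norm_mul, twA_norm]
    have h2 : Real.exp (2 * Real.pi * s * (-z).im / N) ≤ 1 := by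
      rw [Real.exp_le_one_iff, Complex.neg_im]
      have := Real.pi_pos
      have h3 : 0 ≤ 2 * Real.pi * s * z.im / N := by positivity
      have h4 : 2 * Real.pi * s * -z.im / N = -(2 * Real.pi * s * z.im / N) := by ring
      linarith
    calc Real.exp (2 * Real.pi * s * (-z).im / N) * ‖twPi τ N s v x‖
        ≤ 1 * B := mul_le_mul h2 (twPi_norm_le τ N s v B hB x) (norm_nonneg _) zero_le_one
      _ = B := one_mul B
  refine (Finset.sum_le_sum h1).trans ?_
  rw [Finset.sum_const, Finset.card_range, nsmul_eq_mul]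

end Twist

/-! ### the determinant -/

theorem tw_det_of_eigenbasis {ι K V : Type*} [Fintype ι] [DecidableEq ι] [Field K]
    [AddCommGroup V] [Module K V] (b : Module.Basis ι K V) (f : V →ₗ[K] V) (a : ι → K)
    (h : ∀ i, f (b i) = a i • b i) : LinearMap.det f = ∏ i, a i := by
  rw [← LinearMap.det_toMatrix b]
  have h1 : LinearMap.toMatrix b b f = Matrix.diagonal a := by
    ext i j
    rw [LinearMap.toMatrix_apply, h, map_smul, Module.Basis.repr_self, Finsupp.smul_apply,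
      Finsupp.single_apply, Matrix.diagonal_apply]
    by_cases hij : i = j
    · subst hij
      simp
    · rw [if_neg (Ne.symm hij), if_neg hij, smul_zero]
  rw [h1, Matrix.det_diagonal]

theorem tw_weighted_sum (c : ℕ → ℂ) (N : ℕ) (hN : N ≠ 0) (hc : ∀ s, s ≤ N → c (N - s) = c s) :
    2 * ∑ s ∈ range N, (s : ℂ) * c s = N * (∑ s ∈ range N, c s - c 0) := by
  obtain ⟨n, rfl⟩ := Nat.exists_eq_succ_of_ne_zero hN
  rw [Finset.sum_range_succ' (fun s => (s : ℂ) * c s), Finset.sum_range_succ' c]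
  simp only [Nat.cast_zero, zero_mul, add_zero, add_sub_cancel_right]
  have h1 : ∑ i ∈ range n, ((i + 1 : ℕ) : ℂ) * c (i + 1) =
      ∑ i ∈ range n, ((n - i : ℕ) : ℂ) * c (i + 1) := by
    rw [← Finset.sum_range_reflect (fun i => ((i + 1 : ℕ) : ℂ) * c (i + 1)) n]
    refine Finset.sum_congr rfl fun i hi => ?_
    have hi' := Finset.mem_range.mp hi
    have e1 : n - 1 - i + 1 = n - i := by omega
    have e2 : c (n - i) = c (i + 1) := by
      have h := hc (i + 1) (by omega)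
      rw [← h]
      congr 1
      omega
    rw [e1, e2]
  have h2 : 2 * ∑ i ∈ range n, ((i + 1 : ℕ) : ℂ) * c (i + 1) =
      ∑ i ∈ range n, (((i + 1 : ℕ) : ℂ) + ((n - i : ℕ) : ℂ)) * c (i + 1) := by
    rw [two_mul]
    nth_rewrite 2 [h1]
    rw [← Finset.sum_add_distrib]
    exact Finset.sum_congr rfl fun i _ => by ring
  rw [h2, Finset.mul_sum]
  refine Finset.sum_congr rfl fun i hi => ?_
  have hi' := Finset.mem_range.mp hi
  rw [Nat.cast_sub hi'.le]
  push_cast
  ring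

section Det

variable {X : Type*} (τ : Equiv.Perm X) (N : ℕ) [NeZero N]

/-- the eigenspaces of `R` -/
noncomputable def twW (s : Fin N) : Submodule ℂ (X → ℂ) :=
  Module.End.eigenspace (twR τ) (twZ N ^ (s : ℕ))

theorem twPi_mem_twW (hτ : τ ^ N = 1) (s : Fin N) (v : X → ℂ) : twPi τ N s v ∈ twW τ N s := by
  rw [twW, Module.End.mem_eigenspace_iff]
  have h := congrArg (fun f : Module.End ℂ (X → ℂ) => f v) (twR_mul_twPi τ N hτ s)
  simpa using h

theorem twW_iSupIndep : iSupIndep (twW τ N) := by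
  have h := Module.End.eigenspaces_iSupIndep (twR τ)
  exact h.comp (f := fun s : Fin N => twZ N ^ (s : ℕ))
    (fun s t hst => Fin.ext ((twZ_prim N).pow_inj s.2 t.2 hst))

theorem twW_iSup (hτ : τ ^ N = 1) : ⨆ s, twW τ N s = ⊤ := by
  rw [eq_top_iff]
  intro v _
  have h : v = ∑ s : Fin N, twPi τ N s v := by
    rw [Fin.sum_univ_eq_sum_range (fun s => twPi τ N s v) N, ← LinearMap.sum_apply, twPi_sum]
    rfl
  rw [h]
  exact Submodule.sum_mem _ fun s _ => Submodule.mem_iSup_of_mem s (twPi_mem_twW τ N hτ s v)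

theorem twW_isInternal (hτ : τ ^ N = 1) : DirectSum.IsInternal (twW τ N) :=
  DirectSum.isInternal_submodule_of_iSupIndep_of_iSup_eq_top (twW_iSupIndep τ N)
    (twW_iSup τ N hτ)

theorem twE_apply_of_mem_twW (s : Fin N) (z : ℂ) (w : X → ℂ) (hw : w ∈ twW τ N s) :
    twE τ N z w = twA N s z • w := by
  rw [twW, Module.End.mem_eigenspace_iff] at hw
  unfold twE
  rw [LinearMap.sum_apply, Finset.sum_eq_single (s : ℕ)]
  · rw [LinearMap.smul_apply, twPi_apply_of_eigen τ N s.2 s.2 w hw, if_pos rfl]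
  · intro t ht hts
    rw [LinearMap.smul_apply, twPi_apply_of_eigen τ N s.2 (Finset.mem_range.mp ht) w hw,
      if_neg hts, smul_zero]
  · intro h
    exact absurd (Finset.mem_range.mpr s.2) h

theorem twPi_isProj (hτ : τ ^ N = 1) (s : Fin N) :
    LinearMap.IsProj (twW τ N s) (twPi τ N s) where
  map_mem := twPi_mem_twW τ N hτ s
  map_id := fun w hw => by
    rw [twW, Module.End.mem_eigenspace_iff] at hw
    rw [twPi_apply_of_eigen τ N s.2 s.2 w hw, if_pos rfl]

variable [Fintype X] [DecidableEq X]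

omit [DecidableEq X] in
theorem twE_det_eq_prod (hτ : τ ^ N = 1) (z : ℂ) :
    LinearMap.det (twE τ N z) = ∏ s : Fin N, twA N s z ^ Module.finrank ℂ (twW τ N s) := by
  classical
  let b : (s : Fin N) → Module.Basis _ ℂ (twW τ N s) := fun s => Module.finBasis ℂ (twW τ N s)
  have hB := tw_det_of_eigenbasis ((twW_isInternal τ N hτ).collectedBasis b) (twE τ N z)
    (fun x => twA N x.1 z) (by
      intro x
      rw [DirectSum.IsInternal.collectedBasis_coe]
      exact twE_apply_of_mem_twW τ N x.1 z _ (b x.1 x.2).2)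
  rw [hB, Fintype.prod_sigma]
  refine Finset.prod_congr rfl fun s _ => ?_
  show ∏ _y : Fin (Module.finrank ℂ (twW τ N s)), twA N s z = _
  rw [Finset.prod_const, Finset.card_univ, Fintype.card_fin]

omit [DecidableEq X] in
theorem twPi_trace (hτ : τ ^ N = 1) (s : Fin N) :
    LinearMap.trace ℂ (X → ℂ) (twPi τ N s) = (Module.finrank ℂ (twW τ N s) : ℂ) :=
  (twPi_isProj τ N hτ s).trace

/-- number of fixed points -/
noncomputable def twFix (σ : Equiv.Perm X) : ℂ :=
  ((Finset.univ.filter (fun x => σ x = x)).card : ℂ)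

theorem twR_trace (σ : Equiv.Perm X) : LinearMap.trace ℂ (X → ℂ) (twR σ) = twFix σ := by
  rw [LinearMap.trace_eq_matrix_trace ℂ (Pi.basisFun ℂ X), Matrix.trace]
  unfold twFix
  rw [Finset.card_filter]
  push_cast
  refine Finset.sum_congr rfl fun x _ => ?_
  rw [Matrix.diag_apply, LinearMap.toMatrix_apply, Pi.basisFun_repr, Pi.basisFun_apply, twR_apply,
    Pi.single_apply]
  have h : σ⁻¹ x = x ↔ σ x = x := by
    rw [Equiv.Perm.inv_eq_iff_eq, eq_comm]
  simp only [h]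

omit [NeZero N] in
theorem twPi_trace_eq (s : ℕ) : LinearMap.trace ℂ (X → ℂ) (twPi τ N s) =
    (N : ℂ)⁻¹ * ∑ j ∈ range N, (twZ N)⁻¹ ^ (s * j) * twFix (τ ^ j) := by
  unfold twPi
  rw [map_smul, map_sum, smul_eq_mul]
  congr 1
  refine Finset.sum_congr rfl fun j _ => ?_
  rw [map_smul, twR_trace, smul_eq_mul]

omit [NeZero N] in
theorem twFix_inv (σ : Equiv.Perm X) : twFix σ⁻¹ = twFix σ := by
  unfold twFix
  congr 2
  ext x
  simp only [Finset.mem_filter, Finset.mem_univ, true_and]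
  rw [Equiv.Perm.inv_eq_iff_eq, eq_comm]

omit [NeZero N] in
theorem twFix_pow_sub (hτ : τ ^ N = 1) {j : ℕ} (hj : j ≤ N) :
    twFix (τ ^ (N - j)) = twFix (τ ^ j) := by
  have h : τ ^ (N - j) = (τ ^ j)⁻¹ := by
    rw [eq_inv_iff_mul_eq_one, ← pow_add, Nat.sub_add_cancel hj, hτ]
  rw [h, twFix_inv]

theorem twPi_trace_symm (hτ : τ ^ N = 1) {s : ℕ} (hs : s ≤ N) :
    LinearMap.trace ℂ (X → ℂ) (twPi τ N (N - s)) = LinearMap.trace ℂ (X → ℂ) (twPi τ N s) := by
  rw [twPi_trace_eq, twPi_trace_eq]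
  congr 1
  have key : ∀ j, j ≤ N → (twZ N)⁻¹ ^ ((N - s) * (N - j)) * twFix (τ ^ (N - j)) =
      (twZ N)⁻¹ ^ (s * j) * twFix (τ ^ j) := by
    intro j hj
    rw [twFix_pow_sub τ N hτ hj]
    congr 1
    have h1 : (N - s) * (N - j) + N * (s + j) = s * j + N * N := by
      zify [hs, hj]
      ring
    have h2 : (twZ N)⁻¹ ^ ((N - s) * (N - j)) =
        (twZ N)⁻¹ ^ ((N - s) * (N - j) + N * (s + j)) := by
      rw [pow_add, pow_mul (twZ N)⁻¹ N (s + j), tw_zinv_pow, one_pow, mul_one]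
    rw [h2, h1, pow_add, pow_mul (twZ N)⁻¹ N N, tw_zinv_pow, one_pow, mul_one]
  obtain ⟨n, hn⟩ := Nat.exists_eq_succ_of_ne_zero (NeZero.ne N)
  set g : ℕ → ℂ := fun j => (twZ N)⁻¹ ^ ((N - s) * j) * twFix (τ ^ j) with hg
  set g' : ℕ → ℂ := fun j => (twZ N)⁻¹ ^ (s * j) * twFix (τ ^ j) with hg'
  have key' : ∀ j, j ≤ N → g (N - j) = g' j := key
  show ∑ j ∈ range N, g j = ∑ j ∈ range N, g' j
  rw [hn, Finset.sum_range_succ' g, Finset.sum_range_succ' g',
    ← Finset.sum_range_reflect (fun i => g (i + 1)) n]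
  congr 1
  · refine Finset.sum_congr rfl fun i hi => ?_
    have hi' := Finset.mem_range.mp hi
    have h3 := key' (i + 1) (by omega)
    rw [← h3]
    congr 1
    omega

omit [NeZero N] [Fintype X] [DecidableEq X] in
theorem tw_finrank_fixed [Finite X] : Module.finrank ℂ (Module.End.eigenspace (twR τ) (1 : ℂ)) =
    Nat.card (MulAction.orbitRel.Quotient (Subgroup.zpowers τ) X) := by
  classical
  have : Fintype (MulAction.orbitRel.Quotient (Subgroup.zpowers τ) X) := Fintype.ofFinite _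
  let π : X → MulAction.orbitRel.Quotient (Subgroup.zpowers τ) X := Quotient.mk''
  have hπ : Function.Surjective π := Quotient.mk''_surjective
  let Φ : (MulAction.orbitRel.Quotient (Subgroup.zpowers τ) X → ℂ) →ₗ[ℂ] (X → ℂ) :=
    LinearMap.funLeft ℂ ℂ π
  have hΦ : Function.Injective Φ := LinearMap.funLeft_injective_of_surjective ℂ ℂ π hπ
  have hrange : LinearMap.range Φ = Module.End.eigenspace (twR τ) (1 : ℂ) := by
    ext v
    rw [Module.End.mem_eigenspace_iff, one_smul, LinearMap.mem_range]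
    constructor
    · rintro ⟨f, rfl⟩
      funext x
      show f (π (τ⁻¹ x)) = f (π x)
      congr 1
      apply Quotient.sound'
      rw [MulAction.orbitRel_apply]
      exact ⟨⟨τ⁻¹, inv_mem (Subgroup.mem_zpowers τ)⟩, rfl⟩
    · intro hv
      have hinv : ∀ g ∈ Subgroup.zpowers τ, ∀ x, v (g x) = v x := by
        let S : Subgroup (Equiv.Perm X) :=
          { carrier := {g | ∀ x, v (g x) = v x}
            mul_mem' := fun {a b} ha hb x => by
              rw [Equiv.Perm.mul_apply, ha, hb]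
            one_mem' := fun x => rfl
            inv_mem' := fun {a} ha x => by
              have h := ha (a⁻¹ x)
              rw [show a (a⁻¹ x) = x from Equiv.apply_symm_apply a x] at h
              exact h.symm }
        have hτS : τ ∈ S := fun x => by
          have h := congrFun hv (τ x)
          rw [twR_apply, show τ⁻¹ (τ x) = x from Equiv.symm_apply_apply τ x] at h
          exact h.symm
        exact fun g hg => (Subgroup.zpowers_le.mpr hτS) hg
      refine ⟨fun ω => Quotient.liftOn' ω v ?_, ?_⟩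
      · intro a b hab
        rw [MulAction.orbitRel_apply] at hab
        obtain ⟨g, rfl⟩ := hab
        exact hinv g.1 g.2 b
      · funext x
        rfl
  rw [← hrange, LinearMap.finrank_range_of_inj hΦ, Module.finrank_fintype_fun_eq_card,
    Nat.card_eq_fintype_card]

/-- the determinant of the twisting operator -/
theorem twE_det_aux (hτ : τ ^ N = 1) (z : ℂ) :
    LinearMap.det (twE τ N z) = Complex.exp (-(Real.pi * Complex.I * z * ((Nat.card X : ℂ) -
      (Nat.card (MulAction.orbitRel.Quotient (Subgroup.zpowers τ) X) : ℂ)))) := by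
  rw [twE_det_eq_prod τ N hτ z]
  set d : ℕ → ℂ := fun s => LinearMap.trace ℂ (X → ℂ) (twPi τ N s) with hd
  have hd1 : ∀ s : Fin N, (Module.finrank ℂ (twW τ N s) : ℂ) = d s :=
    fun s => (twPi_trace τ N hτ s).symm
  have h1 : ∀ s : Fin N, twA N s z ^ Module.finrank ℂ (twW τ N s) =
      Complex.exp (d s * (-(2 * Real.pi * Complex.I * s * z / N))) := by
    intro s
    rw [← hd1, twA, ← Complex.exp_nat_mul]
  rw [Finset.prod_congr rfl (fun s _ => h1 s), ← Complex.exp_sum]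
  congr 1
  rw [Fin.sum_univ_eq_sum_range (fun s => d s * (-(2 * Real.pi * Complex.I * s * z / N))) N]
  have hsum := tw_weighted_sum d N (NeZero.ne N) (fun s hs => twPi_trace_symm τ N hτ hs)
  have htot : ∑ s ∈ range N, d s = (Nat.card X : ℂ) := by
    simp only [hd]
    rw [← map_sum, twPi_sum, LinearMap.trace_one, Module.finrank_fintype_fun_eq_card,
      Nat.card_eq_fintype_card]
  have h0 : d 0 = (Nat.card (MulAction.orbitRel.Quotient (Subgroup.zpowers τ) X) : ℂ) := by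
    have h := twPi_trace τ N hτ ⟨0, Nat.pos_of_ne_zero (NeZero.ne N)⟩
    simp only [hd]
    rw [h, twW]
    have h5 : twZ N ^ ((⟨0, Nat.pos_of_ne_zero (NeZero.ne N)⟩ : Fin N) : ℕ) = 1 := pow_zero _
    rw [h5, tw_finrank_fixed]
  rw [htot, h0] at hsum
  have hN : (N : ℂ) ≠ 0 := Nat.cast_ne_zero.mpr (NeZero.ne N)
  have h2 : ∑ s ∈ range N, d s * (-(2 * Real.pi * Complex.I * s * z / N)) =
      -(Real.pi * Complex.I * z / N) * (2 * ∑ s ∈ range N, (s : ℂ) * d s) := by
    rw [Finset.mul_sum, Finset.mul_sum]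
    refine Finset.sum_congr rfl fun s _ => ?_
    ring
  rw [h2, hsum]
  field_simp

end Det

/-- `det E(z) = exp (-πi z (|X| - #orbits of τ))` -/
theorem twE_det {X : Type*} [Finite X] (τ : Equiv.Perm X) (N : ℕ) [NeZero N] (hτ : τ ^ N = 1)
    (z : ℂ) :
    LinearMap.det (twE τ N z) = Complex.exp (-(Real.pi * Complex.I * z * ((Nat.card X : ℂ) -
      (Nat.card (MulAction.orbitRel.Quotient (Subgroup.zpowers τ) X) : ℂ)))) := by
  classical
  have : Fintype X := Fintype.ofFinite X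
  exact twE_det_aux τ N hτ z

end Fermat.Agent.S20
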